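import Fermat.Agent.RT.Lower.AwayAux
import Fermat.Agent.RT.Irr.Residual
import Fermat.Agent.RT.Shell

/-!
# Level lowering away from `p` for semistable curves

At a smallest residual level, primes at which `W[p]` is unramified are scalar by Mazur's principle,
with an auxiliary prime `r ≡ 2 (mod 3)` for `p = 3`, and lowering at scalar primes removes them.
-/

set_option autoImplicit false
set_option linter.style.haveILetI false

noncomputable section

open WeierstrassCurve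
open scoped WeierstrassCurve.Affine

namespace FLTAgent.RT.Lower

open LevelLower.Endgame

local notation "Qbar" => AlgebraicClosure ℚ

/-- Mazur's principle for `5 ≤ p`, and for `p = 3` with a prime `≡ 2 (mod 3)` in the level. -/
def MazurPrincipleExt : Prop :=
  ∀ {M q p : ℕ} [NeZero M] [Fact q.Prime] [Fact p.Prime], q ≠ p →
    (5 ≤ p ∨ (p = 3 ∧ ∃ r : ℕ, r.Prime ∧ r % 3 = 2 ∧ r ∣ M)) → ¬ q ∣ M → Squarefree M →
    MazurAt M q p

theorem mazurPrinciple_of_ext (h : MazurPrincipleExt) : MazurPrinciple :=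
  fun hqp hp5 hqM hsq => h hqp (Or.inl hp5) hqM hsq

variable (W : WeierstrassCurve ℤ) (p : ℕ)

/-- Lowering at scalar primes for a curve and an odd prime: there is no scalar prime in a minimal
level at whose other primes away from `p` it is scalar or ramified, also not after adding a prime
which cannot raise the level. If `p` is in the level, `W[p]` needs it. -/
def ScalarLoweringAt : Prop :=
  ∀ [Fact p.Prime] (hΔ : W.Δ ≠ 0), W.IsSemistableModel → p ≠ 2 → W.ModRepIsIrreducible p →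
    ∀ N q : ℕ, 0 < N → Squarefree N →
      (p ∣ N → (p : ℤ) ∣ W.Δ ∧ ¬ (W.map (Int.castRingHom ℚ)).IsPeuRamifieeAt p p) →
      q.Prime → q ≠ p → q ∣ N → IsScalarPrime hΔ p q →
      (∀ l : ℕ, l.Prime → l ∣ N → l ≠ p → IsScalarPrime hΔ p l ∨
        ¬ Affine.Point.GaloisRepUnramifiedAt (K := Qbar) ℚ (W.map (Int.castRingHom ℚ)) p l) →
      (∀ M : ℕ, M ∣ N → M ≠ N → ¬ W.IsResiduallyModularOfLevel p M) →
      (∀ r : ℕ, r.Prime → W.IsGoodPrimeFor r → r ≠ p → ¬ r ∣ N → (r : ZMod p) = -1 →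
        (W.apOfModel r : ZMod p) ≠ 0 →
        ∀ M : ℕ, M ∣ N → M ≠ N → ¬ W.IsResiduallyModularOfLevel p (M * r)) →
      W.IsResiduallyModularOfLevel p N → False

/-- Lowering at `p` of a peu ramifiée `W[p]`, up to the prime `2`. -/
def LowerAtPAt : Prop :=
  ∀ M : ℕ, Squarefree M → p ∣ M → (W.map (Int.castRingHom ℚ)).IsPeuRamifieeAt p p →
    W.IsResiduallyModularOfLevel p M → W.IsResiduallyModularOfLevel p (Nat.lcm 2 (M / p))

variable {W} {p} [Fact p.Prime]

theorem lowerAtPAt_of_lowerAtP (h39 : Wiring.LowerAtP) (hp2 : p ≠ 2) (hΔ : W.Δ ≠ 0)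
    (hss : W.IsSemistableModel) (hirr : W.ModRepIsIrreducible p) : LowerAtPAt W p := by
  intro M hM hpM hpeu hmod
  have hp : p.Prime := Fact.out
  have hM0 : 0 < M := Nat.pos_of_ne_zero hM.ne_zero
  have : NeZero (Nat.lcm 2 (M / p)) := ⟨Nat.lcm_ne_zero two_ne_zero
    (Nat.div_pos (Nat.le_of_dvd hM0 hpM) hp.pos).ne'⟩
  exact isResiduallyModularOfLevel_mono (Nat.dvd_lcm_right _ _)
    (h39 W hΔ hp hp2 (hss p hp) hirr hpeu hM0 hpM
      (fun h => hp.not_isUnit (hM p (by rwa [← pow_two]))) hmod)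

omit [Fact p.Prime] in
theorem dvd_Δ_of_not_peu
    (h : ¬ (W.map (Int.castRingHom ℚ)).IsPeuRamifieeAt p p) : (p : ℤ) ∣ W.Δ := by
  by_contra hbad
  refine h ?_
  rw [IsPeuRamifieeAt, map_Δ, eq_intCast, padicValRat.of_int,
    padicValInt.eq_zero_of_not_dvd hbad, Nat.cast_zero]
  exact dvd_zero _

/-- **A minimal level has no prime away from `p` at which `W[p]` is unramified.** -/
theorem not_dvd_of_minimalLevel (h35 : LevelDrop.NewformSpecialCharpoly) (hmz : MazurPrincipleExt)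
    (hL : ScalarLoweringAt W p) (hΔ : W.Δ ≠ 0) (hss : W.IsSemistableModel) (hp2 : p ≠ 2)
    (hirr : W.ModRepIsIrreducible p) {N : ℕ} (hsq : Squarefree N)
    (hpN : p ∣ N → ¬ (W.map (Int.castRingHom ℚ)).IsPeuRamifieeAt p p)
    (hmin : ∀ M : ℕ, M ∣ N → M ≠ N → ¬ W.IsResiduallyModularOfLevel p M)
    (hmod : W.IsResiduallyModularOfLevel p N) {q : ℕ} (hq : q.Prime) (hqp : q ≠ p)
    (hunr : Affine.Point.GaloisRepUnramifiedAt (K := Qbar) ℚ (W.map (Int.castRingHom ℚ)) p q) :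
    ¬ q ∣ N := by
  intro hqN
  have hN : 0 < N := Nat.pos_of_ne_zero hsq.ne_zero
  have hp : p.Prime := Fact.out
  have haux : ∀ r : ℕ, r.Prime → W.IsGoodPrimeFor r → r ≠ p → ¬ r ∣ N → (r : ZMod p) = -1 →
      (W.apOfModel r : ZMod p) ≠ 0 →
      ∀ M : ℕ, M ∣ N → M ≠ N → ¬ W.IsResiduallyModularOfLevel p (M * r) := by
    intro r hr hgood hrp hrN hr1 ha M hM hne h
    have : NeZero M := ⟨fun e => hN.ne' (zero_dvd_iff.mp (e ▸ hM))⟩
    refine hmin M hM hne (isResiduallyModularOfLevel_of_mul h35 hΔ hr hgood hrp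
      (fun h' => hrN (h'.trans hM)) ?_ h)
    rw [hr1, neg_add_cancel, zero_pow two_ne_zero]
    exact pow_ne_zero 2 ha
  have key : ∀ l : ℕ, l.Prime → l ∣ N → l ≠ p →
      Affine.Point.GaloisRepUnramifiedAt (K := Qbar) ℚ (W.map (Int.castRingHom ℚ)) p l →
      IsScalarPrime hΔ p l := by
    intro l hl hlN hlp hu
    obtain ⟨M, hM⟩ := hlN
    rw [mul_comm] at hM
    have hlM : ¬ l ∣ M := fun h => hl.not_isUnit <| hsq l (by
      rw [hM]; exact mul_dvd_mul_right h l)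
    have hMN : M ∣ N := hM ▸ dvd_mul_right M l
    have hne : M ≠ N := fun h => hlM (h ▸ hM ▸ dvd_mul_left l M)
    have hM0 : 0 < M := Nat.pos_of_dvd_of_pos hMN hN
    have : NeZero M := ⟨hM0.ne'⟩
    have : Fact l.Prime := ⟨hl⟩
    by_cases hp5 : 5 ≤ p
    · exact isScalarPrime_of_mazurAt hΔ hp2 hirr
        (hmz hlp (Or.inl hp5) hlM (hsq.squarefree_of_dvd hMN)) hlp hu (hM ▸ hmod) (hmin M hMN hne)
    obtain rfl : p = 3 := by
      by_contra h3
      exact hp5 (hp.five_le_of_ne_two_of_ne_three hp2 h3)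
    obtain ⟨r, hr, hrS, hgood, hr3, hra⟩ :=
      RTIrr.exists_auxiliary_prime_three hΔ hss hirr (insert 3 N.primeFactors)
    simp only [Finset.mem_insert, Nat.mem_primeFactors, not_or] at hrS
    have hrN : ¬ r ∣ N := fun h => hrS.2 ⟨hr, h, hN.ne'⟩
    have hlr : l ≠ r := fun h => hrN (h ▸ hM ▸ dvd_mul_left l M)
    have hlMr : ¬ l ∣ M * r := fun h =>
      (hl.dvd_mul.mp h).elim hlM fun h' => hlr ((Nat.prime_dvd_prime_iff_eq hl hr).mp h')
    have hsqMr : Squarefree (M * r) :=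
      (Nat.squarefree_mul (hr.coprime_iff_not_dvd.2 fun h => hrN (h.trans hMN)).symm).2
        ⟨hsq.squarefree_of_dvd hMN, hr.squarefree⟩
    have hMr0 : M * r ≠ 0 := mul_ne_zero hM0.ne' hr.ne_zero
    have : NeZero (M * r) := ⟨hMr0⟩
    have : NeZero (M * r * l) := ⟨mul_ne_zero hMr0 hl.ne_zero⟩
    have hr1 : (r : ZMod 3) = -1 := by
      have e : (r : ZMod 3) = ((2 : ℕ) : ZMod 3) :=
        (ZMod.natCast_eq_natCast_iff' r 2 3).mpr (by omega)
      rw [e]; rfl
    have hra' : (W.apOfModel r : ZMod 3) ≠ 0 := fun h =>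
      hra (by exact_mod_cast (ZMod.intCast_zmod_eq_zero_iff_dvd (W.apOfModel r) 3).mp h)
    refine isScalarPrime_of_mazurAt hΔ hp2 hirr
      (hmz hlp (Or.inr ⟨rfl, r, hr, hr3, dvd_mul_left r M⟩) hlMr hsqMr) hlp hu ?_
      (haux r hr hgood hrS.1 hrN hr1 hra' M hMN hne)
    exact isResiduallyModularOfLevel_mono (mul_dvd_mul_right (dvd_mul_right M r) l) (hM ▸ hmod)
  refine hL hΔ hss hp2 hirr N q hN hsq (fun h => ⟨dvd_Δ_of_not_peu (hpN h), hpN h⟩) hq hqp
    hqN (key q hq hqN hqp hunr) (fun l hl hlN hlp => ?_) hmin haux hmod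
  by_cases hu : Affine.Point.GaloisRepUnramifiedAt (K := Qbar) ℚ (W.map (Int.castRingHom ℚ)) p l
  · exact Or.inl (key l hl hlN hlp hu)
  · exact Or.inr hu

/-- **Residual modularity at the minimal level.** -/
theorem isResiduallyModular_minLevel (h35 : LevelDrop.NewformSpecialCharpoly)
    (hmz : MazurPrincipleExt) (hL : ScalarLoweringAt W p) (h39 : LowerAtPAt W p) (hp2 : p ≠ 2)
    (hΔ : W.Δ ≠ 0) (hss : W.IsSemistableModel) (hirr : W.ModRepIsIrreducible p) {M : ℕ}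
    (hsq : Squarefree M) (hmod : W.IsResiduallyModularOfLevel p M) :
    W.IsResiduallyModularOfLevel p (Shell.minLevel W p) := by
  classical
  have hp : p.Prime := Fact.out
  have hL0 : 0 < Nat.lcm 2 M := Nat.pos_of_ne_zero (Nat.lcm_ne_zero two_ne_zero hsq.ne_zero)
  have hsq2 : Squarefree (Nat.lcm 2 M) := by
    refine (Nat.squarefree_iff_factorization_le_one hL0.ne').2 fun l => ?_
    rw [Nat.factorization_lcm two_ne_zero hsq.ne_zero, Finsupp.sup_apply]
    exact sup_le (Nat.prime_two.squarefree.natFactorization_le_one l)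
      (hsq.natFactorization_le_one l)
  have : NeZero (Nat.lcm 2 M) := ⟨hL0.ne'⟩
  have hex : ∃ N : ℕ, N ∣ Nat.lcm 2 M ∧ W.IsResiduallyModularOfLevel p N :=
    ⟨Nat.lcm 2 M, dvd_rfl, isResiduallyModularOfLevel_mono (Nat.dvd_lcm_right 2 M) hmod⟩
  obtain ⟨hNM, hN⟩ := Nat.find_spec hex
  have hsqN := hsq2.squarefree_of_dvd hNM
  have hNpos : 0 < Nat.find hex := Nat.pos_of_dvd_of_pos hNM hL0
  have hmin : ∀ N', N' ∣ Nat.find hex → N' ≠ Nat.find hex →
      ¬ W.IsResiduallyModularOfLevel p N' := fun N' h hne h' =>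
    hne (le_antisymm (Nat.le_of_dvd hNpos h) (Nat.find_min' hex ⟨h.trans hNM, h'⟩))
  have hpN : p ∣ Nat.find hex → ¬ (W.map (Int.castRingHom ℚ)).IsPeuRamifieeAt p p := by
    intro hd hpeu
    have h := h39 _ hsqN hd hpeu hN
    have hdiv : Nat.lcm 2 (Nat.find hex / p) ∣ Nat.lcm 2 M :=
      Nat.lcm_dvd (Nat.dvd_lcm_left 2 M) ((Nat.div_dvd_of_dvd hd).trans hNM)
    have h1 : Nat.find hex ≤ Nat.lcm 2 (Nat.find hex / p) := Nat.find_min' hex ⟨hdiv, h⟩
    have hq0 : 0 < Nat.find hex / p := Nat.div_pos (Nat.le_of_dvd hNpos hd) hp.pos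
    have h2 : Nat.lcm 2 (Nat.find hex / p) ≤ 2 * (Nat.find hex / p) :=
      Nat.le_of_dvd (Nat.mul_pos two_pos hq0) (Nat.lcm_dvd_mul _ _)
    have h3 : p * (Nat.find hex / p) = Nat.find hex := Nat.mul_div_cancel' hd
    have : 2 < p := lt_of_le_of_ne hp.two_le (Ne.symm hp2)
    nlinarith
  have : NeZero (Shell.minLevel W p) := ⟨Shell.minLevel_pos.ne'⟩
  refine Shell.isResiduallyModularOfLevel_of_dvd ?_ hN
  rw [← Nat.prod_primeFactors_of_squarefree hsqN]
  refine Finset.prod_dvd_prod_of_subset _ _ _ fun q hq => ?_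
  obtain ⟨hqP, hqN, -⟩ := Nat.mem_primeFactors.1 hq
  rcases eq_or_ne q p with rfl | hqp
  · exact (Shell.mem_minPrimes hΔ).2
      ⟨⟨hqP, dvd_Δ_of_not_peu (hpN hqN)⟩, Or.inl ⟨rfl, hpN hqN⟩⟩
  · have hram : ¬ Affine.Point.GaloisRepUnramifiedAt (K := Qbar) ℚ (W.map (Int.castRingHom ℚ)) p q :=
      fun hu => not_dvd_of_minimalLevel h35 hmz hL hΔ hss hp2 hirr hsqN hpN hmin hN hqP hqp hu hqN
    refine (Shell.mem_minPrimes hΔ).2 ⟨⟨hqP, ?_⟩, Or.inr ⟨hqp, hram⟩⟩
    by_contra hbad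
    exact hram (Reduction.galoisRepUnramifiedAt_of_good W hqP hbad
      fun h => hqp ((Nat.prime_dvd_prime_iff_eq hqP hp).1 h))

end FLTAgent.RT.Lower
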