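import Fermat.Agent.RT.Lower.Away

/-!
# Level lowering away from `p` in the shapes of the outer shell and of the descent
-/

set_option autoImplicit false
set_option linter.style.haveILetI false

noncomputable section

open WeierstrassCurve
open scoped WeierstrassCurve.Affine

namespace FLTAgent.RT.Lower

open LevelLower.Endgame

/-- **The statement `S38`**, from lowering at `p`, Mazur's principle and lowering at scalar
primes. -/
theorem lowerAwayFromP (h35 : LevelDrop.NewformSpecialCharpoly) (hmz : MazurPrincipleExt)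
    (hL : ∀ (W : WeierstrassCurve ℤ) (p : ℕ), ScalarLoweringAt W p) (h39 : Wiring.LowerAtP) :
    Wiring.LowerAwayFromP := by
  intro p _ hp2 W hΔ hss hcard hker hirr M q hq hqp hqM _ hsq hunr hmod
  classical
  have hp : p.Prime := Fact.out
  have hM0 : 0 < M := Nat.pos_of_ne_zero hsq.ne_zero
  have hex : ∃ N : ℕ, N ∣ M ∧ W.IsResiduallyModularOfLevel p N := ⟨M, dvd_rfl, hmod⟩
  obtain ⟨hNM, hN⟩ := Nat.find_spec hex
  have hsqN := hsq.squarefree_of_dvd hNM
  have hNpos : 0 < Nat.find hex := Nat.pos_of_dvd_of_pos hNM hM0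
  have hmin : ∀ N', N' ∣ Nat.find hex → N' ≠ Nat.find hex →
      ¬ W.IsResiduallyModularOfLevel p N' := fun N' h hne h' =>
    hne (le_antisymm (Nat.le_of_dvd hNpos h) (Nat.find_min' hex ⟨h.trans hNM, h'⟩))
  have hpN : p ∣ Nat.find hex → ¬ (W.map (Int.castRingHom ℚ)).IsPeuRamifieeAt p p := fun hd hpeu =>
    hmin _ (Nat.div_dvd_of_dvd hd) (Nat.div_lt_self hNpos hp.one_lt).ne
      (h39 W hΔ hp hp2 (hss p hp) hirr hpeu hNpos hd
        (fun h => hp.not_isUnit (hsqN p (by rwa [← pow_two]))) hN)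
  have hqN : ¬ q ∣ Nat.find hex := not_dvd_of_minimalLevel h35 hmz (hL W p) hΔ hss hp2 hirr hsqN hpN
    hmin hN hq hqp fun A hA σ hσ x => LinearMap.congr_fun (hunr A hA σ hσ) x
  have : NeZero (M / q) := ⟨(Nat.div_pos (Nat.le_of_dvd hM0 hqM) hq.pos).ne'⟩
  refine isResiduallyModularOfLevel_mono
    (Nat.Coprime.dvd_of_dvd_mul_left ((hq.coprime_iff_not_dvd.2 hqN).symm) ?_) hN
  rw [Nat.mul_div_cancel' hqM]
  exact hNM

/-- Lowering at scalar primes in the shape used for the Frey curve. -/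
theorem scalarLowering_of_at (h35 : LevelDrop.NewformSpecialCharpoly) {W : WeierstrassCurve ℤ}
    {p : ℕ} (hL : ScalarLoweringAt W p) : ScalarLowering W p := by
  intro _ hΔ hss hp5 hirr N q hN hsq hpN hq hqN hscal hother hmin hmod
  refine hL hΔ hss (by omega) hirr N q hN hsq (fun h => absurd h hpN) hq
    (fun h => hpN (h ▸ hqN)) hqN hscal (fun l hl hlN _ => hother l hl hlN) hmin ?_ hmod
  intro r hr hgood hrp hrN hr1 ha M hM hne h
  have : NeZero M := ⟨fun e => hN.ne' (zero_dvd_iff.mp (e ▸ hM))⟩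
  refine hmin M hM hne (isResiduallyModularOfLevel_of_mul h35 hΔ hr hgood hrp
    (fun h' => hrN (h'.trans hM)) ?_ h)
  rw [hr1, neg_add_cancel, zero_pow two_ne_zero]
  exact pow_ne_zero 2 ha

/-- The statement `S43`. -/
theorem freyLowerAwayFromP_of_at (P : FreyPackage) (h35 : LevelDrop.NewformSpecialCharpoly)
    (hmz : MazurPrincipleExt) (hL : ScalarLoweringAt P.freyCurveInt P.p)
    (h44 : Wiring.FreyLowerAtP P) : Wiring.FreyLowerAwayFromP P :=
  LevelLower.Endgame.freyLowerAwayFromP P (mazurPrinciple_of_ext hmz)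
    (scalarLowering_of_at h35 hL) h44

variable {W : WeierstrassCurve ℤ} {p : ℕ} [Fact p.Prime]

/-- The statement `S59` from the chain, with level lowering for this curve and prime. -/
theorem modularityLifting_of_lowering (hp2 : p ≠ 2) (hΔ : W.Δ ≠ 0) (hss : W.IsSemistableModel)
    (hirr : W.ModRepIsIrreducible p) (h35 : LevelDrop.NewformSpecialCharpoly)
    (hrem : Shell.RemoveSquare W p) (hmz : MazurPrincipleExt) (hL : ScalarLoweringAt W p)
    (h39 : LowerAtPAt W p) (hchain : Shell.ChainConclusion W p) {M₀ : ℕ} [NeZero M₀]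
    (hres : W.IsResiduallyModularOfLevel p M₀) (hM₀ : ¬ p ^ 2 ∣ M₀)
    (hM₀3 : ∀ q : ℕ, q.Prime → q ≠ p → ¬ q ^ 3 ∣ M₀) :
    Mlc1IsModularModelOfExactConductorLevel W := by
  have hpp : p.Prime := Fact.out
  have hlt : ∀ l k : ℕ, l.Prime → ¬ l ^ (k + 1) ∣ M₀ → M₀.factorization l ≤ k := fun l k hl h =>
    Nat.le_of_lt_succ (Nat.lt_of_not_le fun h' =>
      h ((hl.pow_dvd_iff_le_factorization (NeZero.ne M₀)).2 h'))
  have h1 : M₀.factorization p ≤ 1 := hlt p 1 hpp hM₀
  have h2 : ∀ l : ℕ, M₀.factorization l ≤ 2 := fun l => by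
    by_cases hl : l.Prime
    · rcases eq_or_ne l p with rfl | hlp
      · exact h1.trans one_le_two
      · exact hlt l 2 hl (hM₀3 l hl hlp)
    · rw [Nat.factorization_eq_zero_of_not_prime M₀ hl]
      exact Nat.zero_le 2
  obtain ⟨M, hsqM, hM⟩ :=
    Shell.exists_squarefree_residual hrem (Nat.pos_of_neZero M₀) h2 h1 hres
  obtain ⟨N, hN, hmod⟩ :=
    hchain (isResiduallyModular_minLevel h35 hmz hL h39 hp2 hΔ hss hirr hsqM hM)
  exact Shell.exactConductorLevel_of_squarefree hΔ h35 hN hmod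

end FLTAgent.RT.Lower
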