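import Fermat.Agent.RT.Lower.AwayEmbed
import Fermat.Agent.LevelDrop.Core
import Fermat.Agent.LevelLower.Endgame.General

/-!
# Removing a prime that cannot raise the level

A good prime `r ≠ p` with `a_r² ≢ (r + 1)²` modulo `p` is not needed in a level of residual
modularity.
-/

set_option autoImplicit false
set_option linter.style.haveILetI false

noncomputable section

open WeierstrassCurve Polynomial IsLocalRing
open scoped WeierstrassCurve.Affine

namespace FLTAgent.RT.Lower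

local notation "Qbar" => AlgebraicClosure ℚ
local notation "Γℚ" => AlgebraicClosure ℚ ≃ₐ[ℚ] AlgebraicClosure ℚ
local notation "Zc" => integralClosure ℤ ℂ

variable {W : WeierstrassCurve ℤ} {p : ℕ} [Fact p.Prime]

/-- At a prime exactly dividing the level of a congruent newform the trace is `±(r + 1)`. -/
theorem sq_eq_of_newform (h35 : LevelDrop.NewformSpecialCharpoly) (hΔ : W.Δ ≠ 0) {M : ℕ} [NeZero M]
    {g : CuspForm (CongruenceSubgroup.Gamma0 M) 2} (hg : g.IsNewform) (𝔪 : Ideal Zc)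
    [𝔪.IsMaximal] (hpm : (p : Zc) ∈ 𝔪) (T : Finset ℕ)
    (hcong : ∀ ℓ : ℕ, ℓ.Prime → W.IsGoodPrimeFor ℓ → ¬ ℓ ∣ M → ℓ ≠ p → ℓ ∉ T →
      ∃ a : Zc, (a : ℂ) = ModularFormClass.qCoeff g ℓ ∧ a - ((W.apOfModel ℓ : ℤ) : Zc) ∈ 𝔪)
    {r : ℕ} (hr : r.Prime) (hgood : W.IsGoodPrimeFor r) (hrp : r ≠ p) (hrM : r ∣ M)
    (hr2 : ¬ r ^ 2 ∣ M) : (W.apOfModel r : ZMod p) ^ 2 = ((r : ZMod p) + 1) ^ 2 := by
  classical
  set S : Finset ℕ := insert p M.primeFactors with hS
  set chig := FLTAgent.Quick.eigenformChar hg.isNormalizedEigenform (↑S : Set ℕ)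
  have := FLTAgent.IntegralStructure.moduleFinite_heckeAlgebra (N := M) 2 (↑S : Set ℕ)
  have hfin : Module.Finite ℤ chig.range :=
    Module.Finite.of_surjective chig.rangeRestrict.toIntAlgHom.toLinearMap
      chig.rangeRestrict_surjective
  have hint : Algebra.IsIntegral ℤ chig.range := Algebra.IsIntegral.of_finite ℤ _
  let ι₀ : chig.range →+* Zc := chig.range.subtype.codRestrict (integralClosure ℤ ℂ) fun x =>
    (hint.isIntegral x).map chig.range.subtype.toIntAlgHom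
  let P : Ideal chig.range := 𝔪.comap ι₀
  have hpP : (p : chig.range) ∈ P := by rwa [Ideal.mem_comap, map_natCast]
  have : P.IsPrime := Ideal.IsPrime.comap _
  have : P.IsMaximal := isMaximal_of_natCast_mem (p := p) P hpP
  obtain ⟨O', _, _, _, _, _, _, hpO, iota, -, hiota⟩ := exists_dvr_embedding_over p P hpP
  obtain ⟨O'', _, _, _, _, _, _, _, _, hloc, -, ρ, hρ, hspec⟩ :=
    h35 hg p S O' hpO chig
      (fun ℓ hℓ hℓM hℓS => FLTAgent.Quick.eigenformChar_T hg.isNormalizedEigenform hℓ hℓM hℓS)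
      iota (Finset.mem_insert_self _ _)
      (fun q hq hqM => Finset.mem_insert_of_mem (Nat.mem_primeFactors.mpr ⟨hq, hqM, NeZero.ne M⟩))
  set k := ResidueField O''
  have hp0 : (p : k) = 0 := by
    rw [← map_natCast (residue O''), residue_eq_zero_iff, ← map_natCast (algebraMap O' O'')]
    exact fun hu => hpO (hloc.map_nonunit _ hu)
  have : CharP k p := (CharP.charP_iff_prime_eq_zero Fact.out).mpr hp0
  let φ : ZMod p →+* k := ZMod.castHom dvd_rfl k
  have key : ∀ σ : Γℚ, LinearMap.charpoly (ρ.residual.ρ σ) =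
      (LinearMap.charpoly ((LevelDrop.torsRep hΔ p).ρ σ)).map φ := by
    refine LevelDrop.eq_of_frobenius LevelDrop.frobeniusDense _ _ ?_ ?_
      (S ∪ T ∪ W.Δ.natAbs.primeFactors) fun ℓ hℓ hℓT A hA σ hσ => ?_
    · obtain ⟨L, hL, hfix⟩ := ρ.residual.factorsThroughFiniteLevel
      refine ⟨L, hL, fun g σ hag => ?_⟩
      simp only
      rw [show σ = g * (g⁻¹ * σ) by group, map_mul,
        hfix _ (FLTAgent.GalRep.fixing_of_agree hag).1, mul_one]
    · obtain ⟨L, hL, hfix⟩ := (LevelDrop.torsRep hΔ p).factorsThroughFiniteLevel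
      refine ⟨L, hL, fun g σ hag => ?_⟩
      simp only
      rw [show σ = g * (g⁻¹ * σ) by group, map_mul,
        hfix _ (FLTAgent.GalRep.fixing_of_agree hag).1, mul_one]
    · simp only [hS, Finset.mem_union, Finset.mem_insert, Nat.mem_primeFactors, not_or] at hℓT
      have hℓM : ¬ ℓ ∣ M := fun h => hℓT.1.1.2 ⟨hℓ, h, NeZero.ne M⟩
      have hℓS : ℓ ∉ (↑S : Set ℕ) := by
        simp only [hS, Finset.coe_insert, Set.mem_insert_iff, Finset.mem_coe, Nat.mem_primeFactors,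
          not_or]
        exact hℓT.1.1
      have hg' : W.IsGoodPrimeFor ℓ := fun h =>
        hℓT.2 ⟨hℓ, Int.natCast_dvd.mp h, Int.natAbs_ne_zero.mpr hΔ⟩
      obtain ⟨a, ha, ham⟩ := hcong ℓ hℓ hg' hℓM hℓT.1.1.1 hℓT.1.2
      set t := chig.rangeRestrict (CuspForm.heckeAlgebra.T hℓ hℓM hℓS)
      have ht : t - ((W.apOfModel ℓ : ℤ) : chig.range) ∈ P := by
        rw [Ideal.mem_comap, map_sub, map_intCast]
        convert ham using 3
        exact Subtype.ext ((FLTAgent.Quick.eigenformChar_T hg.isNormalizedEigenform hℓ hℓM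
          hℓS).trans ha.symm)
      rw [← hiota, Ideal.mem_comap, map_sub, map_intCast] at ht
      have hres : residue O'' (algebraMap O' O'' (iota t)) = (W.apOfModel ℓ : k) := by
        rw [← map_intCast (residue O''), ← map_intCast (algebraMap O' O''), ← sub_eq_zero,
          ← map_sub, ← map_sub, residue_eq_zero_iff]
        exact fun hu => ht (hloc.map_nonunit _ hu)
      rw [LevelDrop.charpoly_residual, hρ ℓ hℓ hℓM hℓS A hA σ hσ, RingHom.comp_apply,
        LevelDrop.charpoly_torsRep_frobenius hΔ p hℓ hg' hℓT.1.1.1 A hA σ hσ]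
      simp only [Polynomial.map_add, Polynomial.map_sub, Polynomial.map_mul, Polynomial.map_pow,
        Polynomial.map_X, Polynomial.map_intCast, Polynomial.map_natCast, Polynomial.map_C,
        map_intCast, map_natCast]
      rw [hres, map_intCast]
  obtain ⟨A, σ, hA, hσ⟩ := FLTAgent.Frobenius.exists_liesOverPrime_isFrobeniusAt hr
  have h := key σ
  rw [LevelDrop.charpoly_residual,
    LevelDrop.charpoly_torsRep_frobenius hΔ p hr hgood hrp A hA σ hσ] at h
  refine φ.injective ?_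
  rcases hspec r hr hrp hrM hr2 A hA σ hσ with hs | hs <;> rw [hs] at h <;>
    have e := congrArg (fun f : k[X] => f.coeff 1) h <;>
    simp [coeff_X_pow] at e
  · rw [map_pow, map_pow, map_add, map_natCast, map_one, map_intCast]
    linear_combination (((W.apOfModel r : ℤ) : k) + ((r : k) + 1)) * e
  · rw [map_pow, map_pow, map_add, map_natCast, map_one, map_intCast]
    linear_combination (((W.apOfModel r : ℤ) : k) - ((r : k) + 1)) * e

/-- **A prime that cannot raise the level leaves a residual level.** -/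
theorem isResiduallyModularOfLevel_of_mul (h35 : LevelDrop.NewformSpecialCharpoly) (hΔ : W.Δ ≠ 0)
    {r : ℕ} (hr : r.Prime) (hgood : W.IsGoodPrimeFor r) (hrp : r ≠ p) {M : ℕ} [NeZero M]
    (hrM : ¬ r ∣ M) (hne : (W.apOfModel r : ZMod p) ^ 2 ≠ ((r : ZMod p) + 1) ^ 2)
    (hmod : W.IsResiduallyModularOfLevel p (M * r)) : W.IsResiduallyModularOfLevel p M := by
  have : NeZero (M * r) := ⟨mul_ne_zero (NeZero.ne M) hr.ne_zero⟩
  obtain ⟨f, 𝔪, hf, h𝔪, hpm, hc⟩ := hmod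
  obtain ⟨M', g, hM', hg, hag⟩ := LevelDrop.exists_newform (NeZero.ne (M * r)) hf
  have : NeZero M' := ⟨fun e => NeZero.ne (M * r) (zero_dvd_iff.mp (e ▸ hM'))⟩
  have hcong : ∀ ℓ : ℕ, ℓ.Prime → W.IsGoodPrimeFor ℓ → ¬ ℓ ∣ M' → ℓ ≠ p →
      ℓ ∉ (M * r).primeFactors →
      ∃ a : Zc, (a : ℂ) = ModularFormClass.qCoeff g ℓ ∧ a - ((W.apOfModel ℓ : ℤ) : Zc) ∈ 𝔪 := by
    intro ℓ hℓ hg' _ hℓp hℓT
    have hℓN : ¬ ℓ ∣ M * r := fun h => hℓT (Nat.mem_primeFactors.2 ⟨hℓ, h, NeZero.ne _⟩)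
    obtain ⟨a, ha, ham⟩ := hc ℓ hℓ hg' hℓN hℓp
    exact ⟨a, ha.trans (hag ℓ hℓ hℓN).symm, ham⟩
  by_cases hrM' : r ∣ M'
  · refine absurd (sq_eq_of_newform h35 hΔ hg 𝔪 hpm _ hcong hr hgood hrp hrM' fun h2 => ?_) hne
    have h2' := h2.trans hM'
    rw [pow_two, mul_comm M r] at h2'
    exact hrM ((Nat.mul_dvd_mul_iff_left hr.pos).1 h2')
  have hM'M : M' ∣ M := (((hr.coprime_iff_not_dvd).2 hrM').symm).dvd_of_dvd_mul_right hM'
  refine LevelLower.Endgame.isResiduallyModularOfLevel_mono hM'M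
    ⟨g, 𝔪, hg.isNormalizedEigenform, h𝔪, hpm, fun ℓ hℓ hg' hℓM' hℓp => ?_⟩
  obtain ⟨⟨z, hz, hzm⟩, hmat⟩ := LevelLower.Endgame.torsMat_of_congr hΔ p hg.isNormalizedEigenform
    𝔪 hpm _ hcong hℓ hℓM' hℓp
  obtain ⟨A, σ, hA, hσ⟩ := FLTAgent.Frobenius.exists_liesOverPrime_isFrobeniusAt hℓ
  have he : ((LevelLower.Endgame.frobTrace hΔ p ℓ : ℤ) : ZMod p) = (W.apOfModel ℓ : ZMod p) := by
    rw [Int.cast_natCast, ← (hmat A hA σ hσ).1,
      (LevelLower.Endgame.torsMat_frobenius hΔ p hℓ hg' hℓp A hA σ hσ).1]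
  rw [ZMod.intCast_eq_intCast_iff_dvd_sub] at he
  obtain ⟨d, hd⟩ := he
  refine ⟨z, hz, ?_⟩
  have hmem : ((LevelLower.Endgame.frobTrace hΔ p ℓ : ℕ) : Zc) - ((W.apOfModel ℓ : ℤ) : Zc) ∈ 𝔪 := by
    rw [← neg_sub, ← Int.cast_natCast (R := Zc), ← Int.cast_sub, hd, Int.cast_mul,
      Int.cast_natCast]
    exact 𝔪.neg_mem (𝔪.mul_mem_right _ hpm)
  simpa using 𝔪.add_mem hzm hmem

end FLTAgent.RT.Lower
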