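import Fermat.Agent.LevelDrop.Embed
import Fermat.Agent.LevelSq.Eigen
import Mathlib.FieldTheory.Minpoly.IsIntegrallyClosed

/-!
# Embedding an order over a given prime

An order embeds into a complete discrete valuation ring with finite residue field over any given
maximal ideal containing `p`.
-/

set_option autoImplicit false
set_option linter.style.haveILetI false

noncomputable section

namespace FLTAgent.RT.Lower

open Polynomial IsLocalRing

variable {R : Type} [CommRing R] [IsDomain R] [CharZero R] [Module.Finite ℤ R]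

omit [CharZero R] in
/-- A ring homomorphism of an order into a domain of characteristic zero is injective. -/
theorem injective_of_order {K : Type*} [CommRing K] [IsDomain K] [CharZero K] (σ : R →+* K) :
    Function.Injective σ := by
  have : Algebra.IsIntegral ℤ R := Algebra.IsIntegral.of_finite ℤ R
  refine (RingHom.injective_iff_ker_eq_bot σ).mpr ?_
  have : (RingHom.ker σ).IsPrime := RingHom.ker_isPrime σ
  refine Ideal.eq_bot_of_comap_eq_bot (R := ℤ) (le_bot_iff.mp fun z hz => ?_)
  rw [Ideal.mem_comap, RingHom.mem_ker] at hz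
  simpa using hz

/-- Every conjugate of an element extends to a complex embedding of the order. -/
theorem exists_embedding_root (e : R) {β : ℂ} (hβ : aeval β (minpoly ℤ e) = 0) :
    ∃ σ : R →ₐ[ℤ] ℂ, σ e = β := by
  have hint : Algebra.IsIntegral ℤ R := Algebra.IsIntegral.of_finite ℤ R
  have : Module.IsTorsionFree ℤ R :=
    Module.isTorsionFree_iff_algebraMap_injective.mpr (FaithfulSMul.algebraMap_injective ℤ R)
  let E := minpoly.equivAdjoin (hint.isIntegral e)
  let ψ : AdjoinRoot (minpoly ℤ e) →+* ℂ := AdjoinRoot.lift (algebraMap ℤ ℂ) β hβ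
  let i : Algebra.adjoin ℤ {e} →+* R := (Algebra.adjoin ℤ {e}).val.toRingHom
  have hi : i.IsIntegral := fun x => by
    let _ : Algebra (Algebra.adjoin ℤ {e}) R := i.toAlgebra
    exact IsIntegral.tower_top (R := ℤ) (hint.isIntegral x)
  obtain ⟨χ, hχ⟩ := LevelSq.exists_char_extension i Subtype.val_injective hi
    (ψ.comp E.symm.toRingHom)
  refine ⟨χ.toIntAlgHom, ?_⟩
  have h : E (AdjoinRoot.root (minpoly ℤ e)) = ⟨e, Algebra.self_mem_adjoin_singleton ℤ e⟩ := by
    rw [minpoly.coe_equivAdjoin]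
    exact Subtype.ext (by simp [AdjoinRoot.Minpoly.toAdjoin])
  have h' := DFunLike.congr_fun hχ ⟨e, Algebra.self_mem_adjoin_singleton ℤ e⟩
  show χ e = β
  rw [RingHom.comp_apply, RingHom.comp_apply] at h'
  refine h'.trans ?_
  show ψ (E.symm _) = β
  rw [← h, AlgEquiv.symm_apply_apply]
  exact AdjoinRoot.lift_root _

omit [IsDomain R] [CharZero R] in
theorem isMaximal_of_natCast_mem {p : ℕ} [Fact p.Prime] (Q : Ideal R) [Q.IsPrime]
    (hp : (p : R) ∈ Q) : Q.IsMaximal := by
  have : Algebra.IsIntegral ℤ R := Algebra.IsIntegral.of_finite ℤ R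
  refine Ideal.isMaximal_of_isIntegral_of_isMaximal_comap (R := ℤ) Q ?_
  refine Ideal.IsPrime.isMaximal (Ideal.IsPrime.comap _) fun h => ?_
  have hmem : (p : ℤ) ∈ Q.comap (algebraMap ℤ R) := by rwa [Ideal.mem_comap, map_natCast]
  rw [h, Ideal.mem_bot, Nat.cast_eq_zero] at hmem
  exact (Fact.out : p.Prime).ne_zero hmem

/-- **An embedding over a given prime.** -/
theorem exists_dvr_embedding_over (p : ℕ) [Fact p.Prime] (P : Ideal R) [P.IsMaximal]
    (hp : (p : R) ∈ P) :
    ∃ (O' : Type) (_ : CommRing O') (_ : IsDomain O') (_ : IsDiscreteValuationRing O')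
      (_ : IsAdicComplete (maximalIdeal O') O') (_ : Finite (ResidueField O')) (_ : CharZero O'),
      (p : O') ∈ maximalIdeal O' ∧ ∃ iota : R →+* O', Function.Injective iota ∧
        (maximalIdeal O').comap iota = P := by
  classical
  have hint : Algebra.IsIntegral ℤ R := Algebra.IsIntegral.of_finite ℤ R
  obtain ⟨G, hG⟩ := (inferInstance : Module.Finite ℤ R).fg_top
  let S : Finset ℂ := G.biUnion fun g => ((minpoly ℤ g).aroots ℂ).toFinset
  have hS : ∀ (σ : R →ₐ[ℤ] ℂ), ∀ g ∈ G, σ g ∈ S := fun σ g hg => by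
    rw [Finset.mem_biUnion]
    refine ⟨g, hg, Multiset.mem_toFinset.2 (mem_aroots.2
      ⟨minpoly.ne_zero (hint.isIntegral g), ?_⟩)⟩
    rw [aeval_algHom_apply, minpoly.aeval, map_zero]
  let R' := Algebra.adjoin ℤ (S : Set ℂ)
  have : Module.Finite ℤ R' := Module.Finite.iff_fg.2 <| fg_adjoin_of_finite S.finite_toSet
    fun x hx => by
      obtain ⟨g, -, hx⟩ := Finset.mem_biUnion.1 (Finset.mem_coe.1 hx)
      obtain ⟨-, h0⟩ := mem_aroots.1 (Multiset.mem_toFinset.1 hx)
      exact ⟨minpoly ℤ g, minpoly.monic (hint.isIntegral g), h0⟩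
  have hR' : ∀ (σ : R →ₐ[ℤ] ℂ) (r : R), σ r ∈ R' := fun σ r => by
    have hr : r ∈ Submodule.span ℤ (G : Set R) := hG ▸ Submodule.mem_top
    induction hr using Submodule.span_induction with
    | mem x hx => exact Algebra.subset_adjoin (hS σ x hx)
    | zero => rw [map_zero]; exact zero_mem R'
    | add x y _ _ hx hy => rw [map_add]; exact add_mem hx hy
    | smul c x _ hx => rw [map_zsmul]; exact zsmul_mem hx c
  obtain ⟨O', _, _, _, _, _, _, hpO, iota, hiota⟩ := LevelDrop.exists_dvr_embedding R' p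
  let f : (R →ₐ[ℤ] ℂ) → (R →+* O') := fun σ => iota.comp (σ.toRingHom.codRestrict R' (hR' σ))
  suffices ∃ σ, (maximalIdeal O').comap (f σ) = P by
    obtain ⟨σ, hσ⟩ := this
    exact ⟨O', inferInstance, inferInstance, inferInstance, inferInstance, inferInstance,
      inferInstance, hpO, f σ, injective_of_order _, hσ⟩
  by_contra hne
  push Not at hne
  have : Finite (R →ₐ[ℤ] ℂ) := by
    refine Finite.of_injective (fun σ (g : G) => (⟨σ g, hS σ g g.2⟩ : S)) fun σ τ h => ?_
    exact AlgHom.toLinearMap_injective (LinearMap.ext_on hG fun g hg =>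
      congrArg Subtype.val (congrFun h ⟨g, hg⟩))
  have : Fintype (R →ₐ[ℤ] ℂ) := Fintype.ofFinite _
  have hmax : ∀ σ, ((maximalIdeal O').comap (f σ)).IsMaximal := fun σ =>
    isMaximal_of_natCast_mem (p := p) _ (by rwa [Ideal.mem_comap, map_natCast])
  obtain ⟨σ₀⟩ : Nonempty (R →ₐ[ℤ] ℂ) := by
    have : Algebra.IsAlgebraic ℤ R := Algebra.IsIntegral.isAlgebraic
    have : Module.IsTorsionFree ℤ R :=
      Module.isTorsionFree_iff_algebraMap_injective.mpr (FaithfulSMul.algebraMap_injective ℤ R)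
    exact ⟨IsAlgClosed.lift⟩
  obtain ⟨e, heP, he⟩ := Set.not_subset.1 fun hsub =>
    ((Ideal.subset_union_prime (s := Finset.univ) (f := fun σ => (maximalIdeal O').comap (f σ))
      σ₀ σ₀ fun σ _ _ _ => (hmax σ).isPrime).1 hsub).elim fun σ h =>
        hne σ (Ideal.IsMaximal.eq_of_le ‹P.IsMaximal› (hmax σ).ne_top h.2).symm
  simp only [Finset.coe_univ, Set.mem_univ, Set.iUnion_true, Set.mem_iUnion, not_exists,
    SetLike.mem_coe, Ideal.mem_comap] at he
  set m := minpoly ℤ e with hm
  have hmon : m.Monic := minpoly.monic (hint.isIntegral e)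
  set c := m.coeff 0 with hc
  have hcp : (p : ℤ) ∣ c := by
    have h0 : aeval e (X * m.divX + C c) = 0 := by rw [hc, X_mul_divX_add, hm, minpoly.aeval]
    rw [map_add, map_mul, aeval_X, aeval_C, algebraMap_int_eq, eq_intCast] at h0
    have hcP : (c : R) ∈ P := by
      rw [← neg_eq_of_add_eq_zero_right h0]
      exact P.neg_mem (P.mul_mem_right _ heP)
    let : Field (R ⧸ P) := Ideal.Quotient.field P
    have : CharP (R ⧸ P) p := (CharP.charP_iff_prime_eq_zero Fact.out).mpr (by
      rw [← map_natCast (Ideal.Quotient.mk P), Ideal.Quotient.eq_zero_iff_mem]; exact hp)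
    rw [← CharP.intCast_eq_zero_iff (R ⧸ P) p, ← map_intCast (Ideal.Quotient.mk P),
      Ideal.Quotient.eq_zero_iff_mem]
    exact hcP
  let U : Submonoid ℂ := ((IsUnit.submonoid O').comap iota.toMonoidHom).map R'.val.toMonoidHom
  have hU : ∀ β ∈ (m.map (algebraMap ℤ ℂ)).roots, β ∈ U := fun β hβ => by
    have h := (mem_roots'.1 hβ).2
    rw [IsRoot.def, eval_map_algebraMap] at h
    obtain ⟨σ, rfl⟩ := exists_embedding_root e h
    exact ⟨⟨σ e, hR' σ e⟩, not_not.1 fun hu => he σ (mem_maximalIdeal _ |>.2 hu), rfl⟩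
  have hcU : ((c : ℤ) : ℂ) ∈ U := by
    have h := (IsAlgClosed.splits (m.map (algebraMap ℤ ℂ))).coeff_zero_eq_prod_roots_of_monic
      (hmon.map _)
    rw [coeff_map, algebraMap_int_eq, eq_intCast] at h
    rw [h]
    refine mul_mem (pow_mem (show (-1 : ℂ) ∈ U from ⟨-1, ?_, by simp⟩) _) (Submonoid.multiset_prod_mem U _ hU)
    show IsUnit (iota (-1))
    rw [map_neg, map_one]
    exact isUnit_one.neg
  obtain ⟨u, hu, huc⟩ := hcU
  have huc' : u = (c : R') := Subtype.ext (huc.trans (by simp))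
  obtain ⟨d, hd⟩ := hcp
  have hu' : IsUnit (iota u) := hu
  rw [huc', map_intCast, hd, Int.cast_mul, Int.cast_natCast] at hu'
  exact (mem_maximalIdeal _).1 hpO (isUnit_of_mul_isUnit_left hu')

end FLTAgent.RT.Lower
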