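import Fermat.Agent.RT.Setting.Coeff

/-!
# Coefficient rings for lowering

The coefficient ring contains the roots of unity of a given `p`-power order.
-/

set_option autoImplicit false

noncomputable section

open Polynomial IsLocalRing

namespace FLTAgent.RT

/-- **Coefficient rings with roots of unity of order `p ^ k` exist.** -/
theorem exists_coeff_roots (p k : ℕ) [hp : Fact p.Prime] (hk : k ≠ 0) :
    ∃ (O : Type) (_ : CommRing O) (_ : IsDomain O) (_ : IsDiscreteValuationRing O)
      (_ : IsAdicComplete (maximalIdeal O) O) (_ : Finite (ResidueField O)) (_ : CharZero O),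
      (p : O) ∈ maximalIdeal O ∧ (∃ z : O, IsPrimitiveRoot z (p ^ k)) ∧
      ∀ (φ : ZMod p →+* ResidueField O) (b c : ZMod p), ∃ α β : ResidueField O,
        X ^ 2 + C (φ b) * X + C (φ c) = (X - C α) * (X - C β) := by
  set n := p ^ 2 - 1 with hn
  have h2 := hp.out.two_le
  have hn0 : 0 < n := by have : 4 ≤ p ^ 2 := by nlinarith
                         omega
  have hm : 0 < p ^ k * n := Nat.mul_pos (pow_pos hp.out.pos k) hn0
  let R := AdjoinRoot (cyclotomic (p ^ k * n) ℤ)
  have : IsDomain R := AdjoinRoot.isDomain_of_prime (cyclotomic.irreducible hm).prime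
  have : CharZero R := charZero_of_injective_algebraMap
    (AdjoinRoot.of.injective_of_degree_ne_zero (degree_cyclotomic_pos (p ^ k * n) ℤ hm).ne')
  have : Module.Finite ℤ R := (cyclotomic.monic (p ^ k * n) ℤ).finite_adjoinRoot
  have hz : IsPrimitiveRoot (AdjoinRoot.root (cyclotomic (p ^ k * n) ℤ)) (p ^ k * n) := by
    have : NeZero ((p ^ k * n : ℕ) : R) := ⟨Nat.cast_ne_zero.2 hm.ne'⟩
    rw [← isRoot_cyclotomic_iff, ← map_cyclotomic (p ^ k * n) (AdjoinRoot.of (cyclotomic (p ^ k * n) ℤ))]
    exact AdjoinRoot.isRoot_root _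
  obtain ⟨O, _, _, _, _, _, _, hpO, ι, hι⟩ := LevelDrop.exists_dvr_embedding R p
  have hzO := hz.map_of_injective hι
  refine ⟨O, inferInstance, inferInstance, inferInstance, inferInstance, inferInstance,
    inferInstance, hpO, ⟨_, hzO.pow hm (mul_comm (p ^ k) n)⟩, fun φ b c => ?_⟩
  have hw := hzO.pow hm rfl
  have hchar : CharP (ResidueField O) p := charP_of_injective_ringHom φ.injective p
  have : NeZero ((n : ℕ) : ResidueField O) := ⟨fun h => by
    rw [CharP.cast_eq_zero_iff _ p] at h
    have h' : p ∣ 1 := by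
      rw [show 1 = p ^ 2 - n by omega]
      exact Nat.dvd_sub (dvd_pow_self p two_ne_zero) h
    exact hp.out.one_lt.ne' (Nat.dvd_one.mp h')⟩
  have hw' : (cyclotomic n (ResidueField O)).IsRoot (residue O (ι (AdjoinRoot.root (cyclotomic (p ^ k * n) ℤ)) ^ (p ^ k))) := by
    rw [← map_cyclotomic n (residue O)]
    exact (hw.isRoot_cyclotomic hn0).map
  exact exists_factor_quadratic φ (isRoot_cyclotomic_iff.mp hw') b c

end FLTAgent.RT
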