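import Fermat.Agent.LevelSq.FixedVectors
import Fermat.Agent.LevelSq.Push

/-!
# Pushforwards as matrices on the Tate modules, and fixed vectors in their kernel

A map of lattices compatible with a pushforward gives a matrix commuting with the Galois matrices;
vectors fixed by inertia and killed by the two matrices vanish when the fixed torsion points
killed by the two pushforwards are killed by one integer.
-/

set_option autoImplicit false
set_option linter.unusedSectionVars false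

noncomputable section

namespace FLTAgent.RT.Lower

open Matrix FLTAgent.LevelSq ModularCurve

local notation "Γℚ" => AlgebraicClosure ℚ ≃ₐ[ℚ] AlgebraicClosure ℚ

variable {M L p : ℕ} [NeZero M] [NeZero L] [Fact p.Prime]
  (TM : GalRep.TorsionModel M p) (TL : GalRep.TorsionModel L p)

/-- The integral matrix of a map of lattices. -/
def pushMatOf (T : TM.H →ₗ[ℤ] TL.H) :
    Matrix (Fin (Module.finrank ℤ TL.H)) (Fin (Module.finrank ℤ TM.H)) ℤ :=
  LinearMap.toMatrix TM.basis TL.basis T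

variable {TM TL} {T : TM.H →ₗ[ℤ] TL.H} {d : ℕ} [NeZero d] {hd : L * d ∣ M}

/-- The compatibility with the pushforward. -/
def IsPushMap (d : ℕ) [NeZero d] (hd : L * d ∣ M) (T : TM.H →ₗ[ℤ] TL.H) : Prop :=
  ∀ (n : ℕ) (h : TM.H), pushPic d hd (TM.proj n h) = TL.proj n (T h)

theorem IsPushMap.projv (hT : IsPushMap d hd T) (n : ℕ)
    (v : Fin (Module.finrank ℤ TM.H) → ℤ) :
    pushPic d hd (TM.projv n v) = TL.projv n (pushMatOf TM TL T *ᵥ v) := by
  show pushPic d hd (TM.proj n _) = TL.proj n _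
  refine (hT n _).trans (congrArg (TL.proj n) ?_)
  show T (TM.basis.equivFun.symm v) = TL.basis.equivFun.symm (pushMatOf TM TL T *ᵥ v)
  have h := LinearMap.toMatrix_mulVec_repr TM.basis TL.basis T (TM.basis.equivFun.symm v)
  simp only [← Module.Basis.equivFun_apply, LinearEquiv.apply_symm_apply] at h
  rw [eq_comm, LinearEquiv.symm_apply_eq]
  exact h

theorem IsPushMap.map_levelMat (hT : IsPushMap d hd T) (n : ℕ) (g : Γℚ) :
    (TL.levelMat n g * pushMatOf TM TL T).map (Int.cast : ℤ → ZMod (p ^ n)) =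
      (pushMatOf TM TL T * TM.levelMat n g).map (Int.cast : ℤ → ZMod (p ^ n)) := by
  ext a b
  have h1 : TL.projv n ((TL.levelMat n g * pushMatOf TM TL T) *ᵥ Pi.single b 1) =
      TL.projv n ((pushMatOf TM TL T * TM.levelMat n g) *ᵥ Pi.single b 1) := by
    rw [← Matrix.mulVec_mulVec, ← Matrix.mulVec_mulVec, ← TL.smul_projv, ← hT.projv, ← hT.projv,
      ← TM.smul_projv, pushPic_smul]
  rw [← sub_eq_zero, ← map_sub, TL.projv_eq_zero_iff, Matrix.mulVec_single_one,
    Matrix.mulVec_single_one] at h1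
  rw [Matrix.map_apply, Matrix.map_apply, ← sub_eq_zero, ← Int.cast_sub,
    ZMod.intCast_zmod_eq_zero_iff_dvd]
  exact h1 a

theorem IsPushMap.galMat_comm (hT : IsPushMap d hd T) (g : Γℚ) :
    TL.galMat g * (pushMatOf TM TL T).map (Int.cast : ℤ → ℤ_[p]) =
      (pushMatOf TM TL T).map (Int.cast : ℤ → ℤ_[p]) * TM.galMat g := by
  ext a b
  refine PadicInt.ext_of_toZModPow.mp fun n => ?_
  have hT' := congrFun (congrFun (hT.map_levelMat n g) a) b
  simp only [Matrix.map_apply, Matrix.mul_apply, Int.cast_sum, Int.cast_mul] at hT'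
  have hL : ∀ i j, PadicInt.toZModPow n (TL.galMat g i j) = (TL.levelMat n g i j : ZMod (p ^ n)) :=
    fun i j => congrFun (congrFun (TL.redP_galMat n g) i) j
  have hM : ∀ i j, PadicInt.toZModPow n (TM.galMat g i j) = (TM.levelMat n g i j : ZMod (p ^ n)) :=
    fun i j => congrFun (congrFun (TM.redP_galMat n g) i) j
  simp only [Matrix.mul_apply, Matrix.map_apply, map_sum, map_mul, map_intCast, hL, hM]
  exact hT'

/-- Fixed vectors in the kernels of two pushforwards vanish if the fixed points killed by both are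
killed by one integer. -/
theorem eq_zero_of_fixed {d' : ℕ} [NeZero d'] {hd' : L * d' ∣ M} {T' : TM.H →ₗ[ℤ] TL.H}
    (hT : IsPushMap d hd T) (hT' : IsPushMap d' hd' T') (G : Set Γℚ) {C : ℕ} (hC : C ≠ 0)
    (h : ∀ (n : ℕ) w, (∀ σ ∈ G, σ • TM.projv n w = TM.projv n w) →
      pushPic d hd (TM.projv n w) = 0 → pushPic d' hd' (TM.projv n w) = 0 →
      C • TM.projv n w = 0)
    (v : Fin (Module.finrank ℤ TM.H) → ℤ_[p]) (hv : ∀ σ ∈ G, TM.galMat σ *ᵥ v = v)
    (h1 : (pushMatOf TM TL T).map (Int.cast : ℤ → ℤ_[p]) *ᵥ v = 0)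
    (h2 : (pushMatOf TM TL T').map (Int.cast : ℤ → ℤ_[p]) *ᵥ v = 0) : v = 0 := by
  funext i
  refine (mul_eq_zero.mp (PadicInt.ext_of_toZModPow.mp fun n => ?_ :
    (C : ℤ_[p]) * v i = 0)).resolve_left (Nat.cast_ne_zero.mpr hC)
  haveI : NeZero (p ^ n) := ⟨pow_ne_zero n (Fact.out : p.Prime).ne_zero⟩
  let w : Fin (Module.finrank ℤ TM.H) → ℤ := fun k => ((PadicInt.toZModPow n (v k)).val : ℕ)
  have hw : (fun k => (w k : ZMod (p ^ n))) = fun k => PadicInt.toZModPow n (v k) := by
    funext k; simp [w]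
  have hfix : ∀ σ ∈ G, σ • TM.projv n w = TM.projv n w := fun σ hσ => by
    rw [TM.smul_projv]
    refine projv_eq_of_cast TM n (congrFun ?_)
    rw [cast_mulVec, ← TM.redP_galMat, hw, ← toZModPow_mulVec, hv σ hσ]
  have hker : ∀ (X : Matrix (Fin (Module.finrank ℤ TL.H)) (Fin (Module.finrank ℤ TM.H)) ℤ),
      X.map (Int.cast : ℤ → ℤ_[p]) *ᵥ v = 0 → TL.projv n (X *ᵥ w) = 0 := by
    intro X hX
    rw [TL.projv_eq_zero_iff]
    intro a
    rw [← ZMod.intCast_zmod_eq_zero_iff_dvd]
    have h0 := congrArg (PadicInt.toZModPow n) (congrFun hX a)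
    simp only [Matrix.mulVec, dotProduct, Matrix.map_apply, map_sum, map_mul, map_intCast,
      Pi.zero_apply, map_zero] at h0
    simp only [Matrix.mulVec, dotProduct, Int.cast_sum, Int.cast_mul, congrFun hw]
    exact h0
  have h0 := h n w hfix (by rw [hT.projv, hker _ h1]) (by rw [hT'.projv, hker _ h2])
  rw [← map_nsmul, TM.projv_eq_zero_iff] at h0
  have h3 := h0 i
  rw [← ZMod.intCast_zmod_eq_zero_iff_dvd, Pi.smul_apply, nsmul_eq_mul, Int.cast_mul,
    Int.cast_natCast, congrFun hw i] at h3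
  rw [map_mul, map_natCast, map_zero, h3]

/-- Linear conditions on a vector over an extension pass to a nonzero vector over `ℤ_p`. -/
theorem exists_padic_kernel {R : Type} [CommRing R] [IsDomain R] [CharZero R] (ψ : ℤ_[p] →+* R)
    {r s : ℕ} {ι κ : Type*} (X : ι → Matrix (Fin r) (Fin r) ℤ_[p])
    (Z : κ → Matrix (Fin s) (Fin r) ℤ_[p]) (e : Fin r → R) (he : e ≠ 0)
    (hX : ∀ i, ψ.mapMatrix (X i) *ᵥ e = e) (hZ : ∀ k, (Z k).map ψ *ᵥ e = 0) :
    ∃ v : Fin r → ℤ_[p], (∀ i, X i *ᵥ v = v) ∧ (∀ k, Z k *ᵥ v = 0) ∧ v ≠ 0 := by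
  classical
  -- each row of `Z k` as a square matrix with one row
  obtain ⟨i₀, -⟩ := Function.ne_iff.mp he
  let Y : κ × Fin s → Matrix (Fin r) (Fin r) ℤ_[p] := fun x =>
    1 + Matrix.of fun i j => if i = i₀ then Z x.1 x.2 j else 0
  have hY : ∀ x, ψ.mapMatrix (Y x) *ᵥ e = e := fun x => by
    rw [map_add, map_one, Matrix.add_mulVec, Matrix.one_mulVec, add_eq_left]
    funext i
    have h0 := congrFun (hZ x.1) x.2
    simp only [Matrix.mulVec, dotProduct, Matrix.map_apply, Pi.zero_apply] at h0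
    simp only [Matrix.mulVec, dotProduct, RingHom.mapMatrix_apply, Matrix.map_apply, Matrix.of_apply,
      Pi.zero_apply]
    by_cases hi : i = i₀
    · simpa [hi] using h0
    · simp [hi]
  obtain ⟨v, hv, hv1⟩ := exists_padic_fixed ψ (Sum.elim X Y) 1 e
    (fun x => x.rec hX hY) (by rw [map_one, Matrix.one_mulVec]; exact he)
  rw [Matrix.one_mulVec] at hv1
  refine ⟨v, fun i => hv (Sum.inl i), fun k => funext fun a => ?_, hv1⟩
  have h0 := congrFun (hv (Sum.inr (k, a))) i₀
  simp only [Sum.elim_inr, Y, Matrix.add_mulVec, Matrix.one_mulVec, Pi.add_apply, add_eq_left] at h0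
  simpa [Matrix.mulVec, dotProduct] using h0

end FLTAgent.RT.Lower
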