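import Fermat.Agent.LevelSq.RepStep
import Fermat.Agent.RT.Lower.PushMat

/-!
# Non-unipotence from an eigenvector killed by both pushforwards

An eigenvector in the Tate module of level `q² M'` killed by both pushforwards to level `q M'`
forces the representation with these eigenvalues not to be unipotent at `q`.
-/

set_option autoImplicit false
set_option linter.unusedSectionVars false

noncomputable section

namespace FLTAgent.RT.Lower

open Polynomial Matrix FLTAgent.LevelSq ModularCurve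

local notation "Qbar" => AlgebraicClosure ℚ
local notation "Γℚ" => AlgebraicClosure ℚ ≃ₐ[ℚ] AlgebraicClosure ℚ

variable {q M' M p : ℕ} [NeZero q] [NeZero M] [NeZero (q * M')] [Fact p.Prime]
  {TM : GalRep.TorsionModel M p} {TL : GalRep.TorsionModel (q * M') p}

/-- **Non-unipotence at `q`.** -/
theorem not_isUnipotentOnInertiaAt_of_push (hgeom : GeometrySq) (hq : q.Prime)
    (hM : M = q ^ 2 * M') (hM' : ¬ q ∣ M') (hqp : q ≠ p)
    {h1 : q * M' * 1 ∣ M} {hq2 : q * M' * q ∣ M} {T₁ Tq : TM.H →ₗ[ℤ] TL.H}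
    (hT₁ : IsPushMap 1 h1 T₁) (hTq : IsPushMap q hq2 Tq)
    (hGM : GalRep.GaloisFacts M p) {S : Finset ℕ} (hSM : GalRep.levelPrimes M ⊆ (↑S : Set ℕ))
    {R : Type} [CommRing R] [IsDomain R] [IsDiscreteValuationRing R]
    [IsAdicComplete (IsLocalRing.maximalIdeal R) R] [CharZero R]
    (hpR : (p : R) ∈ IsLocalRing.maximalIdeal R)
    (χ : CuspForm.heckeAlgebra M 2 (↑S : Set ℕ) →+* R) (ρ : GaloisRepAdic R)
    (hρ : ∀ (ℓ : ℕ) (hℓ : ℓ.Prime) (hℓN : ¬ ℓ ∣ M) (hℓS : ℓ ∉ (↑S : Set ℕ)),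
      ∀ A : ValuationSubring Qbar, A.LiesOverPrime ℓ → ∀ σ : Γℚ, A.IsFrobeniusAt σ ℓ →
        LinearMap.charpoly (ρ.ρ σ) =
          X ^ 2 - C (χ (CuspForm.heckeAlgebra.T hℓ hℓN hℓS)) * X + C ((ℓ : R)))
    (e₀ : Fin (Module.finrank ℤ TM.H) → R) (he₀ : e₀ ≠ 0)
    (heig : ∀ t, (TM.matModel hGM hSM).opR R t *ᵥ e₀ = χ t • e₀)
    (hk₁ : (pushMatOf TM TL T₁).map (Int.cast : ℤ → R) *ᵥ e₀ = 0)
    (hkq : (pushMatOf TM TL Tq).map (Int.cast : ℤ → R) *ᵥ e₀ = 0) :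
    ¬ ρ.IsUnipotentOnInertiaAt q := by
  intro huni
  obtain ⟨A, hA⟩ := Frobenius.exists_liesOverPrime hq
  obtain ⟨C, hC, hgeo⟩ := hgeom q M' M hq hM hM' h1 hq2 A hA
  let Mx := TM.matModel hGM hSM
  obtain ⟨ψ⟩ := GalRep.exists_padicHom p R hpR
  have hmap : ∀ T : TM.H →ₗ[ℤ] TL.H,
      ((pushMatOf TM TL T).map (Int.cast : ℤ → ℤ_[p])).map ψ =
        (pushMatOf TM TL T).map (Int.cast : ℤ → R) := fun T => by
    ext a b
    simp
  let U : Submodule R (Fin Mx.r → R) :=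
    (⨅ t, LinearMap.ker (Matrix.mulVecLin (Mx.opR R t) - χ t • LinearMap.id)) ⊓
      LinearMap.ker (Matrix.mulVecLin ((pushMatOf TM TL T₁).map (Int.cast : ℤ → R))) ⊓
      LinearMap.ker (Matrix.mulVecLin ((pushMatOf TM TL Tq).map (Int.cast : ℤ → R)))
  have hmemU : ∀ e, e ∈ U ↔ (∀ t, Mx.opR R t *ᵥ e = χ t • e) ∧
      (pushMatOf TM TL T₁).map (Int.cast : ℤ → R) *ᵥ e = 0 ∧
      (pushMatOf TM TL Tq).map (Int.cast : ℤ → R) *ᵥ e = 0 := fun e => by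
    simp only [U, Submodule.mem_inf, Submodule.mem_iInf, LinearMap.mem_ker, LinearMap.sub_apply,
      LinearMap.smul_apply, LinearMap.id_coe, id_eq, Matrix.mulVecLin_apply, sub_eq_zero, and_assoc]
    exact Iff.rfl
  have hU : U ≠ ⊥ := fun hb => he₀
    ((Submodule.eq_bot_iff U).mp hb e₀ ((hmemU e₀).mpr ⟨heig, hk₁, hkq⟩))
  let RM : Γℚ →* Matrix (Fin Mx.r) (Fin Mx.r) R := ψ.mapMatrix.toMonoidHom.comp Mx.G
  let ρI := RM.comp (A.inertiaSubgroupIn ℚ).subtype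
  have hpush : ∀ {d : ℕ} [NeZero d] {hd : q * M' * d ∣ M} {T : TM.H →ₗ[ℤ] TL.H},
      IsPushMap d hd T → ∀ g (e : Fin Mx.r → R),
        (pushMatOf TM TL T).map (Int.cast : ℤ → R) *ᵥ e = 0 →
        (pushMatOf TM TL T).map (Int.cast : ℤ → R) *ᵥ (ψ.mapMatrix (Mx.G g) *ᵥ e) = 0 := by
    intro d _ hd T hT g e he
    have h := congrArg (fun X => X.map ψ) (hT.galMat_comm g)
    simp only [Matrix.map_mul] at h
    rw [hmap] at h
    show _ *ᵥ ((TM.galMat g).map ψ *ᵥ e) = 0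
    rw [Matrix.mulVec_mulVec, ← h, ← Matrix.mulVec_mulVec, he, Matrix.mulVec_zero]
  have hstab : ∀ σ, ∀ e ∈ U, ρI σ *ᵥ e ∈ U := by
    intro σ e he
    rw [hmemU] at he ⊢
    refine ⟨fun t => ?_, hpush hT₁ _ e he.2.1, hpush hTq _ e he.2.2⟩
    show Mx.opR R t *ᵥ (ψ.mapMatrix (Mx.G σ) *ᵥ e) = χ t • (ψ.mapMatrix (Mx.G σ) *ᵥ e)
    rw [← Mx.map_castP ψ, Matrix.mulVec_mulVec, ← map_mul, ← Mx.G_comm, map_mul,
      ← Matrix.mulVec_mulVec, Mx.map_castP, he.1, Matrix.mulVec_smul]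
  have hsq : ∀ σ, ∀ e ∈ U, (ρI σ - 1) *ᵥ ((ρI σ - 1) *ᵥ e) = 0 := by
    intro σ e he
    have h2 := phi_mulVec_of_unipotent Mx LevelDrop.frobeniusDense ψ hpR χ ρ hρ
      (huni A hA σ σ.2) e ((hmemU e).mp he).1
    rw [GalRep.MatModel.phi, GalRep.cyclo_inertia hq hqp hA σ.2, Units.val_one, one_smul,
      map_add, Matrix.add_mulVec] at h2
    have h3 := congrArg (fun x => ψ.mapMatrix (Mx.G σ) *ᵥ x) h2
    simp only [Matrix.mulVec_add, Matrix.mulVec_mulVec, ← map_mul, mul_inv_cancel, map_one,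
      Matrix.one_mulVec, Matrix.mulVec_smul] at h3
    show (ψ.mapMatrix (Mx.G σ) - 1) *ᵥ ((ψ.mapMatrix (Mx.G σ) - 1) *ᵥ e) = 0
    simp only [Matrix.sub_mulVec, Matrix.one_mulVec, Matrix.mulVec_sub]
    rw [map_mul, map_mul, ← Matrix.mulVec_mulVec] at h3
    rw [two_smul] at h3
    linear_combination (norm := abel) h3
  obtain ⟨e, heU, he0, hfix⟩ := exists_common_fixed ρI U hU hstab hsq
  obtain ⟨v, hvfix, hvker, hv⟩ := exists_padic_kernel ψ
    (fun σ : A.inertiaSubgroupIn ℚ => Mx.G σ)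
    (fun b : Bool => (pushMatOf TM TL (if b then T₁ else Tq)).map (Int.cast : ℤ → ℤ_[p])) e he0 hfix
    (fun b => by
      refine (congrArg (· *ᵥ e) (hmap _)).trans ?_
      cases b
      · exact ((hmemU e).mp heU).2.2
      · exact ((hmemU e).mp heU).2.1)
  refine hv (eq_zero_of_fixed hT₁ hTq (A.inertiaSubgroupIn ℚ : Set Γℚ) hC
    (fun n w hw e₁ e₂ => hgeo (p ^ n) (fun h => hqp ?_) _ (TM.pow_smul_projv n _) hw e₁ e₂) v
    (fun σ hσ => hvfix ⟨σ, hσ⟩) ?_ ?_)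
  · exact (Nat.prime_dvd_prime_iff_eq hq (Fact.out : p.Prime)).mp (hq.dvd_of_dvd_pow h)
  · exact hvker true
  · exact hvker false

end FLTAgent.RT.Lower
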