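import Fermat.Agent.JTors.Model
import Fermat.Agent.JTors.PushTop
import Fermat.Agent.RT.Coh.HeckeParQuot
import Fermat.Agent.RT.Lower.FixedVector

/-!
# Transfers as maps of the lattices of homomorphisms on parabolic quotients

A transfer family between two levels gives a map of homomorphisms on the parabolic quotients. With
values in a ring the homomorphisms are read as vectors in the coordinates of the lattice.
-/

set_option autoImplicit false
set_option linter.unusedSectionVars false

noncomputable section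

namespace FLTAgent.RT

open LevelRaise CongruenceSubgroup Matrix
open scoped MatrixGroups

section ParRes

variable {N N₁ N₂ : ℕ} {ι : Type*} [Fintype ι] {η : ι → Matrix (Fin 2) (Fin 2) ℤ}
  {A : Type*} [AddCommGroup A]

/-- A homomorphism on the parabolic quotient as a class. -/
def parInfl (ψ : Periods.ParQuot N →+ A) : Coh N trivChar A :=
  (ψ.comp (Periods.parProj N)).comp
    (MonoidHom.toAdditive (Subgroup.inclusion (gammaH_trivChar N).le))

theorem parInfl_apply (ψ : Periods.ParQuot N →+ A) (γ : gammaH N trivChar) :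
    parInfl ψ (Additive.ofMul γ) =
      ψ (Periods.parProj N (Additive.ofMul ⟨γ, (gammaH_trivChar N).le γ.2⟩)) :=
  rfl

theorem killsEllPar_parInfl (ψ : Periods.ParQuot N →+ A) : KillsEllPar (parInfl ψ) := fun γ hγ => by
  rw [parInfl_apply, Periods.parProj_eq_zero
    (show Periods.IsEllPar (⟨γ, (gammaH_trivChar N).le γ.2⟩ : Gamma0 N) from hγ), map_zero]

variable [IsAddTorsionFree A]

theorem parRes_kills (hη : IsFam (gammaH N₂ trivChar) (gammaH N₁ trivChar) η)
    (ψ : Periods.ParQuot N₂ →+ A) (γ : Gamma0 N₁) (hγ : Periods.IsEllPar γ) :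
    (famTransfer hη (parInfl ψ)).comp
      (MonoidHom.toAdditive (Subgroup.inclusion (gammaH_trivChar N₁).ge)) (Additive.ofMul γ) = 0 :=
  killsEllPar_famTransfer hη (killsEllPar_parInfl ψ) ⟨γ, (gammaH_trivChar N₁).ge γ.2⟩ hγ

variable (R : Type*) [CommRing R] [Module R A]

/-- The transfer on homomorphisms of the parabolic quotients. -/
def parRes (hη : IsFam (gammaH N₂ trivChar) (gammaH N₁ trivChar) η) :
    (Periods.ParQuot N₂ →+ A) →ₗ[R] (Periods.ParQuot N₁ →+ A) where
  toFun ψ := Periods.parLift _ (parRes_kills hη ψ)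
  map_add' ψ ψ' := Periods.parQuot_hom_ext <| AddMonoidHom.ext fun x => by
    obtain ⟨γ, rfl⟩ := Additive.ofMul.surjective x
    simp only [AddMonoidHom.comp_apply, AddMonoidHom.add_apply, Periods.parLift_parProj]
    rw [show parInfl (ψ + ψ') = parInfl ψ + parInfl ψ' from rfl, famTransfer_add]
    rfl
  map_smul' c ψ := Periods.parQuot_hom_ext <| AddMonoidHom.ext fun x => by
    obtain ⟨γ, rfl⟩ := Additive.ofMul.surjective x
    simp only [AddMonoidHom.comp_apply, AddMonoidHom.smul_apply, RingHom.id_apply,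
      Periods.parLift_parProj]
    rw [show parInfl (c • ψ) = c • parInfl ψ from rfl, ← famTransferL_apply R, map_smul]
    rfl

variable {R}

theorem parRes_parProj (hη : IsFam (gammaH N₂ trivChar) (gammaH N₁ trivChar) η)
    (ψ : Periods.ParQuot N₂ →+ A) (γ : Gamma0 N₁) {σ : Equiv.Perm ι} {δ : ι → Gamma0 N₂}
    (h : IsTransferZ η (γ : SL(2, ℤ)) σ δ) :
    parRes R hη ψ (Periods.parProj N₁ (Additive.ofMul γ)) =
      ∑ i, ψ (Periods.parProj N₂ (Additive.ofMul (δ i))) :=
  (Periods.parLift_parProj _ (parRes_kills hη ψ) (Additive.ofMul γ)).trans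
    (famTransfer_apply hη (parInfl ψ) ⟨γ, (gammaH_trivChar N₁).ge γ.2⟩
      (σ := σ) (δ := fun i => ⟨δ i, (gammaH_trivChar N₂).ge (δ i).2⟩) h)

theorem parRes_castPar {O : Type*} [CommRing O] [IsAddTorsionFree O] [NeZero N₁] [NeZero N₂]
    (hη : IsFam (gammaH N₂ trivChar) (gammaH N₁ trivChar) η) (φ : Periods.ParQuot N₂ →+ ℤ) :
    parRes O hη (castPar O φ) = castPar O (parRes ℤ hη φ) := by
  refine Periods.parQuot_hom_ext (AddMonoidHom.ext fun x => ?_)
  obtain ⟨γ, rfl⟩ := Additive.ofMul.surjective x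
  obtain ⟨σ, δ, h⟩ := hη.exists_eq _ ((gammaH_trivChar N₁).ge γ.2)
  let δ₀ : ι → Gamma0 N₂ := fun i => ⟨δ i, (gammaH_trivChar N₂).le (δ i).2⟩
  simp only [AddMonoidHom.comp_apply, castPar_apply]
  rw [parRes_parProj hη _ γ (δ := δ₀) h, parRes_parProj hη _ γ (δ := δ₀) h, Int.cast_sum]
  rfl

/-- The transfer of a class is zero if the class transfers to zero. -/
theorem parRes_parLift_eq_zero (hη : IsFam (gammaH N₂ trivChar) (gammaH N₁ trivChar) η)
    {φ : Coh N₂ trivChar A}
    (hφ : ∀ γ : Gamma0 N₂, Periods.IsEllPar γ →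
      φ.comp (MonoidHom.toAdditive (Subgroup.inclusion (gammaH_trivChar N₂).ge))
        (Additive.ofMul γ) = 0)
    (h0 : famTransfer hη φ = 0) : parRes R hη (Periods.parLift _ hφ) = 0 := by
  refine Periods.parQuot_hom_ext (AddMonoidHom.ext fun x => ?_)
  obtain ⟨γ, rfl⟩ := Additive.ofMul.surjective x
  obtain ⟨σ, δ, h⟩ := hη.exists_eq _ ((gammaH_trivChar N₁).ge γ.2)
  simp only [AddMonoidHom.comp_apply, AddMonoidHom.zero_apply]
  rw [parRes_parProj hη _ γ (δ := fun i => ⟨δ i, (gammaH_trivChar N₂).le (δ i).2⟩) h]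
  have e := famTransfer_apply hη φ ⟨γ, (gammaH_trivChar N₁).ge γ.2⟩ (σ := σ) (δ := δ) h
  rw [h0, AddMonoidHom.zero_apply] at e
  exact e.symm

end ParRes

section Coords

variable {N : ℕ} [NeZero N] {p : ℕ} [NeZero p]

variable (N p) in
/-- The basis of the lattice. -/
def latBasis : Module.Basis (Fin (Module.finrank ℤ (JTors.torsionModel N p).H)) ℤ
    (Periods.ParQuot N →+ ℤ) :=
  (JTors.torsionModel N p).basis

variable (N p) in
/-- The coordinates of an integral homomorphism in the basis of the lattice. -/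
def latCoord : (Periods.ParQuot N →+ ℤ) →ₗ[ℤ]
    (Fin (Module.finrank ℤ (JTors.torsionModel N p).H) → ℤ) :=
  (latBasis N p).equivFun.toLinearMap

variable (p) in
/-- The coordinates of a homomorphism with values in a ring. -/
def parVec (O : Type*) [CommRing O] :
    (Periods.ParQuot N →+ O) →ₗ[O]
      (Fin (Module.finrank ℤ (JTors.torsionModel N p).H) → O) where
  toFun ψ i := ∑ j, ψ (parBasis N j) * (latCoord N p (parCoord N j) i : O)
  map_add' ψ ψ' := by funext i; simp [add_mul, Finset.sum_add_distrib]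
  map_smul' c ψ := by funext i; simp [mul_assoc, Finset.mul_sum]

variable {O : Type*} [CommRing O]

theorem parVec_castPar (φ : Periods.ParQuot N →+ ℤ) :
    parVec p O (castPar O φ) = fun i => (latCoord N p φ i : O) := by
  have e : φ = ∑ j, φ (parBasis N j) • parCoord N j := by
    refine DFunLike.ext _ _ fun x => ?_
    conv_lhs => rw [← (parBasis N).sum_repr x, map_sum]
    rw [AddMonoidHom.finsetSum_apply]
    refine Finset.sum_congr rfl fun j _ => ?_
    rw [map_zsmul, smul_eq_mul, AddMonoidHom.smul_apply, smul_eq_mul, mul_comm]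
    rfl
  funext i
  refine Eq.trans ?_ (congrArg (fun f => ((latCoord N p f i : ℤ) : O)) e).symm
  simp only [map_sum, Finset.sum_apply, Int.cast_sum]
  show ∑ j, castPar O φ (parBasis N j) * (latCoord N p (parCoord N j) i : O) = _
  refine Finset.sum_congr rfl fun j _ => ?_
  rw [map_zsmul, Pi.smul_apply, smul_eq_mul, Int.cast_mul, castPar_apply]

theorem parVec_injective : Function.Injective (parVec p O : (Periods.ParQuot N →+ O) →ₗ[O] _) := by
  set b := latBasis N p
  let back : (Fin (Module.finrank ℤ (JTors.torsionModel N p).H) → O) →ₗ[O]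
      (Periods.ParQuot N →+ O) :=
    { toFun := fun e => ∑ i, e i • castPar O (b i)
      map_add' := fun e e' => by simp [add_smul, Finset.sum_add_distrib]
      map_smul' := fun c e => by simp [mul_smul, Finset.smul_sum] }
  refine Function.LeftInverse.injective (g := back) fun ψ => ?_
  have h : back.comp (parVec p O) = LinearMap.id := linearMap_ext_castPar O fun φ => by
    show ∑ i, parVec p O (castPar O φ) i • castPar O (b i) = castPar O φ
    rw [parVec_castPar]
    have e : ∑ i, latCoord N p φ i • b i = φ := b.sum_equivFun φ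
    refine DFunLike.ext _ _ fun x => ?_
    conv_rhs => rw [← e]
    simp [castPar_apply, AddMonoidHom.finsetSum_apply]
  exact LinearMap.congr_fun h ψ

theorem latCoord_toMatrix {M : ℕ} [NeZero M]
    (T : (JTors.torsionModel N p).H →ₗ[ℤ] (JTors.torsionModel M p).H)
    (φ : Periods.ParQuot N →+ ℤ) :
    LinearMap.toMatrix (JTors.torsionModel N p).basis (JTors.torsionModel M p).basis T *ᵥ
      latCoord N p φ = latCoord M p (T φ) :=
  LinearMap.toMatrix_mulVec_repr _ _ T φ

theorem toMatrix_mulVec_parVec {M : ℕ} [NeZero M]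
    (T : (JTors.torsionModel N p).H →ₗ[ℤ] (JTors.torsionModel M p).H)
    (TO : (Periods.ParQuot N →+ O) →ₗ[O] (Periods.ParQuot M →+ O))
    (h : ∀ φ, TO (castPar O φ) = castPar O (T φ)) (ψ : Periods.ParQuot N →+ O) :
    (LinearMap.toMatrix (JTors.torsionModel N p).basis (JTors.torsionModel M p).basis T).map
      (Int.cast : ℤ → O) *ᵥ parVec p O ψ = parVec p O (TO ψ) := by
  have e : (Matrix.mulVecLin ((LinearMap.toMatrix (JTors.torsionModel N p).basis
      (JTors.torsionModel M p).basis T).map (Int.cast : ℤ → O))).comp (parVec p O) =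
      (parVec p O).comp TO := linearMap_ext_castPar O fun φ => by
    simp only [LinearMap.comp_apply, Matrix.mulVecLin_apply, h, parVec_castPar]
    funext i
    refine Eq.trans ?_ (congrArg (fun v => ((v i : ℤ) : O)) (latCoord_toMatrix T φ))
    simp [Matrix.mulVec, dotProduct]
  exact LinearMap.congr_fun e ψ

end Coords

end FLTAgent.RT

namespace FLTAgent.RT.Lower

open LevelRaise CongruenceSubgroup Matrix
open scoped MatrixGroups

/-- A transfer is compatible with the pushforward it describes. -/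
theorem isPushMap_parRes {L M d p : ℕ} [NeZero L] [NeZero M] [NeZero d] [NeZero p]
    {ι : Type*} [Fintype ι] {η : ι → Matrix (Fin 2) (Fin 2) ℤ} (Rr : ι → GL (Fin 2) ℝ)
    (hη : IsFam (gammaH M trivChar) (gammaH L trivChar) η)
    (hcast : ∀ j, (Rr j : Matrix (Fin 2) (Fin 2) ℝ) = (η j).map (Int.cast : ℤ → ℝ))
    {h : L * d ∣ M}
    (hpush : ∀ (n : ℕ) (φ : Periods.ParQuot M →+ ℤ) (φ' : Periods.ParQuot L →+ ℤ),
      (∀ (γ : Gamma0 L) (σ : Equiv.Perm ι) (δ : ι → Gamma0 M),
        (∀ j, Rr j * ((γ : SL(2, ℤ)) : GL (Fin 2) ℝ) =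
          ((δ j : SL(2, ℤ)) : GL (Fin 2) ℝ) * Rr (σ j)) →
        φ' (Periods.parProj L (Additive.ofMul γ)) =
          ∑ j, φ (Periods.parProj M (Additive.ofMul (δ j)))) →
      LevelSq.pushPic d h (JTors.torsionProj p n φ) = JTors.torsionProj p n φ') :
    IsPushMap (TM := JTors.torsionModel M p) (TL := JTors.torsionModel L p) d h
      (parRes ℤ hη) := fun n φ => hpush n φ _ fun γ σ δ hd => by
  refine parRes_parProj hη φ γ (σ := σ) fun j => ?_
  have e := congrArg Units.val (hd j)
  rw [Units.val_mul, Units.val_mul, hcast, hcast] at e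
  refine Matrix.map_injective (f := (Int.cast : ℤ → ℝ)) Int.cast_injective ?_
  show (η j * _).map (Int.castRingHom ℝ) = (_ * η (σ j)).map (Int.castRingHom ℝ)
  rw [Matrix.map_mul, Matrix.map_mul]
  exact e

end FLTAgent.RT.Lower
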