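import Fermat.Agent.RT.Lower.TwistSums
import Fermat.Agent.RT.Coh.Untwist

/-!
# The twist is killed by both transfers to the level of the untwisted class

The transfers from `Γ₀(L q²)` to `Γ₀(L q)` along the lower unipotent and along the upper triangular
representatives kill the twists of a class killed by the sum of the diamonds at `q`.
-/

set_option autoImplicit false
set_option linter.unusedSectionVars false

noncomputable section

namespace FLTAgent.RT

open LevelRaise CongruenceSubgroup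
open scoped MatrixGroups

variable {q L : ℕ} [NeZero q]

theorem isFam_lowRep : IsFam (gammaH (L * q ^ 2) trivChar) (gammaH (L * q) trivChar)
    (lowRep q L) := by
  refine ⟨fun j => by rw [det_lowRep]; simp, fun γ hγ => ?_⟩
  obtain ⟨c, hc⟩ := mem_gamma0_iff.mp hγ.1
  have hdet : (matSL γ 0 0 * matSL γ 1 1 : ZMod q) = 1 := by
    have h := congrArg (fun z : ℤ => (z : ZMod q)) (det_matSL γ)
    rw [hc] at h
    push_cast at h
    simp at h
    exact h
  push_cast at hc
  set F : ZMod q → ZMod q := fun j =>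
    ((c : ZMod q) + matSL γ 0 0 * j) * matSL γ 0 0
  have hF : Function.Injective F := by
    intro i j hij
    have h2 := congrArg (fun z : ZMod q => z * (matSL γ 1 1 : ZMod q) * matSL γ 1 1) hij
    simp only [F] at h2
    linear_combination h2 - ((c : ZMod q) * (matSL γ 1 1 : ZMod q) + i *
      (matSL γ 0 0 * matSL γ 1 1 + 1)) * hdet + ((c : ZMod q) * (matSL γ 1 1 : ZMod q) + j *
      (matSL γ 0 0 * matSL γ 1 1 + 1)) * hdet
  let σ := Equiv.ofBijective F (Finite.injective_iff_bijective.mp hF)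
  have hv : ∀ j, (((F j).val : ℤ) : ZMod q) = F j := fun j => by simp
  let X : ZMod q → SL(2, ℤ) := fun j => ⟨lowRep q L j, by rw [det_lowRep, pow_zero]⟩
  have hmem : ∀ j, X j * γ * (X (F j))⁻¹ ∈ gammaH (L * q ^ 2) trivChar := by
    intro j
    rw [gammaH_trivChar]
    refine mem_gamma0_iff.mpr ?_
    obtain ⟨m, hm⟩ : (q : ℤ) ∣ c + matSL γ 0 0 * (j.val : ℤ) -
        matSL γ 1 1 * ((F j).val : ℤ) := by
      rw [← ZMod.intCast_zmod_eq_zero_iff_dvd]
      push_cast
      simp only [F, ZMod.natCast_val, ZMod.cast_id', id_eq]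
      linear_combination (-((c : ZMod q) + matSL γ 0 0 * j)) * hdet
    refine ⟨m - L * (j.val : ℤ) * matSL γ 0 1 * ((F j).val : ℤ), ?_⟩
    have e : ((X (F j))⁻¹ : SL(2, ℤ)).1 = (lowRep q L (F j)).adjugate :=
      Matrix.SpecialLinearGroup.coe_inv _
    rw [matSL_mul, matSL_mul, show matSL ((X (F j))⁻¹) = (lowRep q L (F j)).adjugate from e,
      show matSL (X j) = lowRep q L j from rfl, lowRep, lowRep, Matrix.adjugate_fin_two_of]
    simp [Matrix.mul_apply, Fin.sum_univ_two, Matrix.vecMul, dotProduct, hc, -ZMod.natCast_val]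
    linear_combination ((L : ℤ) * q) * hm
  exact ⟨σ, fun j => ⟨_, hmem j⟩, fun j => by
    show matSL (X j) * matSL γ = matSL (X j * γ * (X (F j))⁻¹) * matSL (X (F j))
    rw [← matSL_mul, ← matSL_mul, inv_mul_cancel_right]⟩

theorem isFam_upRep (hqL : q ∣ L * q) : IsFam (gammaH (L * q ^ 2) trivChar)
    (gammaH (L * q) trivChar) (upRep q) := by
  refine ⟨fun j => by rw [det_upRep, pow_one]; exact_mod_cast NeZero.ne q, fun γ hγ => ?_⟩
  obtain ⟨c, hc⟩ := mem_gamma0_iff.mp hγ.1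
  push_cast at hc
  have hdet : (matSL γ 0 0 * matSL γ 1 1 : ZMod q) = 1 := by
    have h := congrArg (fun z : ℤ => (z : ZMod q)) (det_matSL γ)
    rw [hc] at h
    push_cast at h
    simp at h
    exact h
  set F : ZMod q → ZMod q := fun j =>
    ((matSL γ 0 1 : ZMod q) + j * matSL γ 1 1) * matSL γ 1 1
  have hF : Function.Injective F := by
    intro i j hij
    have h2 := congrArg (fun z : ZMod q => z * (matSL γ 0 0 : ZMod q) * matSL γ 0 0) hij
    simp only [F] at h2
    linear_combination h2 - ((matSL γ 0 1 : ZMod q) * (matSL γ 0 0 : ZMod q) + i *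
      (matSL γ 0 0 * matSL γ 1 1 + 1)) * hdet + ((matSL γ 0 1 : ZMod q) *
      (matSL γ 0 0 : ZMod q) + j * (matSL γ 0 0 * matSL γ 1 1 + 1)) * hdet
  let σ := Equiv.ofBijective F (Finite.injective_iff_bijective.mp hF)
  have hv : ∀ j : ZMod q, ∃ m : ℤ, matSL γ 0 1 + (j.val : ℤ) * matSL γ 1 1 -
      (matSL γ 0 0 + (j.val : ℤ) * ((L : ℤ) * q * c)) * ((F j).val : ℤ) = (q : ℤ) * m := by
    intro j
    show (q : ℤ) ∣ _
    rw [← ZMod.intCast_zmod_eq_zero_iff_dvd]
    push_cast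
    simp only [F, ZMod.natCast_val, ZMod.cast_id', id_eq, ZMod.natCast_self]
    linear_combination (-((matSL γ 0 1 : ZMod q) + j * matSL γ 1 1)) * hdet
  choose m hm using hv
  let Z : ZMod q → Matrix (Fin 2) (Fin 2) ℤ := fun j =>
    !![matSL γ 0 0 + (j.val : ℤ) * matSL γ 1 0, m j;
      (q : ℤ) * matSL γ 1 0, matSL γ 1 1 - matSL γ 1 0 * ((F j).val : ℤ)]
  have hmove : ∀ j, upRep q j * matSL γ = Z j * upRep q (F j) := fun j => by
    ext r s
    fin_cases r <;> fin_cases s <;>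
      simp [upRep, Z, Matrix.mul_apply, Fin.sum_univ_two, hc, -ZMod.natCast_val]
    · linear_combination hm j
    · ring
  have hdetZ : ∀ j, (Z j).det = 1 := fun j => by
    have h := congrArg Matrix.det (hmove j)
    rw [Matrix.det_mul, Matrix.det_mul, det_upRep, det_upRep,
      show (matSL γ).det = 1 from γ.det_coe, mul_one, pow_one] at h
    exact (mul_eq_right₀ (Nat.cast_ne_zero.mpr (NeZero.ne q))).mp h.symm
  exact ⟨σ, fun j => ⟨⟨Z j, hdetZ j⟩, by
    rw [gammaH_trivChar]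
    exact mem_gamma0_iff.mpr ⟨c, by simp [Z, matSL, hc]; ring⟩⟩, hmove⟩

theorem isDeep_of_mem_Gamma {k : ℕ} {g : SL(2, ℤ)}
    (hg : g ∈ CongruenceSubgroup.Gamma (L * q ^ k)) : IsDeep q L k g := by
  obtain ⟨h00, h01, h10, h11⟩ := Gamma_mem.mp hg
  have d00 := (ZMod.intCast_eq_intCast_iff_dvd_sub (b := (1 : ℤ)) (c := L * q ^ k) _).mp
    (show ((matSL g 0 0 : ℤ) : ZMod (L * q ^ k)) = ((1 : ℤ) : ZMod (L * q ^ k)) by simpa using h00)
  have d11 := (ZMod.intCast_eq_intCast_iff_dvd_sub (b := (1 : ℤ)) (c := L * q ^ k) _).mp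
    (show ((matSL g 1 1 : ℤ) : ZMod (L * q ^ k)) = ((1 : ℤ) : ZMod (L * q ^ k)) by simpa using h11)
  obtain ⟨a, ha⟩ := d00
  obtain ⟨d, hd⟩ := d11
  obtain ⟨b, hb⟩ := (ZMod.intCast_zmod_eq_zero_iff_dvd _ _).mp h01
  obtain ⟨c, hc⟩ := (ZMod.intCast_zmod_eq_zero_iff_dvd _ _).mp h10
  refine ⟨!![-a, b; c, -d], ?_⟩
  ext r s
  fin_cases r <;> fin_cases s <;> simp
  · push_cast at ha; linear_combination -ha
  · simpa using hb
  · simpa using hc
  · push_cast at hd; linear_combination -hd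

variable {D : Type*} [CommGroup D] [Fact (Odd (Nat.card D))] {R : Type*} [CommRing R]
  {A : Type*} [AddCommGroup A] [Module R A] [IsAddTorsionFree A] [NeZero L] [NeZero (L * q)]
  [NeZero (L * q ^ 2)] {ψ : (ZMod q)ˣ →* D} {χ' : (ZMod 1)ˣ →* D}

/-- A transfer to `Γ₀(L q)` vanishing on deep elements is zero. -/
theorem famTransfer_eq_zero_of_deep {ι : Type*} [Fintype ι]
    {η : ι → Matrix (Fin 2) (Fin 2) ℤ} {k : ℕ}
    (hη : IsFam (gammaH (L * q ^ 2) trivChar) (gammaH (L * q) trivChar) η)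
    (φ : Coh (L * q ^ 2) trivChar A) {m : ι → ℕ} (hm : ∀ i, (η i).det = (q : ℤ) ^ m i)
    (hk : ∀ i, m i + 5 ≤ k)
    (h : ∀ γ : SL(2, ℤ), IsDeep q L k γ → ∀ δ : ι → gammaH (L * q ^ 2) trivChar,
      (∀ i, IsDeep q L 5 (δ i : SL(2, ℤ))) → (∀ i, η i * matSL γ = matSL (δ i : SL(2, ℤ)) * η i) →
        ∑ i, φ (Additive.ofMul (δ i)) = 0) :
    famTransfer hη φ = 0 := by
  have : NeZero (L * q ^ k) := ⟨mul_ne_zero (NeZero.ne L) (pow_ne_zero _ (NeZero.ne q))⟩
  have := CongruenceSubgroup.Gamma_normal (L * q ^ k)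
  refine AddMonoidHom.ext fun x => ?_
  obtain ⟨γ, rfl⟩ := Additive.ofMul.surjective x
  set n := (CongruenceSubgroup.Gamma (L * q ^ k)).index
  have hn : n ≠ 0 := Subgroup.FiniteIndex.index_ne_zero
  have hd : IsDeep q L k ((γ ^ n : gammaH (L * q) trivChar) : SL(2, ℤ)) :=
    isDeep_of_mem_Gamma (by rw [SubgroupClass.coe_pow]; exact Subgroup.pow_index_mem _ _)
  have hex : ∀ i, ∃ δ : gammaH (L * q ^ 2) trivChar, IsDeep q L 5 (δ : SL(2, ℤ)) ∧
      η i * matSL ((γ ^ n : gammaH (L * q) trivChar) : SL(2, ℤ)) =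
        matSL (δ : SL(2, ℤ)) * η i := fun i => by
    obtain ⟨δ, hδ, he⟩ := exists_deepConj (NeZero.ne q) (k := 5) (hm i)
      (hd.mono (show 5 + m i ≤ k by have := hk i; omega))
    refine ⟨⟨δ, ?_⟩, hδ, he⟩
    rw [gammaH_trivChar]
    obtain ⟨E', hE⟩ := hδ.mono (show 2 ≤ 5 by norm_num)
    exact mem_gamma0_iff.mpr ⟨E' 1 0, by
      rw [hE, Matrix.add_apply, Matrix.smul_apply, Matrix.one_apply_ne one_ne_zero, zero_add,
        smul_eq_mul]⟩
  choose δ hδ he using hex
  have h0 : famTransfer hη φ (Additive.ofMul (γ ^ n)) = 0 := by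
    rw [famTransfer_apply hη φ _ (σ := 1) (δ := δ) fun i => he i]
    exact h _ hd δ hδ he
  rw [ofMul_pow, map_nsmul] at h0
  exact (smul_eq_zero_iff_right hn).mp h0

variable (h : TwistHyp q 1 L) {φ : Coh (L * q) (prodChar ψ χ') A}

variable (R) in
/-- The twisted classes as classes on `Γ₀(L q²)`. -/
def twTriv (e : ℤ) :
    Coh (L * q) (prodChar ψ χ') A →ₗ[R] Coh (L * q ^ 2) trivChar A :=
  (resC R (dvd_refl (L * q ^ 2)) fun _ hX => bal_of_level_one χ' hX.2.1).comp (twMap R h ψ χ' e)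

theorem twTriv_apply (e : ℤ) (γ : gammaH (L * q ^ 2) trivChar) :
    twTriv R h e φ (Additive.ofMul γ) = twMap R h ψ χ' e φ (Additive.ofMul ⟨γ,
      gammaH_le_of (dvd_refl _) (fun _ hX => bal_of_level_one χ' hX.2.1) γ.2⟩) :=
  resC_apply_apply R (dvd_refl _) (fun _ hX => bal_of_level_one χ' hX.2.1) _ γ

variable (hS : ∑ u, diamondAt R A (prodChar ψ χ') h.dvd_level (twGamma h ψ u) φ = 0)
include hS

/-- **The transfer along the lower unipotents kills the twists.** -/
theorem famTransfer_lowRep_twTriv {e : ℤ} (he : e = 0 ∨ e = 1) :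
    famTransfer isFam_lowRep (twTriv R h e φ) = 0 := by
  refine famTransfer_eq_zero_of_deep (k := 6) isFam_lowRep _ (m := fun _ => 0) (det_lowRep q L)
    (fun _ => by norm_num) fun γ hγ δ hδd hδ => ?_
  simp only [twTriv_apply]
  rcases he with rfl | rfl
  · exact sum_lowRep_zero h hS γ _ (fun j => (hδd j).mono (by norm_num)) hδ
  · exact sum_lowRep_one h hS hγ _ hδd hδ

/-- **The transfer along the upper triangular representatives kills the twists.** -/
theorem famTransfer_upRep_twTriv (e : ℤ) :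
    famTransfer (isFam_upRep (dvd_mul_left q L)) (twTriv R h e φ) = 0 := by
  refine famTransfer_eq_zero_of_deep (k := 6) _ _ (m := fun _ => 1) (det_upRep q)
    (fun _ => by norm_num) fun γ hγ δ hδd hδ => ?_
  simp only [twTriv_apply]
  exact sum_upRep_zero h e hS hγ _ hδd hδ

end FLTAgent.RT
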