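import Fermat.Agent.GalRep.Assembly
import Fermat.Agent.RT.Lower.Lattice
import Fermat.Agent.RT.Lower.TwistCores

/-!
# Non-unipotence from an eigen class killed by both transfers

An eigen class of level `q² L` with values in a complete discrete valuation ring, killed by the two
transfers to level `q L`, forces non-unipotent inertia at `q`.
-/

set_option autoImplicit false
set_option linter.unusedSectionVars false

noncomputable section

namespace FLTAgent.RT.Lower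

open LevelRaise CongruenceSubgroup Polynomial Matrix
open scoped MatrixGroups

local notation "Qbar" => AlgebraicClosure ℚ
local notation "Γℚ" => AlgebraicClosure ℚ ≃ₐ[ℚ] AlgebraicClosure ℚ

variable {q L p : ℕ}

theorem isPushMap_low {L₁ M : ℕ} [Fact q.Prime] [NeZero L₁] [NeZero M] [NeZero p]
    (hM : M = L₁ * q) (hqL : q ∣ L₁) (h : L₁ * 1 ∣ M)
    (hη : IsFam (gammaH M trivChar) (gammaH L₁ trivChar)
      fun j => matSL (JTors.lowRep L₁ q j)) :
    IsPushMap (TM := JTors.torsionModel M p) (TL := JTors.torsionModel L₁ p) 1 h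
      (parRes ℤ hη) := by
  subst hM
  exact isPushMap_parRes
    (fun j => ((JTors.lowRep L₁ q j : SL(2, ℤ)) : GL (Fin 2) ℝ)) hη (fun _ => rfl)
    fun n φ φ' h' => JTors.pushPic_low_torsionProj hqL h n φ φ' h'

theorem isPushMap_up {M' L₁ M : ℕ} [Fact q.Prime] [NeZero q] [NeZero L₁] [NeZero M] [NeZero M']
    [NeZero p] (hM : M = L₁ * q) (hL : L₁ = M' * q) (hq' : ¬ q ∣ M') (h : L₁ * q ∣ M)
    (hη : IsFam (gammaH M trivChar) (gammaH L₁ trivChar) (upRep q)) :
    IsPushMap (TM := JTors.torsionModel M p) (TL := JTors.torsionModel L₁ p) q h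
      (parRes ℤ hη) := by
  subst hM
  exact isPushMap_parRes (fun j : ZMod q => Periods.tRep q (some j)) hη
    (fun j => (coe_tRep_eq (NeZero.ne q) (some j)).trans rfl)
    fun n φ φ' h' => JTors.pushPic_up_torsionProj hL hq' h n φ φ' h'

theorem exists_famTransfer_eq_zero {A : Type*} [AddCommGroup A] {ι : Type*} [Fintype ι]
    {N N₁ N₁' : ℕ} {η η' : ι → Matrix (Fin 2) (Fin 2) ℤ} (hN : N₁' = N₁) (hη' : η' = η)
    (hη : IsFam (gammaH N trivChar) (gammaH N₁ trivChar) η) {φ : Coh N trivChar A}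
    (h : famTransfer hη φ = 0) :
    ∃ hfam : IsFam (gammaH N trivChar) (gammaH N₁' trivChar) η', famTransfer hfam φ = 0 := by
  subst hN hη'
  exact ⟨hη, h⟩

/-- **Non-unipotence at `q` from an eigen class killed by both transfers.** -/
theorem not_isUnipotentOnInertiaAt_of_killed (hspec : GalRep.SpecializationsExist)
    (hgeom : LevelSq.GeometrySq) [NeZero q] [NeZero L] [NeZero (L * q)] [NeZero (L * q ^ 2)]
    [Fact p.Prime] (hq : q.Prime) (hqL : ¬ q ∣ L) (hqp : q ≠ p)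
    {R : Type} [CommRing R] [IsDomain R] [IsDiscreteValuationRing R]
    [IsAdicComplete (IsLocalRing.maximalIdeal R) R] [CharZero R]
    (hpR : (p : R) ∈ IsLocalRing.maximalIdeal R) {S : Finset ℕ}
    (hS : GalRep.levelPrimes (L * q ^ 2) ⊆ (↑S : Set ℕ)) (a : ℕ → R) (ρ : GaloisRepAdic R)
    (hρ : ∀ ℓ : ℕ, ℓ.Prime → ℓ ∉ S →
      ∀ A : ValuationSubring Qbar, A.LiesOverPrime ℓ → ∀ σ : Γℚ, A.IsFrobeniusAt σ ℓ →
        LinearMap.charpoly (ρ.ρ σ) = X ^ 2 - C (a ℓ) * X + C ((ℓ : R)))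
    {φ : Coh (L * q ^ 2) trivChar R} (hφ0 : φ ≠ 0) (hkill : KillsEllPar φ)
    (heig : ∀ (ℓ : ℕ) (hℓ : ℓ.Prime) (hℓN : ¬ ℓ ∣ L * q ^ 2), ℓ ∉ S →
      opT R R trivChar (one_dvd _) hℓ hℓN φ = a ℓ • φ)
    (hlow : famTransfer isFam_lowRep φ = 0)
    (hup : famTransfer (isFam_upRep (dvd_mul_left q L)) φ = 0) :
    ¬ ρ.IsUnipotentOnInertiaAt q := by
  have : Fact q.Prime := ⟨hq⟩
  have : NeZero (q * L) := ⟨mul_ne_zero (NeZero.ne q) (NeZero.ne L)⟩
  have hM : (L * q ^ 2) = q * L * q := by ring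
  -- the transported transfers
  obtain ⟨hl, hl0⟩ := exists_famTransfer_eq_zero (N₁' := q * L) (η := lowRep q L)
    (η' := fun j => matSL (JTors.lowRep (q * L) q j)) (mul_comm q L)
    (funext fun j => by
      show (!![1, 0; ((q * L : ℕ) : ℤ) * (j.val : ℤ), 1] : Matrix (Fin 2) (Fin 2) ℤ) =
        !![1, 0; ((L * q : ℕ) : ℤ) * (j.val : ℤ), 1]
      rw [mul_comm q L]) _ hlow
  obtain ⟨hu, hu0⟩ := exists_famTransfer_eq_zero (N₁' := q * L) (η' := upRep q) (mul_comm q L) rfl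
    _ hup
  -- the vector
  have hk : ∀ γ : Gamma0 (L * q ^ 2), Periods.IsEllPar γ → toGamma0 R (L * q ^ 2) φ (Additive.ofMul γ) = 0 :=
    fun γ hγ => hkill ⟨γ, (gammaH_trivChar (L * q ^ 2)).ge γ.2⟩ hγ
  set ψ := Periods.parLift _ hk with hψdef
  have hψ0 : ψ ≠ 0 := fun h => hφ0 (AddMonoidHom.ext fun x => by
    obtain ⟨γ, rfl⟩ := Additive.ofMul.surjective x
    exact DFunLike.congr_fun h (Periods.parProj (L * q ^ 2) (Additive.ofMul ⟨γ, (gammaH_trivChar (L * q ^ 2)).le γ.2⟩)))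
  -- the character
  let incl : CuspForm.heckeAlgebra (L * q ^ 2) 2 (↑S : Set ℕ) →+*
      CuspForm.heckeAlgebra (L * q ^ 2) 2 (GalRep.levelPrimes (L * q ^ 2)) := (Subalgebra.inclusion (CuspForm.heckeAlgebra_mono (k := 2) hS)).toRingHom
  let E := (heckeActR R (GalRep.levelPrimes (L * q ^ 2)) (L * q ^ 2)).comp incl
  have hgen : ∀ (ℓ : ℕ) (hℓ : ℓ.Prime) (hℓN : ¬ ℓ ∣ (L * q ^ 2)) (hℓS : ℓ ∉ (↑S : Set ℕ)),
      E (CuspForm.heckeAlgebra.T hℓ hℓN hℓS) ψ = a ℓ • ψ := by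
    intro ℓ hℓ hℓN hℓS
    have hT : ∀ γ : Gamma0 (L * q ^ 2), Periods.IsEllPar γ →
        toGamma0 R (L * q ^ 2) (opT R R trivChar (one_dvd (L * q ^ 2)) hℓ hℓN φ) (Additive.ofMul γ) = 0 := fun γ hγ => by
      rw [heig ℓ hℓ hℓN (by simpa using hℓS), map_smul, AddMonoidHom.smul_apply, hk γ hγ, smul_zero]
    refine (heckeActR_parLift hℓ hℓN (GalRep.notMem_levelPrimes hℓN) φ hk hT).trans ?_
    refine Periods.parQuot_hom_ext (AddMonoidHom.ext fun x => ?_)
    rw [AddMonoidHom.comp_apply, AddMonoidHom.comp_apply, Periods.parLift_parProj,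
      heig ℓ hℓ hℓN (by simpa using hℓS), map_smul, AddMonoidHom.smul_apply,
      AddMonoidHom.smul_apply, hψdef, Periods.parLift_parProj]
  have huniq : ∀ {c c' : R}, c • ψ = c' • ψ → c = c' := fun {c c'} h => by
    obtain ⟨x, hx⟩ : ∃ x, ψ x ≠ 0 := by
      by_contra hcon
      push Not at hcon
      exact hψ0 (AddMonoidHom.ext hcon)
    exact mul_right_cancel₀ hx (DFunLike.congr_fun h x)
  have hex : ∀ t, ∃ c : R, E t ψ = c • ψ := by
    rintro ⟨x, hx⟩
    induction hx using Algebra.adjoin_induction with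
    | mem x hx =>
      rcases hx with ⟨ℓ, hℓ, hℓN, hℓS, rfl⟩ | ⟨r, hrM, hr, hrS, rfl⟩
      · exact ⟨a ℓ, hgen ℓ hℓ hℓN hℓS⟩
      · exact absurd (hS ⟨hr, hrM⟩) hrS
    | algebraMap z =>
      refine ⟨(z : R), ?_⟩
      show E (algebraMap ℤ (CuspForm.heckeAlgebra (L * q ^ 2) 2 (↑S : Set ℕ)) z) ψ = _
      rw [eq_intCast, map_intCast]
      show (z • (1 : Module.End R _)) ψ = _
      rw [LinearMap.smul_apply, Module.End.one_apply, Int.cast_smul_eq_zsmul]
    | add x y hx hy ihx ihy =>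
      obtain ⟨c, hc⟩ := ihx
      obtain ⟨c', hc'⟩ := ihy
      refine ⟨c + c', ?_⟩
      show E (⟨x, hx⟩ + ⟨y, hy⟩) ψ = _
      rw [map_add, LinearMap.add_apply, hc, hc', add_smul]
    | mul x y hx hy ihx ihy =>
      obtain ⟨c, hc⟩ := ihx
      obtain ⟨c', hc'⟩ := ihy
      refine ⟨c' * c, ?_⟩
      show E (⟨x, hx⟩ * ⟨y, hy⟩) ψ = _
      rw [map_mul, Module.End.mul_apply, hc', map_smul, hc, smul_smul]
  choose cχ hcχ using hex
  let χ : CuspForm.heckeAlgebra (L * q ^ 2) 2 (↑S : Set ℕ) →+* R :=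
    { toFun := cχ
      map_one' := huniq (by rw [← hcχ, map_one, Module.End.one_apply, one_smul])
      map_mul' := fun s t => huniq (by
        rw [← hcχ, map_mul, Module.End.mul_apply, hcχ, map_smul, hcχ, smul_smul, mul_comm (cχ t)])
      map_zero' := huniq (by rw [← hcχ, map_zero, LinearMap.zero_apply, zero_smul])
      map_add' := fun s t => huniq (by
        rw [← hcχ, map_add, LinearMap.add_apply, hcχ, hcχ, add_smul]) }
  refine not_isUnipotentOnInertiaAt_of_push (q := q) (M' := L) (M := L * q ^ 2) (p := p)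
    (TM := JTors.torsionModel (L * q ^ 2) p) (TL := JTors.torsionModel (q * L) p) hgeom hq
    (by ring) hqL hqp (h1 := by rw [hM, mul_one]; exact dvd_mul_right _ _)
    (hq2 := by rw [hM]) (isPushMap_low hM (dvd_mul_right q L) _ hl)
    (isPushMap_up (M' := L) hM (mul_comm q L) hqL _ hu) (GalRep.galoisFacts hspec (L * q ^ 2) p) hS hpR χ ρ ?_
    (parVec p R ψ) ?_ ?_ ?_ ?_
  · intro ℓ hℓ hℓN hℓS A hA σ hσ
    rw [hρ ℓ hℓ (by simpa using hℓS) A hA σ hσ,
      show χ (CuspForm.heckeAlgebra.T hℓ hℓN hℓS) = a ℓ from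
        huniq ((hcχ _).symm.trans (hgen ℓ hℓ hℓN hℓS))]
  · exact fun h => hψ0 (parVec_injective (h.trans (map_zero _).symm))
  · intro t
    show _ = cχ t • parVec p R ψ
    rw [← map_smul, ← hcχ t]
    exact toMatrix_mulVec_parVec (Periods.heckeAct (GalRep.levelPrimes (L * q ^ 2)) (Periods.hdim (L * q ^ 2)) (incl t))
      (E t) (fun φ => parExtend_castPar R _ φ) ψ
  · refine (toMatrix_mulVec_parVec (parRes ℤ hl) (parRes R hl)
      (fun φ => parRes_castPar hl φ) ψ).trans ?_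
    exact (congrArg _ (parRes_parLift_eq_zero (R := R) hl hk hl0)).trans (map_zero _)
  · refine (toMatrix_mulVec_parVec (parRes ℤ hu) (parRes R hu)
      (fun φ => parRes_castPar hu φ) ψ).trans ?_
    exact (congrArg _ (parRes_parLift_eq_zero (R := R) hu hk hu0)).trans (map_zero _)

end FLTAgent.RT.Lower
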