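import Fermat.Agent.RT.Coh.Ops
import Fermat.Agent.RT.Coh.EllPar
import Fermat.Agent.RT.HeckeRep.EigenPoint
import Mathlib.Algebra.Module.Torsion.Free
import Mathlib.LinearAlgebra.FreeModule.PID
import Mathlib.RingTheory.Localization.FractionRing
import Mathlib.RingTheory.Localization.Integer

/-!
# Eigen classes over an extension of the coefficients

A point of a commutative algebra of operators on a finite free module has an eigenvector over any
domain containing its values, and combinations of basis classes with coefficients in an extension
give classes there, compatibly with the transfers.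
-/

set_option autoImplicit false
set_option linter.unusedSectionVars false

noncomputable section

namespace FLTAgent.RT.Lower

open LevelRaise Matrix
open scoped MatrixGroups

variable {O : Type} [CommRing O] [IsDomain O] [IsPrincipalIdealRing O] {B : Type} [CommRing B]
  [IsDomain B] [Algebra O B]

section Eigen

variable {A : Type} [CommRing A] [Algebra O A] [Module.Finite O A]

/-- A point of a faithful matrix algebra has an eigenvector over the ring of its values. -/
theorem exists_eigen_of_point (hB : Function.Injective (algebraMap O B)) {r : ℕ}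
    (L : A →ₐ[O] Matrix (Fin r) (Fin r) O) (hL : Function.Injective L) (χ : A →ₐ[O] B) :
    ∃ e : Fin r → B, e ≠ 0 ∧ ∀ y, (L y).map (algebraMap O B) *ᵥ e = χ y • e := by
  classical
  let K := FractionRing B
  have hK : Function.Injective (algebraMap O K) := by
    rw [IsScalarTower.algebraMap_eq O B K]
    exact (IsFractionRing.injective B K).comp hB
  have : Module.IsTorsionFree O K := (Module.isTorsionFree_iff_algebraMap_injective).mpr hK
  let LK : A →ₐ[O] Matrix (Fin r) (Fin r) K := ((Algebra.ofId O K).mapMatrix).comp L
  let g : TensorProduct O K A →ₐ[K] Matrix (Fin r) (Fin r) K :=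
    Algebra.TensorProduct.lift (Algebra.ofId K _) LK fun c y =>
      Algebra.commute_algebraMap_left c (LK y)
  have hg : ∀ z, g z = (matrixEquivTensor (Fin r) O K).symm
      (LinearMap.lTensor K L.toLinearMap z) := fun z => by
    induction z using TensorProduct.induction_on with
    | zero => simp
    | tmul c y =>
      rw [LinearMap.lTensor_tmul, matrixEquivTensor_apply_symm, Algebra.TensorProduct.lift_tmul,
        Algebra.ofId_apply, ← Algebra.smul_def]
      rfl
    | add x y hx hy => simp [hx, hy]
  have hginj : Function.Injective g.toLinearMap := fun x y h => by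
    have h' : g x = g y := h
    rw [hg, hg] at h'
    exact Module.Flat.lTensor_preserves_injective_linearMap L.toLinearMap hL
      ((matrixEquivTensor (Fin r) O K).symm.injective h')
  obtain ⟨π, hπ⟩ := g.toLinearMap.exists_leftInverse_of_injective (LinearMap.ker_eq_bot.mpr hginj)
  let χK : TensorProduct O K A →ₐ[K] K := Algebra.TensorProduct.lift (AlgHom.id K K)
    ((IsScalarTower.toAlgHom O B K).comp χ) fun c y => Commute.all _ _
  obtain ⟨v, hv0, hv⟩ := GalRep.exists_eigenvector (LK : A →+* Matrix (Fin r) (Fin r) K)
    ((algebraMap B K).comp (χ : A →+* B)) (χK.toLinearMap ∘ₗ π) fun y => by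
      have h1 : g (TensorProduct.tmul O 1 y) = LK y := by simp [g]
      show χK (π (LK y)) = algebraMap B K (χ y)
      rw [← h1, show π (g (TensorProduct.tmul O 1 y)) = TensorProduct.tmul O 1 y from
        LinearMap.congr_fun hπ (TensorProduct.tmul O (1 : K) y)]
      simp [χK]
  obtain ⟨s, hs⟩ := IsLocalization.exist_integer_multiples_of_finite (nonZeroDivisors B) v
  choose e he using hs
  have hev : (fun i => algebraMap B K (e i)) = algebraMap B K (s : B) • v :=
    funext fun i => (he i).trans (Algebra.smul_def _ _)
  refine ⟨e, fun h => hv0 ?_, fun y => funext fun i => IsFractionRing.injective B K ?_⟩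
  · have hs0 : algebraMap B K (s : B) ≠ 0 := by simp
    refine (smul_eq_zero.mp (hev.symm.trans ?_)).resolve_left hs0
    funext i
    simp [h]
  · rw [RingHom.map_mulVec, Matrix.map_map, Pi.smul_apply, smul_eq_mul, map_mul,
      show (algebraMap B K : B → K) ∘ e = algebraMap B K (s : B) • v from hev,
      show (algebraMap B K : B → K) ∘ algebraMap O B = algebraMap O K from
        (congrArg DFunLike.coe (IsScalarTower.algebraMap_eq O B K)).symm, Matrix.mulVec_smul]
    have h := congrFun (hv y) i
    have h2 := congrFun hev i
    rw [h2, Pi.smul_apply, Pi.smul_apply, smul_eq_mul, smul_eq_mul]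
    show algebraMap B K (s : B) * ((LK y) *ᵥ v) i = _
    rw [show ((LK y) *ᵥ v) i = _ from h, Pi.smul_apply, smul_eq_mul]
    exact mul_left_comm _ _ _

end Eigen

section Classes

variable {M N : ℕ} {D : Type} [CommGroup D] {χ : (ZMod M)ˣ →* D} {r : ℕ}

variable (B) in
/-- A class read in the extension. -/
def extC (x : Coh N χ O) : Coh N χ B := (algebraMap O B).toAddMonoidHom.comp x

theorem extC_apply (x : Coh N χ O) (γ : Additive (gammaH N χ)) :
    extC B x γ = algebraMap O B (x γ) := rfl

variable (B) in
/-- The combination of a family of classes. -/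
def combC (b : Fin r → Coh N χ O) : (Fin r → B) →ₗ[B] Coh N χ B where
  toFun e := ∑ i, e i • extC B (b i)
  map_add' e e' := by simp [add_smul, Finset.sum_add_distrib]
  map_smul' c e := by simp [mul_smul, Finset.smul_sum]

/-- Combinations of an independent family are nonzero. -/
theorem combC_injective [Module.Finite O B] (hB : Function.Injective (algebraMap O B))
    {b : Fin r → Coh N χ O} (hb : LinearIndependent O b) :
    Function.Injective (combC B b) := by
  have : Module.IsTorsionFree O B := (Module.isTorsionFree_iff_algebraMap_injective).mpr hB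
  have : Module.Free O B := Module.free_of_finite_type_torsion_free'
  let w := Module.Free.chooseBasis O B
  refine (injective_iff_map_eq_zero (combC B b)).mpr fun e he => funext fun i =>
    w.repr.map_eq_zero_iff.mp (Finsupp.ext fun j => ?_)
  have h : ∑ i, w.repr (e i) j • b i = 0 := AddMonoidHom.ext fun γ => by
    have h1 := congrArg (fun φ : Coh N χ B => w.repr (φ γ) j) he
    simp only [combC, LinearMap.coe_mk, AddHom.coe_mk, AddMonoidHom.finsetSum_apply,
      AddMonoidHom.smul_apply, extC_apply, map_sum, Finsupp.finsetSum_apply,
      AddMonoidHom.zero_apply, map_zero, Finsupp.zero_apply] at h1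
    rw [AddMonoidHom.finsetSum_apply, AddMonoidHom.zero_apply, ← h1]
    refine Finset.sum_congr rfl fun i _ => ?_
    rw [AddMonoidHom.smul_apply, smul_eq_mul (a := e i), mul_comm (e i), ← Algebra.smul_def,
      map_smul, Finsupp.smul_apply, smul_eq_mul, smul_eq_mul, mul_comm]
  simpa using Fintype.linearIndependent_iff.mp hb _ h i

theorem killsEllPar_combC {b : Fin r → Coh N χ O} (hb : ∀ i, KillsEllPar (b i)) (e : Fin r → B) :
    KillsEllPar (combC B b e) := fun γ hγ => by
  show (∑ i, e i • extC B (b i)) _ = 0
  rw [AddMonoidHom.finsetSum_apply]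
  exact Finset.sum_eq_zero fun i _ => by
    rw [AddMonoidHom.smul_apply, extC_apply, hb i γ hγ, map_zero, smul_zero]

/-- Transfers commute with the combinations. -/
theorem famTransfer_combC {ι : Type*} [Fintype ι] {η : ι → Matrix (Fin 2) (Fin 2) ℤ}
    (hη : IsFam (gammaH N χ) (gammaH N χ) η) (b : Fin r → Coh N χ O)
    (Q : Matrix (Fin r) (Fin r) O) (hQ : ∀ i, famTransfer hη (b i) = ∑ j, Q j i • b j)
    (e : Fin r → B) :
    famTransfer hη (combC B b e) = combC B b (Q.map (algebraMap O B) *ᵥ e) := by
  show famTransfer hη (∑ i, e i • extC B (b i)) = ∑ j, _ • extC B (b j)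
  rw [← famTransferL_apply B, map_sum]
  simp only [map_smul, famTransferL_apply, extC, map_famTransfer, hQ]
  refine AddMonoidHom.ext fun γ => ?_
  simp only [AddMonoidHom.finsetSum_apply, AddMonoidHom.smul_apply, AddMonoidHom.comp_apply,
    smul_eq_mul, Matrix.mulVec, dotProduct, Matrix.map_apply, map_sum, map_mul,
    RingHom.toAddMonoidHom_eq_coe, AddMonoidHom.coe_coe, Finset.mul_sum, Finset.sum_mul]
  rw [Finset.sum_comm]
  exact Finset.sum_congr rfl fun j _ => Finset.sum_congr rfl fun i _ => by ring

end Classes

end FLTAgent.RT.Lower
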