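import Fermat.Agent.RT.Lower.Levels
import Fermat.Agent.RT.Sys.LowerEps

/-!
# No family for lowering at a scalar prime

The levels of lowering at all depths form a family which cannot exist, given the relation of
inertia at `q` on each of them.
-/

set_option autoImplicit false
set_option linter.unusedSectionVars false
set_option linter.style.haveILetI false

noncomputable section

open IsLocalRing Matrix Polynomial WeierstrassCurve FLTAgent.Deformation FLTAgent.GalRep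
  FLTAgent.RT.Main

namespace FLTAgent.RT.Lower

attribute [local instance] dualAlg

variable {𝒪 : Type} [CommRing 𝒪] [IsDomain 𝒪] [IsDiscreteValuationRing 𝒪]
  [IsAdicComplete (maximalIdeal 𝒪) 𝒪] [Finite (ResidueField 𝒪)] [CharZero 𝒪]
  {W : WeierstrassCurve ℤ} {p : ℕ} [Fact p.Prime] {aux : Finset ℕ}
  {F : Main.Frame 𝒪 W p freeAt aux} {loc : PCond} {N₀ q : ℕ}

/-- The non-trivial `p ^ k`th roots of unity, paired with their inverses. -/
def lowRoots (z : 𝒪) (p k : ℕ) : Finset (𝒪 × 𝒪) :=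
  letI := Classical.decEq (𝒪 × 𝒪)
  (Finset.Ioo 0 (p ^ k)).image fun i => (z ^ i, z ^ (p ^ k - i))

theorem exists_mem_lowRoots {z : 𝒪} {k : ℕ} (hz : IsPrimitiveRoot z (p ^ k)) (w : 𝒪)
    (hw : w ^ p ^ k = 1) (hw1 : w ≠ 1) :
    ∃ x ∈ lowRoots z p k, x.1 = w ∧ x.1 * x.2 = 1 := by
  have : NeZero (p ^ k) := ⟨pow_ne_zero _ (Fact.out : p.Prime).ne_zero⟩
  obtain ⟨i, hi, rfl⟩ := hz.eq_pow_of_pow_eq_one hw
  have hi0 : i ≠ 0 := fun h => hw1 (by rw [h, pow_zero])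
  refine ⟨(z ^ i, z ^ (p ^ k - i)), ?_, rfl, ?_⟩
  · letI := Classical.decEq (𝒪 × 𝒪)
    exact Finset.mem_image_of_mem _ (Finset.mem_Ioo.mpr ⟨Nat.pos_of_ne_zero hi0, hi⟩)
  · rw [← pow_add, Nat.add_sub_cancel' hi.le, hz.pow_eq_one]

/-- `ζ - 1` divides `p`. -/
theorem sub_one_dvd_natCast {ζ : 𝒪} (hζ : IsPrimitiveRoot ζ p) : ζ - 1 ∣ (p : 𝒪) := by
  have h := sub_dvd_eval_sub (1 : 𝒪) ζ (cyclotomic p 𝒪)
  rw [hζ.isRoot_cyclotomic (Fact.out : p.Prime).pos, eval_one_cyclotomic_prime, sub_zero] at h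
  rwa [← neg_sub, neg_dvd]

theorem lowRoots_spec {z : 𝒪} {k : ℕ} (hz : IsPrimitiveRoot z (p ^ (k + 1)))
    (hp : (p : 𝒪) ∈ maximalIdeal 𝒪) {n : ℕ} (hn : p ^ (k + 1) ∣ n - 1) (hn1 : 1 ≤ n) :
    ∀ x ∈ lowRoots z p (k + 1), x.1 * x.2 = 1 ∧ x.1 ≠ 1 ∧ x.1 - 1 ∈ maximalIdeal 𝒪 ∧
      x.1 ^ n = x.1 ∧ x.1 - 1 ∣ z ^ p ^ k - 1 := by
  intro x hx
  obtain ⟨i, hi, rfl⟩ : ∃ i ∈ Finset.Ioo 0 (p ^ (k + 1)), (z ^ i, z ^ (p ^ (k + 1) - i)) = x := by
    letI := Classical.decEq (𝒪 × 𝒪)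
    exact Finset.mem_image.mp hx
  obtain ⟨hi0, hi⟩ := Finset.mem_Ioo.mp hi
  have hne : z ^ i ≠ 1 := hz.pow_ne_one_of_pos_of_lt hi0.ne' hi
  have hpk : (z ^ i) ^ p ^ (k + 1) = 1 := by
    rw [← pow_mul, mul_comm, pow_mul, hz.pow_eq_one, one_pow]
  have hchar : CharP (ResidueField 𝒪) p := (CharP.charP_iff_prime_eq_zero Fact.out).mpr (by
    rw [← map_natCast (residue 𝒪), residue_eq_zero_iff]; exact hp)
  refine ⟨?_, hne, ?_, ?_, ?_⟩
  · show z ^ i * z ^ (p ^ (k + 1) - i) = 1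
    rw [← pow_add, Nat.add_sub_cancel' hi.le, hz.pow_eq_one]
  · have : ExpChar (ResidueField 𝒪) p := ExpChar.prime Fact.out
    rw [← residue_eq_zero_iff, map_sub, map_one, sub_eq_zero]
    apply iterateFrobenius_inj (ResidueField 𝒪) p (k + 1)
    rw [iterateFrobenius_def, iterateFrobenius_def, one_pow, ← map_pow, hpk, map_one]
  · obtain ⟨c, hc⟩ := hn
    show (z ^ i) ^ n = z ^ i
    rw [show n = p ^ (k + 1) * c + 1 by omega, pow_succ, pow_mul, hpk, one_pow, one_mul]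
  · show z ^ i - 1 ∣ z ^ p ^ k - 1
    obtain ⟨a, -, ha⟩ := (Nat.dvd_prime_pow Fact.out).mp (orderOf_dvd_of_pow_eq_one hpk)
    have ha0 : a ≠ 0 := fun h => hne (orderOf_eq_one_iff.mp (by rw [ha, h, pow_zero]))
    obtain ⟨b, rfl⟩ := Nat.exists_eq_add_one_of_ne_zero ha0
    have hω : IsPrimitiveRoot ((z ^ i) ^ p ^ b) p := by
      have h1 : IsPrimitiveRoot (z ^ i) (p ^ (b + 1)) := ha ▸ IsPrimitiveRoot.orderOf (z ^ i)
      exact h1.pow (pow_pos (Fact.out : p.Prime).pos _) (pow_succ p b)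
    have : NeZero p := ⟨(Fact.out : p.Prime).ne_zero⟩
    obtain ⟨t, -, ht⟩ := hω.eq_pow_of_pow_eq_one
      (show (z ^ p ^ k) ^ p = 1 by rw [← pow_mul, ← pow_succ, hz.pow_eq_one])
    rw [← ht, ← pow_mul]
    exact sub_one_dvd_pow_sub_one _ _

/-- **There is no scalar prime at the base level of lowering.** -/
theorem Setup.false_of_inertiaRel (hS : Setup F N₀ q) (ht : IsLocalType 𝒪 p loc)
    (hmax : LowMax F loc (N₀ * q))
    (hCp : ∀ P : ValuationSubring (AlgebraicClosure ℚ), P.LiesOverPrime p →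
      ∃ S : Submodule (ResidueField 𝒪) (P.decompositionSubgroup ℚ → Mat (ResidueField 𝒪)),
        TW.adB1 (barMatrix F.rb) (P.decompositionSubgroup ℚ) ≤ S ∧
        S ≤ TW.adZ1 (barMatrix F.rb) (P.decompositionSubgroup ℚ) ∧
        Module.Finite (ResidueField 𝒪) S ∧ Module.finrank (ResidueField 𝒪) S ≤ 4 ∧
        ∀ (N : Gal →* Mat (DualNumber (ResidueField 𝒪))) (hN : MatCont N),
          (∀ σ, (N σ).map TrivSqZeroExt.fst = barMatrix F.rb σ) →
          (∀ σ, Matrix.trace (TW.liftCocycle (barMatrix F.rb) N σ) = 0) →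
          loc (matRep N hN) →
          (fun g : P.decompositionSubgroup ℚ => TW.liftCocycle (barMatrix F.rb) N g) ∈ S)
    {k : ℕ} (hk : p ^ (k + 1) ∣ q - 1) {z : 𝒪} (hz : IsPrimitiveRoot z (p ^ (k + 1)))
    (hin : ∀ {Pl : LocPlaces F (fun i : LocIdx F (N₀ * q) => i.1)} {g r n : ℕ}
      (St : LowStage F loc (N₀ * q) q Pl g r n), St.InertiaRel hS (lowRoots z p (k + 1))) :
    False := by
  classical
  have := hS.neZero
  have hp : p.Prime := Fact.out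
  have := isAddTorsionFree_of_charZero (O := 𝒪)
  have := moduleFree_coh (χ := trivChar) (O := 𝒪) (one_dvd (N₀ * q))
  have := moduleFinite_coh (χ := trivChar) 𝒪 𝒪 (one_dvd (N₀ * q))
  obtain ⟨Pl⟩ := nonempty_locPlaces F (fun i : LocIdx F (N₀ * q) => i.1)
    fun i => ⟨(locIdx_spec F i).1, (locIdx_spec F i).2.2.2.2.1⟩
  obtain ⟨r, g, hle, hSt⟩ := exists_lowStages F ht (resid_of_lowMax F ht hmax hS.sq hS.part)
    hCp hS Pl
  obtain ⟨d, e₀⟩ := Submodule.basisOfPid (Module.finBasis 𝒪 (Coh (N₀ * q) trivChar 𝒪))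
    (cohPart trivChar (one_dvd (N₀ * q))
      (prime_famPrime (W := W) (p := p) (aux := lowAux aux (N₀ * q))) (famCoeff 𝒪))
  have : Nontrivial (cohPart trivChar (one_dvd (N₀ * q))
      (prime_famPrime (W := W) (p := p) (aux := lowAux aux (N₀ * q))) (famCoeff 𝒪)) :=
    Submodule.nontrivial_iff_ne_bot.mpr hS.part
  have hd : 0 < d := Fin.pos_iff_nonempty.mpr e₀.index_nonempty
  set ζ := z ^ p ^ k with hζdef
  have hζ : IsPrimitiveRoot ζ p := hz.pow (pow_pos hp.pos _) (pow_succ p k)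
  have hζ2 : ζ ^ 2 ≠ 1 := hζ.pow_ne_one_of_pos_of_lt two_ne_zero
    (lt_of_le_of_ne hp.two_le (Ne.symm F.ne_two))
  haveI : ∀ n, Fact (Odd (Nat.card (Sys.LowerGroup p n r))) :=
    fun n => ⟨Sys.odd_card_lowerGroup n r F.ne_two⟩
  haveI : ∀ n, Fact (Odd (Nat.card (Main.TWGrp p r n))) :=
    fun n => ⟨Sys.odd_card_twGroup p n r F.ne_two⟩
  haveI : ∀ n, Fintype (MonoidHom.snd (Multiplicative (ZMod p)) (Main.TWGrp p r n)).ker :=
    fun n => Fintype.ofFinite _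
  let L := fun n => ((hSt n).some.nonempty_lowerLevel hS ht hmax (hin _) e₀).some
  choose ε κ ε₁ hεκ hκ hε₁ hε hεh hdvd using fun n =>
    Sys.exists_lowerEps (r := r) (k := n) (n := n) F.mem_p n.le_succ hζ.pow_eq_one
  let sys := Sys.buildLower (ζ := ζ)
    (π := fun n => MonoidHom.snd (Multiplicative (ZMod p)) (Main.TWGrp p r n))
    (h₀ := fun n => ((Multiplicative.ofAdd 1, 1) : Sys.LowerGroup p n r))
    (gen := fun n j => ((1, Sys.twGen j) : Sys.LowerGroup p n r))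
    L ε κ ε₁ hεκ hε (fun n => rfl) (fun n h => hζ2 ((hκ n).symm.trans h)) hdvd hd
  have hqk : p ^ (k + 1) ∣ (Pl.Ds hS.idx).q - 1 := by rw [Pl.q_eq]; exact hk
  have hq1 : 1 ≤ (Pl.Ds hS.idx).q := by rw [Pl.q_eq]; exact hS.prime.one_lt.le
  obtain ⟨c, hc⟩ := hS.barMatrix_frobenius (Pl.liesOver hS.idx) (Pl.frob hS.idx)
  obtain ⟨φ, hφ⟩ := exists_scalar_base (Pl.base hS.idx) hc
  refine sys.false (isUnit_two F.mem_p F.ne_two) ?_ hφ (m := (p - 1) / 2) ?_ ?_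
    (lowRoots_spec hz F.mem_p hqk hq1) ?_
  · rw [Nat.card_sum, Nat.card_sum, Nat.card_sigma, Nat.card_of_isEmpty, zero_add, Nat.card_fin]
    simp only [Nat.card_fin]
    omega
  · have := hp.two_le
    have := F.ne_two
    omega
  · obtain ⟨c', hc'⟩ := hp.odd_of_ne_two F.ne_two
    have h4 : (4 : ZMod p) ≠ 0 := fun h => by
      have h' : ((2 : ℕ) : ZMod p) * ((2 : ℕ) : ZMod p) = 0 := by rw [← h]; norm_num
      rw [mul_self_eq_zero, ZMod.natCast_eq_zero_iff] at h'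
      exact F.ne_two ((Nat.prime_dvd_prime_iff_eq hp Nat.prime_two).mp h')
    rw [← residue_eq_zero_iff, map_sub, map_pow, map_ofNat, map_one, sub_eq_zero,
      ← map_ofNat (resHom F.mem_p) 4, ← map_pow, show 2 * ((p - 1) / 2) = p - 1 by omega,
      ZMod.pow_card_sub_one_eq_one h4, map_one]
  · have h := (sub_one_dvd_natCast hζ).trans
      (Nat.cast_dvd_cast (α := 𝒪) ((dvd_pow_self p k.succ_ne_zero).trans hqk))
    rwa [Nat.cast_sub hq1, Nat.cast_one] at h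

end FLTAgent.RT.Lower
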