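import Fermat.Agent.RT.Main.Free
import Fermat.Agent.RT.Main.Act
import Fermat.Agent.RT.Main.Inputs
import Fermat.Agent.RT.Lower.Away

/-!
# The setting of lowering at a scalar prime

A level `N₀ q` with non-zero part and no part at `N₀`, `q` a scalar prime. The primes of the level
away from `p` at which `W[p]` is unramified get places and normal forms, the one at `q` scalar;
inertia is asked to be unipotent at all primes of the level but `q`.
-/

set_option autoImplicit false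
set_option linter.unusedSectionVars false

noncomputable section

open IsLocalRing Matrix Polynomial WeierstrassCurve FLTAgent.Deformation FLTAgent.GalRep
  FLTAgent.RT.Main

namespace FLTAgent.RT.Lower

local notation "Γℚ" => AlgebraicClosure ℚ ≃ₐ[ℚ] AlgebraicClosure ℚ

variable {𝒪 : Type} [CommRing 𝒪] [IsDomain 𝒪] [IsDiscreteValuationRing 𝒪]
  [IsAdicComplete (maximalIdeal 𝒪) 𝒪] [Finite (ResidueField 𝒪)] [CharZero 𝒪]
  {W : WeierstrassCurve ℤ} {p : ℕ} [Fact p.Prime] {aux : Finset ℕ}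
  (F : Main.Frame 𝒪 W p freeAt aux)

/-- The maximal data whose power of `p` in the level is that of `N` satisfy the condition at `p`. -/
def LowMax (loc : PCond) (N : ℕ) : Prop :=
  ∀ {N' : ℕ} [NeZero N'] {S : Finset ℕ} (b : ℕ → 𝒪), (∀ r : ℕ, r.Prime → r ∣ N' → r ∈ S) →
    p ∈ S → (p ∣ N' ↔ p ∣ N) → ¬ p ^ 2 ∣ N' → ∀ H : MaxDatum N' S 𝒪 b F.rb, loc H.H.ρ

/-- The primes outside the Hecke family, besides the bad ones. -/
abbrev lowAux (aux : Finset ℕ) (N : ℕ) : Finset ℕ := aux ∪ N.primeFactors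

/-- A base level `N₀ q` for lowering at `q`. -/
structure Setup (N₀ q : ℕ) : Prop where
  sq : Squarefree (N₀ * q)
  prime : q.Prime
  ne_p : q ≠ p
  notMem_aux : q ∉ aux
  scalar : LevelLower.Endgame.IsScalarPrime F.disc_ne p q
  nuThree : p ≠ 3 ∨ ModularCurve.nuThree N₀ = 0
  part : ∀ [NeZero (N₀ * q)], cohPart trivChar (one_dvd (N₀ * q))
    (prime_famPrime (W := W) (p := p) (aux := lowAux aux (N₀ * q))) (famCoeff 𝒪) ≠ ⊥
  bot : ∀ [NeZero N₀], cohPart trivChar (one_dvd N₀)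
    (prime_famPrime (W := W) (p := p) (aux := lowAux aux (N₀ * q))) (famCoeff 𝒪) = ⊥

/-- The primes of the level outside `aux`, with those where `E[p]` needs ramification. -/
abbrev ramSet (N : ℕ) : Finset ℕ := F.minS ∪ (N.primeFactors \ aux)

/-- The primes of the level away from `p` and `aux` at which `E[p]` is unramified. -/
abbrev LocIdx (N : ℕ) : Type := {l : ℕ // l ∈ N.primeFactors \ (F.minS ∪ aux)}

theorem prime_of_mem_ramSet {N l : ℕ} (h : l ∈ ramSet F N) : l.Prime :=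
  (Finset.mem_union.mp h).elim (prime_of_mem_minSet p F.disc_ne F.mem_p l)
    fun h => Nat.prime_of_mem_primeFactors (Finset.mem_sdiff.mp h).1

theorem ramSet_subset (N : ℕ) : ramSet F N ⊆ excSet W p (lowAux aux N) := fun l hl =>
  (Finset.mem_union.mp hl).elim (fun h => Finset.mem_union_left _ (F.minS_subset h)) fun h =>
    Finset.mem_union_right _ (Finset.mem_union_right _ (Finset.mem_sdiff.mp h).1)

theorem mem_ramSet_union_aux {N l : ℕ} (hN : N ≠ 0) (hl : l.Prime) (hd : l ∣ N) :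
    l ∈ ramSet F N ∪ aux := by
  by_cases ha : l ∈ aux
  · exact Finset.mem_union_right _ ha
  · exact Finset.mem_union_left _ (Finset.mem_union_right _
      (Finset.mem_sdiff.mpr ⟨Nat.mem_primeFactors.mpr ⟨hl, hd, hN⟩, ha⟩))

theorem locIdx_spec {N : ℕ} (i : LocIdx F N) :
    i.1.Prime ∧ i.1 ∣ N ∧ i.1 ∉ F.minS ∧ i.1 ∉ aux ∧ i.1 ≠ p ∧ i.1 ∈ ramSet F N := by
  obtain ⟨h1, h2⟩ := Finset.mem_sdiff.mp i.2
  rw [Finset.mem_union, not_or] at h2
  exact ⟨Nat.prime_of_mem_primeFactors h1, Nat.dvd_of_mem_primeFactors h1, h2.1, h2.2,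
    fun h => h2.1 (by rw [h]; exact mem_minSet_self p F.disc_ne F.mem_p),
    Finset.mem_union_right _ (Finset.mem_sdiff.mpr ⟨h1, h2.2⟩)⟩

include F in
theorem sysLow (N : ℕ) :
    Sys W p (excSet W p (lowAux aux N)) famPrime
      (famCoeff 𝒪 (W := W) (p := p) (aux := lowAux aux N)) :=
  sys_awayPrimes (Finset.mem_union_left _ (Finset.mem_insert_self _ _)) fun _ hℓ h =>
    (F.good_of_notMem hℓ fun h' => h (Finset.mem_union_left _ h')).1

include F in
theorem nonEisLow (N : ℕ) :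
    NonEis famPrime (famCoeff 𝒪 (W := W) (p := p) (aux := lowAux aux N)) :=
  (sysLow F N).nonEis F.disc_ne F.mem_p F.ne_two F.irr

include F in
theorem prime_of_mem_excSet_lowAux {N l : ℕ} (hl : l ∈ excSet W p (lowAux aux N)) : l.Prime :=
  (Finset.mem_union.mp hl).elim Frame.prime_of_mem_badSet fun h =>
    (Finset.mem_union.mp h).elim (fun h => (F.aux_ok l h).1) Nat.prime_of_mem_primeFactors

section Scalar

variable {F} {N₀ q : ℕ} (hS : Setup F N₀ q)

include hS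

theorem Setup.neZero : NeZero (N₀ * q) := ⟨hS.sq.ne_zero⟩

theorem Setup.not_dvd : ¬ q ∣ N₀ := fun h =>
  hS.prime.not_isUnit (hS.sq q (mul_dvd_mul_right h q))

theorem Setup.p_dvd_sub_one : p ∣ q - 1 := by
  have h := hS.scalar.1
  rw [← Nat.cast_one, ZMod.natCast_eq_natCast_iff] at h
  exact (Nat.modEq_iff_dvd' hS.prime.one_lt.le).mp h.symm

/-- `E[p]` is unramified at `q`. -/
theorem Setup.isUnramifiedAt : F.rb.IsUnramifiedAt q := by
  refine (isUnramifiedAt_rbar_iff p F.disc_ne F.mem_p).mpr fun A hA σ hσ x => ?_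
  have h := (hS.scalar.2 A hA).1 σ hσ
  change Carayol.matHom _ _ σ = 1 at h
  rw [Carayol.matHom_apply, ← LinearMap.toMatrix_one
    (Carayol.resBasis (LevelDrop.torsRep F.disc_ne p)),
    (LinearMap.toMatrix _ _).injective.eq_iff] at h
  exact LinearMap.congr_fun h x

theorem Setup.notMem_minS : q ∉ F.minS := fun h =>
  (mem_minSet_iff p F.disc_ne F.mem_p hS.prime hS.ne_p).mp h hS.isUnramifiedAt

/-- The index of `q`. -/
def Setup.idx : LocIdx F (N₀ * q) :=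
  ⟨q, Finset.mem_sdiff.mpr ⟨Nat.mem_primeFactors.mpr ⟨hS.prime, dvd_mul_left q N₀, hS.sq.ne_zero⟩,
    Finset.notMem_union.mpr ⟨hS.notMem_minS, hS.notMem_aux⟩⟩⟩

/-- Frobenius at `q` is `±1` on `E[p]`. -/
theorem Setup.barMatrix_frobenius {A : ValuationSubring (AlgebraicClosure ℚ)}
    (hA : A.LiesOverPrime q) {σ : Γℚ} (hσ : A.IsFrobeniusAt σ q) :
    ∃ c : ResidueField 𝒪, barMatrix F.rb σ = c • (1 : Mat (ResidueField 𝒪)) := by
  obtain ⟨c, hc⟩ : ∃ c : ZMod p, (LevelDrop.torsRep F.disc_ne p).ρ σ = c • 1 := by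
    let b := Carayol.resBasis (LevelDrop.torsRep F.disc_ne p)
    rcases (hS.scalar.2 A hA).2 σ hσ with h | h <;> change Carayol.matHom _ _ σ = _ at h <;>
      rw [Carayol.matHom_apply] at h
    · exact ⟨1, (LinearMap.toMatrix b b).injective (by
        rw [one_smul, LinearMap.toMatrix_one]; exact h)⟩
    · exact ⟨-1, (LinearMap.toMatrix b b).injective (by
        rw [neg_one_smul, map_neg, LinearMap.toMatrix_one]; exact h)⟩
  refine ⟨resHom F.mem_p c, ?_⟩
  let := (resHom F.mem_p).toAlgebra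
  have h1 : F.rb.ρ σ = resHom F.mem_p c • (1 : Module.End _ F.rb.V) := by
    show ((LevelDrop.torsRep F.disc_ne p).ρ σ).baseChange (ResidueField 𝒪) = _
    rw [hc, LinearMap.baseChange_smul, LinearMap.baseChange_one, ← algebraMap_smul (ResidueField 𝒪) c]
    rfl
  rw [barMatrix, repMatrix_apply, h1, map_smul, LinearMap.toMatrix_one]

end Scalar

/-- A place, a Frobenius and a normal form at each prime. -/
structure LocPlaces {ι : Type} (qs : ι → ℕ) : Type where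
  P : ι → ValuationSubring (AlgebraicClosure ℚ)
  φ : ι → Gal
  Ds : ι → LocalDatum 𝒪
  liesOver : ∀ i, (P i).LiesOverPrime (qs i)
  frob : ∀ i, (P i).IsFrobeniusAt (φ i) (qs i)
  q_eq : ∀ i, (Ds i).q = qs i
  base : ∀ i, Gen.IsBaseAt (Ds i) (barMatrix F.rb (φ i))

theorem nonempty_locPlaces {ι : Type} (qs : ι → ℕ) (h : ∀ i, (qs i).Prime ∧ qs i ≠ p) :
    Nonempty (LocPlaces F qs) := by
  have h' : ∀ i, ∃ (P : ValuationSubring (AlgebraicClosure ℚ)) (φ : Gal) (D : LocalDatum 𝒪),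
      P.LiesOverPrime (qs i) ∧ P.IsFrobeniusAt φ (qs i) ∧ D.q = qs i ∧
        Gen.IsBaseAt D (barMatrix F.rb φ) := fun i => by
    obtain ⟨P, φ, hP, hφ⟩ := Frobenius.exists_liesOverPrime_isFrobeniusAt (h i).1
    obtain ⟨D, hD, hB⟩ := Gen.exists_localDatum (Fact.out : p.Prime) F.ne_two F.mem_p (h i).1
      (h i).2 _ (F.det_barMatrix (h i).1 (h i).2 hP hφ)
    exact ⟨P, φ, D, hP, hφ, hD, hB⟩
  choose P φ D h1 h2 h3 h4 using h'
  exact ⟨⟨P, φ, D, h1, h2, h3, h4⟩⟩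

/-- A normal form of a scalar matrix is scalar. -/
theorem exists_scalar_base {D : LocalDatum 𝒪} {X : Mat (ResidueField 𝒪)}
    (h : Gen.IsBaseAt D X) {c : ResidueField 𝒪} (hX : X = c • 1) :
    ∃ φ, D.base = LocalBase.scalar φ := by
  rcases hb : D.base with φ | T
  · exact ⟨φ, rfl⟩
  obtain ⟨P, hP⟩ := h
  rw [hX, Matrix.smul_mul, one_mul, ← mul_one (P : Mat (ResidueField 𝒪)), ← Matrix.mul_smul,
    mul_one] at hP
  have h10 := congrFun (congrFun (P.isUnit.mul_right_injective hP) 1) 0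
  simp [LocalDatum.baseMat, hb] at h10

/-- The deformation rings for lowering. -/
abbrev LowData (loc : PCond) (S T : Finset ℕ) : Type 1 :=
  GaloisRep.DeformationRingData 𝒪 F.rb (problem 𝒪 p loc S T)

/-- A maximal datum satisfies the problem. -/
theorem problem_maxDatum {loc : PCond} {N : ℕ} [NeZero N] {S : Finset ℕ} {b : ℕ → 𝒪}
    (hS : ∀ r : ℕ, r.Prime → r ∣ N → r ∈ S ∪ aux) (hmin : F.minS ⊆ S) {T : Finset ℕ}
    (hT : ∀ l ∈ T, l ≠ p → ¬ l ^ 2 ∣ N)
    (H : MaxDatum N (S ∪ aux) 𝒪 b F.rb) (hloc : loc H.H.ρ) :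
    problem 𝒪 p loc S T H.H.ρ := by
  have hpS : p ∈ S ∪ aux :=
    Finset.mem_union_left _ (hmin (mem_minSet_self p F.disc_ne F.mem_p))
  obtain ⟨Mm⟩ := matModel_of_specializations specializationsExist N p (S ∪ aux) hS
  have hunr : ∀ r : ℕ, r.Prime → r ≠ p → ¬ r ∣ N → H.H.ρ.IsUnramifiedAt r :=
    fun r hr hrp hrN => isUnramifiedAt_of_matModel Mm frobeniusDense F.mem_p H.H r hr
      fun h => (hr.dvd_mul.mp h).elim hrN
        fun h' => hrp ((Nat.prime_dvd_prime_iff_eq hr Fact.out).mp h')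
  refine ⟨⟨detIsCyclotomic_datum Mm frobeniusDense F.mem_p H.H, hloc, fun r hr hrS => ?_⟩,
    fun r hrT hr hrp => ?_⟩
  · have hrp : r ≠ p := fun h => hrS (h ▸ hmin (mem_minSet_self p F.disc_ne F.mem_p))
    by_cases hra : r ∈ aux
    · obtain ⟨-, hgood, -, hr1, hrt⟩ := F.aux_ok r hra
      refine isUnramifiedAt_of_residual ⟨inferInstance, H.H.residue_surjective⟩ F.mem_p hr hrp
        hr1 (isUnit_two F.mem_p F.ne_two)
        (isUnramifiedAt_rbar_of_good p F.disc_ne F.mem_p hr hgood hrp)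
        (fun A hA φ hφ h0 => hrt ?_) H.H.ρ
        (ι := ResidueField.map (algebraMap 𝒪 H.T)) (fun r => rfl) H.residual
      rw [trace_rbar_frobenius p F.disc_ne F.mem_p hr hgood hrp hA hφ,
        ← resHom_intCast F.mem_p, map_eq_zero, ZMod.intCast_zmod_eq_zero_iff_dvd] at h0
      exact h0
    · exact hunr r hr hrp fun h => (Finset.mem_union.mp (hS r hr h)).elim hrS hra
  · by_cases hrN : r ∣ N
    · exact unipotentAtExact F.mem_p hpS hS H.H r hr hrp hrN (hT r hrT hrp)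
    · exact isUnipotentOnInertiaAt_of_isUnramifiedAt (hunr r hr hrp hrN)

/-- **A part has an action of the deformation ring**, at a level whose maximal data satisfy the
condition at `p`. -/
theorem exists_lowAct {loc : PCond} (ht : IsLocalType 𝒪 p loc) {N₁ : ℕ} (hmax : LowMax F loc N₁)
    {E : Finset ℕ} {M N : ℕ} [NeZero N] {D : Type} [CommGroup D]
    [Fintype D] [Fact (Odd (Nat.card D))] {χ : (ZMod M)ˣ →* D} (hMN : M ∣ N)
    {a' : Fam W p E → 𝒪} (hne : NonEis famPrime a') (hsq : Squarefree M)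
    (hex : ∀ r : ℕ, r.Prime → r ∣ M → ¬ r ^ 2 ∣ N)
    [Nontrivial (cohPart χ hMN (prime_famPrime (W := W) (p := p) (aux := E)) a')]
    {N' : ℕ} [NeZero N'] (hN' : N' = N * M) {S T : Finset ℕ} (hmin : F.minS ⊆ S)
    (Dat : LowData F loc S T) (hS : ∀ r : ℕ, r.Prime → r ∣ N' → r ∈ S ∪ aux)
    (hpN : p ∣ N' ↔ p ∣ N₁) (hp2 : ¬ p ^ 2 ∣ N') (hT : ∀ l ∈ T, l ≠ p → ¬ l ^ 2 ∣ N')
    (ha' : ∀ i : Fam W p E, famPrime i ∉ S ∪ aux → a' i = famCoeff 𝒪 i) :
    ∃ φ : Dat.R →ₐ[𝒪] Module.End 𝒪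
        (cohPart χ hMN (prime_famPrime (W := W) (p := p) (aux := E)) a'),
      Sys.IsFrobCompat Dat (S ∪ aux) φ := by
  obtain ⟨b, hb, hb'⟩ := exists_resCoeff F
  have hpS : p ∈ S ∪ aux :=
    Finset.mem_union_left _ (hmin (mem_minSet_self p F.disc_ne F.mem_p))
  obtain ⟨-, φ, hφ, -⟩ := exists_act_dropped (χ := χ) (hMN := hMN)
    (hl := prime_famPrime (W := W) (p := p) (aux := E)) (a := a') (ht.isCond S T) Dat hne hsq hex hN' hS hpS F.ne_two
    F.mem_p F.absIrr b (excSet W p E) (fun ℓ hℓ _ hℓS hℓb => ⟨⟨ℓ, hℓ, hℓb⟩, rfl, by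
      rw [hb ℓ fun h => hℓb (Finset.mem_union_left _ h), ha' ⟨ℓ, hℓ, hℓb⟩ hℓS]⟩)
    (fun ℓ hℓ _ hℓS _ A hA σ hσ =>
      hb' ℓ hℓ (fun h => hℓS (Finset.mem_union_left _ (hmin h))) A hA σ hσ)
    fun H => problem_maxDatum F hS hmin hT H (hmax b hS hpS hpN hp2 H)
  exact ⟨φ, hφ⟩

/-- **The residual representation satisfies the condition at `p`** of the maximal data of a level
with a non-zero part. -/
theorem resid_of_lowMax {loc : PCond} (ht : IsLocalType 𝒪 p loc) {N : ℕ} [NeZero N]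
    (hmax : LowMax F loc N) (hsqN : Squarefree N)
    (hpart : cohPart trivChar (one_dvd N)
      (prime_famPrime (W := W) (p := p) (aux := lowAux aux N)) (famCoeff 𝒪) ≠ ⊥) :
    loc (GaloisRepAdic.ofResidualGaloisRep F.rb) := by
  classical
  have := isAddTorsionFree_of_charZero (O := 𝒪)
  have := moduleFinite_coh (χ := trivChar) 𝒪 𝒪 (one_dvd N)
  have := moduleFree_coh (χ := trivChar) (O := 𝒪) (one_dvd N)
  set l := famPrime (W := W) (p := p) (aux := lowAux aux N)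
  set P := cohPart trivChar (one_dvd N) (prime_famPrime (W := W) (p := p) (aux := lowAux aux N))
    (famCoeff 𝒪) with hP
  have : IsNoetherian 𝒪 (Coh N trivChar 𝒪) := isNoetherian_of_isNoetherianRing_of_finite 𝒪 _
  have : Module.Finite 𝒪 P := Module.IsNoetherian.finite 𝒪 _
  have : Module.Free 𝒪 P := Module.Free.of_basis
    (Submodule.basisOfPid (Module.Free.chooseBasis 𝒪 (Coh N trivChar 𝒪)) P).2
  have : Nontrivial P := Submodule.nontrivial_iff_ne_bot.mpr hpart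
  obtain ⟨Θ, hΘ⟩ := exists_theta (χ := trivChar) (one_dvd N) prime_famPrime (famCoeff 𝒪)
    (nonEisLow F N) squarefree_one (fun r hr h => absurd (Nat.dvd_one.mp h) hr.ne_one)
    (mul_one N).symm
  obtain ⟨b, hb, hb'⟩ := exists_resCoeff F
  set S := ramSet F N
  have hmin : F.minS ⊆ S := Finset.subset_union_left
  have hS : ∀ r : ℕ, r.Prime → r ∣ N → r ∈ S ∪ aux := fun r hr hd =>
    mem_ramSet_union_aux F (NeZero.ne N) hr hd
  have hpS : p ∈ S ∪ aux := Finset.mem_union_left _ (hmin (mem_minSet_self p F.disc_ne F.mem_p))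
  obtain ⟨Mm⟩ := matModel_of_specializations specializationsExist N p (S ∪ aux) hS
  have hres : ∀ ℓ : ℕ, ℓ.Prime → ¬ ℓ ∣ N → ℓ ∉ S ∪ aux → ℓ ≠ p →
      ∀ A : ValuationSubring (AlgebraicClosure ℚ), A.LiesOverPrime ℓ →
        ∀ σ : Γℚ, A.IsFrobeniusAt σ ℓ →
          LinearMap.trace (ResidueField 𝒪) _ (F.rb.ρ σ) = residue 𝒪 (b ℓ) :=
    fun ℓ hℓ _ hℓS _ A hA σ hσ =>
      hb' ℓ hℓ (fun h => hℓS (Finset.mem_union_left _ (hmin h))) A hA σ hσ
  let Θ' := Θ.comp (restrictAway hS)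
  have hnil₁ : ∀ (ℓ : ℕ) (hℓ : ℓ.Prime) (hℓN : ¬ ℓ ∣ N) (hℓS : ℓ ∉ (↑(S ∪ aux) : Set ℕ)),
      ℓ ∉ excSet W p (lowAux aux N) →
      IsTopNilpotent (Θ' (CuspForm.heckeAlgebra.T hℓ hℓN hℓS) -
        algebraMap 𝒪 (Module.End 𝒪 P) (b ℓ)) := by
    intro ℓ hℓ hℓN hℓS hℓb
    rw [hb ℓ fun h => hℓb (Finset.mem_union_left _ h)]
    exact isTopNilpotent_part (X := fun i => opP 𝒪 𝒪 trivChar (one_dvd N) (prime_famPrime i))
      (fun i j => opP_comm (χ := trivChar) 𝒪 𝒪 (one_dvd N) _ _) (famCoeff 𝒪)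
      (i := (⟨ℓ, hℓ, hℓb⟩ : Fam W p (lowAux aux N))) (fun v => hΘ _ hℓ hℓN v)
  have hnil : ∀ (ℓ : ℕ) (hℓ : ℓ.Prime) (hℓN : ¬ ℓ ∣ N) (hℓS : ℓ ∉ (↑(S ∪ aux) : Set ℕ)),
      IsTopNilpotent (Θ' (CuspForm.heckeAlgebra.T hℓ hℓN hℓS) -
        algebraMap 𝒪 (Module.End 𝒪 P) (b ℓ)) := by
    intro ℓ hℓ hℓN hℓS
    obtain ⟨A, σ, hA, hσ⟩ := Frobenius.exists_liesOverPrime_isFrobeniusAt hℓ
    exact isTopNilpotent_of_dropped Θ' Mm frobeniusDense F.mem_p b _ hnil₁ F.rb
      (fun m hm hmN hmS hmp B hB τ hτ => hres m hm hmN (by simpa using hmS) hmp B hB τ hτ) hℓ hℓN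
      hℓS (fun h => hℓS (by rw [h]; exact Finset.mem_coe.mpr hpS)) A hA σ hσ
  have := isLocalRing_heckeImage Θ' hS b hnil
  obtain ⟨H⟩ := exists_maxDatum Mm frobeniusDense hS hpS F.ne_two F.mem_p b F.rb F.absIrr ∅
    (fun ℓ h1 h2 h3 _ h5 => hres ℓ h1 h2 h3 h5) (heckeImage Θ') (toImage Θ')
    fun ℓ hℓ hℓN hℓS => mem_of_isTopNilpotent (heckeImage Θ').val Subtype.val_injective
      (by rw [map_sub, AlgHom.commutes]; exact hnil ℓ hℓ hℓN hℓS) _
  have hsq : ∀ r : ℕ, r.Prime → ¬ r ^ 2 ∣ N := fun r hr h =>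
    hr.not_isUnit (hsqN r (by rwa [← pow_two]))
  have hD := problem_maxDatum (loc := loc) F hS hmin (T := ∅) (fun l hl => absurd hl (Finset.notMem_empty l)) H
    (hmax b hS hpS Iff.rfl (hsq p Fact.out) H)
  have hA : IsCoeff 𝒪 H.T := ⟨inferInstance, H.H.residue_surjective⟩
  obtain ⟨Nm, hNm, hlift, he⟩ := exists_isLift_of_residual_isEquiv hA H.H.ρ
    (ι := ResidueField.map (algebraMap 𝒪 H.T)) (fun r => rfl) H.residual
  exact (cond_ofResidual (ht.isCond S ∅) hA hNm hlift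
    (cond_of_isEquiv (ht.isCond S ∅) hA he hD)).1.2.1

/-- **Deformation rings for lowering exist.** -/
theorem nonempty_lowData {loc : PCond} (ht : IsLocalType 𝒪 p loc)
    (hres : loc (GaloisRepAdic.ofResidualGaloisRep F.rb)) {S : Finset ℕ} (hS : F.minS ⊆ S)
    (T : Finset ℕ) : Nonempty (LowData F loc S T) :=
  nonempty_data F.disc_ne F.mem_p F.semistable F.ne_two F.irr ht hres S T hS

end FLTAgent.RT.Lower
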