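import Fermat.Agent.RT.Coh.Untwist

/-!
# Untwisting away from one prime

By twisting away the character at all primes but `q`, homomorphisms on `gammaH N χ` embed in
homomorphisms on a group with a character modulo `q`, compatibly with the `T ℓ` and the diamonds.
-/

set_option autoImplicit false
set_option linter.unusedSectionVars false

noncomputable section

namespace FLTAgent.RT

open LevelRaise CongruenceSubgroup
open scoped MatrixGroups

variable {D : Type*} [CommGroup D] [Fact (Odd (Nat.card D))] {R : Type*} [CommRing R] {A : Type*}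
  [AddCommGroup A] [Module R A]

section Commute

variable {r M₂ L : ℕ} [NeZero (L * r)] [NeZero (L * r ^ 2)] {ψ : (ZMod r)ˣ →* D}
  {χ' : (ZMod M₂)ˣ →* D}

/-- The twist commutes with the diamond of an element whose diagonal is scalar modulo `r`. -/
theorem twMap_diamondAt (h : TwistHyp r M₂ L) (e : ℤ) (g₂ : Gamma0 (L * r ^ 2))
    (g : Gamma0 (L * r)) (hg : (g : SL(2, ℤ)) = g₂)
    (had : (r : ℤ) ∣ matSL (g₂ : SL(2, ℤ)) 1 1 - matSL (g₂ : SL(2, ℤ)) 0 0)
    (φ : Coh (L * r) (prodChar ψ χ') A) :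
    twMap R h ψ χ' e (diamondAt R A (prodChar ψ χ') h.dvd_level g φ) =
      diamondAt R A χ' h.dvd_level' g₂ (twMap R h ψ χ' e φ) := by
  have := neZero_q (q := r) (L := L)
  obtain ⟨t, ht⟩ := mem_gamma0_iff.mp g₂.2
  push_cast at ht
  obtain ⟨w, hw⟩ := had
  let x : (ZMod r)ˣ → ℤ := fun u => twArg e u
  let Y : (ZMod r)ˣ → Matrix (Fin 2) (Fin 2) ℤ := fun u =>
    !![matSL (g₂ : SL(2, ℤ)) 0 0 + x u * ((L : ℤ) * r * t),
      matSL (g₂ : SL(2, ℤ)) 0 1 + (x u * w - x u * x u * ((L : ℤ) * t));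
      matSL (g₂ : SL(2, ℤ)) 1 0, matSL (g₂ : SL(2, ℤ)) 1 1 - x u * ((L : ℤ) * r * t)]
  have hmove : ∀ u, twShift r (x u) * matSL (g₂ : SL(2, ℤ)) = Y u * twShift r (x u) := fun u => by
    ext i j
    fin_cases i <;> fin_cases j <;> simp [twShift, Y, Matrix.mul_apply, Fin.sum_univ_two, ht]
    · ring
    · linear_combination x u * hw
    · ring
    · ring
  have hdetY : ∀ u, (Y u).det = 1 := fun u => by
    have := congrArg Matrix.det (hmove u)
    rw [Matrix.det_mul, Matrix.det_mul, det_twShift, (g₂ : SL(2, ℤ)).det_coe, mul_one] at this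
    exact (mul_eq_right₀ (mul_ne_zero (Nat.cast_ne_zero.mpr h.prime.ne_zero)
      (Nat.cast_ne_zero.mpr h.prime.ne_zero))).mp this.symm
  let Y₀ : (ZMod r)ˣ → Gamma0 (L * r) := fun u => ⟨⟨Y u, hdetY u⟩, mem_gamma0_iff.mpr
    ⟨(r : ℤ) * t, by show Y u 1 0 = _; simp [Y, ht]; ring⟩⟩
  have hd : ∀ u, dUnit h.dvd_level (Y₀ u) = dUnit h.dvd_level g := fun u => Units.ext <| by
    rw [coe_dUnit, coe_dUnit, hg]
    show ((Y u 1 1 : ℤ) : ZMod (r * M₂)) = _
    have h0 : (((L : ℤ) * r : ℤ) : ZMod (r * M₂)) = 0 :=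
      (ZMod.intCast_zmod_eq_zero_iff_dvd _ _).mpr (by
        exact_mod_cast Int.natCast_dvd_natCast.mpr h.dvd_level)
    push_cast at h0
    simp [Y, h0]
  let ε : Unit × (ZMod r)ˣ → gammaH (L * r) (prodChar ψ χ') := fun p =>
    ⟨((twGamma h ψ p.2 * Y₀ p.2 * (twGamma h ψ p.2)⁻¹ * g⁻¹ : Gamma0 (L * r)) : SL(2, ℤ)), by
      rw [mem_gammaH_iff_dUnit h.dvd_level]
      simp only [map_mul, map_inv, hd, mul_inv_cancel_comm, mul_inv_cancel, map_one]⟩
  refine (famTransfer_comm (isFam_gamma0 h.dvd_level g) (isFam_tw h e) (isFam_tw h e)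
    (isFam_gamma0 h.dvd_level' g₂) (Equiv.prodComm Unit (ZMod r)ˣ) ε (fun p => ?_) φ).symm
  show twFam h ψ e p.2 * matSL (g₂ : SL(2, ℤ)) =
    matSL ((twGamma h ψ p.2 * Y₀ p.2 * (twGamma h ψ p.2)⁻¹ * g⁻¹ : Gamma0 (L * r)) : SL(2, ℤ)) *
      (matSL (g : SL(2, ℤ)) * twFam h ψ e p.2)
  simp only [twFam, Subgroup.coe_mul, Subgroup.coe_inv, matSL_mul, Matrix.mul_assoc,
    matSL_inv_mul_cancel]
  exact congrArg (matSL (twGamma h ψ p.2 : SL(2, ℤ)) * ·) (hmove p.2)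

end Commute

theorem exists_unit_split {a b : ℕ} (h : a.Coprime b) (v : (ZMod a)ˣ) (w : (ZMod b)ˣ) :
    ∃ U : (ZMod (a * b))ˣ, ZMod.unitsMap (dvd_mul_right a b) U = v ∧
      ZMod.unitsMap (dvd_mul_left b a) U = w := by
  let e : (ZMod (a * b))ˣ ≃* (ZMod a)ˣ × (ZMod b)ˣ :=
    (Units.mapEquiv (ZMod.chineseRemainder h).toMulEquiv).trans MulEquiv.prodUnits
  have he : ∀ U, e U = (ZMod.unitsMap (dvd_mul_right a b) U, ZMod.unitsMap (dvd_mul_left b a) U) :=
    fun U => by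
      refine Prod.ext (Units.ext ?_) (Units.ext ?_)
      · rw [ZMod.unitsMap_val]; exact Prod.fst_zmod_cast _
      · rw [ZMod.unitsMap_val]; exact Prod.snd_zmod_cast _
  have h2 := (he (e.symm (v, w))).symm.trans (e.apply_symm_apply (v, w))
  exact ⟨e.symm (v, w), congrArg Prod.fst h2, congrArg Prod.snd h2⟩

variable (R) [IsAddTorsionFree A]

/-- A homomorphism on `gammaH N χ` is determined by a family of homomorphisms with a character
modulo `q`, compatibly with the `T ℓ`, the diamonds and vanishing on parabolic and elliptic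
elements. -/
theorem exists_untwistKeep {q : ℕ} : ∀ M₂ : ℕ, Squarefree (q * M₂) → ∀ (M : ℕ), M = q * M₂ →
    ∀ (N N' : ℕ) [NeZero N] [NeZero N'], N' = N * M₂ →
    ∀ (χ : (ZMod M)ˣ →* D) (hMN : M ∣ N), (∀ r : ℕ, r.Prime → r ∣ M₂ → ¬ r ^ 2 ∣ N) →
      ∃ (ι : Type) (ψ : (ZMod (q * 1))ˣ →* D) (hqN' : q * 1 ∣ N')
        (J : Coh N χ A →ₗ[R] (ι → Coh N' ψ A)),
        Function.Injective J ∧
        (∀ φ, KillsEllPar φ → ∀ i, KillsEllPar (J φ i)) ∧
        (∀ (ℓ : ℕ) (hℓ : ℓ.Prime) (hℓN : ¬ ℓ ∣ N) (hℓN' : ¬ ℓ ∣ N') (φ : Coh N χ A) (i : ι),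
          J (opT R A χ hMN hℓ hℓN φ) i = opT R A ψ hqN' hℓ hℓN' (J φ i)) ∧
        (∀ g' : Gamma0 N', ∃ g : Gamma0 N, χ (dUnit hMN g) = ψ (dUnit hqN' g') ∧
          ∀ φ i, J (diamondAt R A χ hMN g φ) i = diamondAt R A ψ hqN' g' (J φ i)) ∧
        ∀ (U : (ZMod M)ˣ) (V : (ZMod (q * 1))ˣ) (z : ℤ), ((U : ZMod M) = z) →
          ((V : ZMod (q * 1)) = z) → (z : ZMod M₂) = 1 → χ U = ψ V := by
  intro M₂
  induction M₂ using Nat.strong_induction_on with
  | _ M₂ ih =>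
  intro hsq M hM N N' _ _ hN' χ hMN hprime
  by_cases h1 : M₂ = 1
  · subst h1
    subst hM
    rw [mul_one] at hN'
    subst hN'
    exact ⟨Unit, χ, hMN, LinearMap.pi fun _ => LinearMap.id,
      fun φ φ' e => congrFun e (), fun φ hφ _ => hφ, fun _ _ _ _ _ _ => rfl,
      fun g' => ⟨g', rfl, fun _ _ => rfl⟩,
      fun U V z hU hV _ => by rw [show U = V from Units.ext (hU.trans hV.symm)]⟩
  obtain ⟨r, hr, M₃, rfl⟩ : ∃ r : ℕ, r.Prime ∧ ∃ M₃, M₂ = r * M₃ :=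
    ⟨M₂.minFac, Nat.minFac_prime h1, M₂.minFac_dvd⟩
  have hM' : M = r * (q * M₃) := by rw [hM]; ring
  subst hM'
  obtain ⟨L, rfl⟩ : ∃ L, N = L * r := ⟨N / r, (Nat.div_mul_cancel
    ((dvd_mul_right r (q * M₃)).trans hMN)).symm⟩
  have hrL : ¬ r ∣ L := fun hd => hprime r hr (dvd_mul_right r M₃)
    (by rw [pow_two]; exact mul_dvd_mul_right hd r)
  have hsq' : Squarefree (r * (q * M₃)) := by rwa [mul_left_comm] at hsq
  have hcop : r.Coprime (q * M₃) := Nat.coprime_of_squarefree_mul hsq'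
  have h : TwistHyp r (q * M₃) L :=
    ⟨hr, hrL, hcop.symm.dvd_of_dvd_mul_right ((dvd_mul_left _ r).trans hMN)⟩
  have hrne : NeZero r := ⟨hr.ne_zero⟩
  have : NeZero (L * r ^ 2) := ⟨by
    rw [pow_two, ← mul_assoc]; exact mul_ne_zero (NeZero.ne (L * r)) hr.ne_zero⟩
  have hlt : M₃ < r * M₃ :=
    lt_mul_of_one_lt_left (Nat.pos_of_ne_zero fun e => hsq.ne_zero (by simp [e])) hr.one_lt
  obtain ⟨ψr, χ', rfl⟩ := exists_eq_prodChar hcop χ
  obtain ⟨ι, ψ, hqN', J, hJinj, hJpar, hJT, hJd, hJv⟩ := ih M₃ hlt hsq'.of_mul_right (q * M₃) rfl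
    (L * r ^ 2) N' (by rw [hN']; ring) χ' h.dvd_level' (fun s hs hsM hd => by
      have hsr : ¬ s ∣ r := fun hd' =>
        hr.ne_one (Nat.dvd_one.mp (hcop ▸ Nat.dvd_gcd dvd_rfl
          (((Nat.prime_dvd_prime_iff_eq hs hr).mp hd') ▸ hsM.trans (dvd_mul_left M₃ q))))
      have hs2 : s ^ 2 ∣ L :=
        (Nat.Coprime.pow 2 2 ((hs.coprime_iff_not_dvd).mpr hsr)).dvd_of_dvd_mul_right hd
      exact hprime s hs (hsM.trans (dvd_mul_left M₃ r)) (hs2.trans (dvd_mul_right L r)))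
  let W : Option (ZMod r)ˣ → Coh (L * r) (prodChar ψr χ') A →ₗ[R] Coh (L * r ^ 2) χ' A
    | none => twMap R h ψr χ' 0
    | some t => (twMap R h ψr χ' 1).comp
        (diamondAt R A (prodChar ψr χ') h.dvd_level (twGamma h ψr t)⁻¹)
  refine ⟨Option (ZMod r)ˣ × ι, ψ, hqN', LinearMap.pi fun x =>
    (LinearMap.proj x.2).comp (J.comp (W x.1)), ?_, ?_, ?_, ?_, ?_⟩
  · refine LinearMap.ker_eq_bot.mp (LinearMap.ker_eq_bot'.mpr fun φ hφ => ?_)
    have hW : ∀ o, W o φ = 0 := fun o => hJinj (by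
      rw [map_zero]; exact funext fun i => congrFun hφ (o, i))
    exact eq_zero_of_twMap h φ (hW none) fun t => hW (some t)
  · rintro φ hφ ⟨o, i⟩
    refine hJpar _ ?_ i
    rcases o with _ | t
    · exact killsEllPar_famTransfer (isFam_tw h 0) hφ
    · exact killsEllPar_famTransfer (isFam_tw h 1)
        (killsEllPar_famTransfer (isFam_gamma0 h.dvd_level (twGamma h ψr t)⁻¹) hφ)
  · rintro ℓ hℓ hℓN hℓN' φ ⟨o, i⟩
    have hℓL : ¬ ℓ ∣ L * r ^ 2 := fun hd => by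
      refine hℓN ?_
      rcases hℓ.dvd_mul.mp hd with h2 | h2
      · exact h2.trans (dvd_mul_right L r)
      · exact (hℓ.dvd_of_dvd_pow h2).trans (dvd_mul_left r L)
    have hW : W o (opT R A (prodChar ψr χ') hMN hℓ hℓN φ) =
        opT R A χ' h.dvd_level' hℓ hℓL (W o φ) := by
      rcases o with _ | t
      · exact (twMap_opT h 0 hℓ hℓL φ).symm
      · have : NeZero ℓ := ⟨hℓ.ne_zero⟩
        show twMap R h ψr χ' 1 (diamondAt R A (prodChar ψr χ') h.dvd_level (twGamma h ψr t)⁻¹ _) = _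
        rw [show diamondAt R A (prodChar ψr χ') h.dvd_level (twGamma h ψr t)⁻¹
            (opT R A (prodChar ψr χ') hMN hℓ hℓN φ) = opT R A (prodChar ψr χ') h.dvd_level hℓ hℓN
              (diamondAt R A (prodChar ψr χ') h.dvd_level (twGamma h ψr t)⁻¹ φ) from
          ((opFam_T h.dvd_level hℓ hℓN).comm_diamondAt hℓ h.dvd_level _ φ).symm]
        exact (twMap_opT h 1 hℓ hℓL _).symm
    show J (W o _) i = opT R A ψ _ hℓ hℓN' (J (W o φ) i)
    rw [hW, hJT ℓ hℓ hℓL hℓN']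
  · intro g'
    obtain ⟨g₁, hg₁, hg₁J⟩ := hJd g'
    have hdvd : r * (q * M₃) ∣ L * r ^ 2 :=
      h.dvd_level.trans (mul_dvd_mul_left L (dvd_pow_self r two_ne_zero))
    obtain ⟨U, hU1, hU2⟩ := exists_unit_split hcop 1 (dUnit h.dvd_level' g₁)
    obtain ⟨g₂, hg₂d, hg₂a⟩ := exists_gamma0_of_unit hdvd U
    let g : Gamma0 (L * r) := ⟨g₂, by
      obtain ⟨c, hc⟩ := mem_gamma0_iff.mp g₂.2
      exact mem_gamma0_iff.mpr ⟨(r : ℤ) * c, by rw [hc]; push_cast; ring⟩⟩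
    have hgU : dUnit h.dvd_level g = U := Units.ext (by rw [coe_dUnit]; exact hg₂d)
    have hg₂₁ : dUnit h.dvd_level' g₂ = dUnit h.dvd_level' g₁ := by
      rw [← hU2]
      exact Units.ext (by rw [coe_dUnit, coe_unitsMap_eq _ hg₂d.symm])
    have hchar : prodChar ψr χ' (dUnit h.dvd_level g) = χ' (dUnit h.dvd_level' g₁) := by
      rw [hgU, prodChar_apply, hU1, hU2, map_one, one_mul]
    have had : (r : ℤ) ∣ matSL (g₂ : SL(2, ℤ)) 1 1 - matSL (g₂ : SL(2, ℤ)) 0 0 := by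
      rw [← ZMod.intCast_zmod_eq_zero_iff_dvd, Int.cast_sub,
        ← coe_unitsMap_eq (dvd_mul_right r (q * M₃)) hg₂d.symm,
        ← coe_unitsMap_eq (dvd_mul_right r (q * M₃)) hg₂a.symm, map_inv, hU1, inv_one, sub_self]
    refine ⟨g, hchar.trans hg₁, ?_⟩
    rintro φ ⟨o, i⟩
    have hW : W o (diamondAt R A (prodChar ψr χ') hMN g φ) =
        diamondAt R A χ' h.dvd_level' g₁ (W o φ) := by
      rw [← diamondAt_eq (R := R) (A := A) (χ := χ') h.dvd_level' (g := g₂) (g' := g₁) (by rw [hg₂₁])]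
      rcases o with _ | t
      · exact twMap_diamondAt h 0 g₂ g rfl had φ
      · show twMap R h ψr χ' 1 (diamondAt R A (prodChar ψr χ') h.dvd_level (twGamma h ψr t)⁻¹
          (diamondAt R A (prodChar ψr χ') h.dvd_level g φ)) = _
        rw [← Module.End.mul_apply, ← diamondAt_mul, diamondAt_eq h.dvd_level
          (g' := (twGamma h ψr t)⁻¹ * g) (by rw [map_mul, map_mul, mul_comm, ← map_mul, ← map_mul]),
          diamondAt_mul, Module.End.mul_apply]
        exact twMap_diamondAt h 1 g₂ g rfl had _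
    show J (W o _) i = diamondAt R A ψ hqN' g' (J (W o φ) i)
    rw [hW, hg₁J]
  · intro U V z hU hV hz
    have hcast : ∀ {d : ℕ}, d ∣ r * M₃ → (z : ZMod d) = 1 := fun {d} hd => by
      rw [← map_intCast (ZMod.castHom hd (ZMod d)) z, hz, map_one]
    have hU' : ((ZMod.unitsMap (dvd_mul_left (q * M₃) r) U : (ZMod (q * M₃))ˣ) : ZMod (q * M₃))
        = z := coe_unitsMap_eq _ hU
    rw [prodChar_apply, show ZMod.unitsMap (dvd_mul_right r (q * M₃)) U = 1 from Units.ext (by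
      rw [coe_unitsMap_eq _ hU, Units.val_one]; exact hcast (dvd_mul_right r M₃)), map_one, one_mul]
    exact hJv _ V z hU' hV (hcast (dvd_mul_left M₃ r))

end FLTAgent.RT
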