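import Fermat.Agent.RT.Lower.Eigen
import Fermat.Agent.RT.Lower.Untwist
import Mathlib.RingTheory.IntegralDomain

/-!
# Non-unipotence from an eigen class with a nontrivial diamond at `q`
-/

set_option autoImplicit false
set_option linter.unusedSectionVars false

noncomputable section

namespace FLTAgent.RT.Lower

open LevelRaise CongruenceSubgroup Polynomial
open scoped MatrixGroups

local notation "Qbar" => AlgebraicClosure ℚ
local notation "Γℚ" => AlgebraicClosure ℚ ≃ₐ[ℚ] AlgebraicClosure ℚ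

variable {D : Type*} [CommGroup D] [Fact (Odd (Nat.card D))]

/-- The chosen square roots of the values of a character form a character. -/
theorem twRoot_mul {q : ℕ} (ψ : (ZMod q)ˣ →* D) (u v : (ZMod q)ˣ) :
    ψ (twRoot ψ (u * v)) = ψ (twRoot ψ u) * ψ (twRoot ψ v) := by
  have h := twRoot_spec (ψ := ψ) (u * v)
  rw [map_mul, ← twRoot_spec (ψ := ψ) u, ← twRoot_spec (ψ := ψ) v, mul_mul_mul_comm] at h
  refine eq_of_div_eq_one (eq_one_of_sq_eq_one ?_)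
  rw [div_mul_div_comm, h, div_self']

theorem twRoot_sq {q : ℕ} (ψ : (ZMod q)ˣ →* D) (v : (ZMod q)ˣ) :
    ψ (twRoot ψ (v * v)) = ψ v := by
  have h := twRoot_spec (ψ := ψ) (v * v)
  rw [map_mul] at h
  refine eq_of_div_eq_one (eq_one_of_sq_eq_one ?_)
  rw [div_mul_div_comm, h, div_self']

/-- **Non-unipotence from a nontrivial diamond at `q`.** -/
theorem not_isUnipotentOnInertiaAt_of_diamond (hspec : GalRep.SpecializationsExist)
    (hgeom : LevelSq.GeometrySq) {p q M₂ M N : ℕ} [Fact p.Prime] [NeZero N] (hq : q.Prime)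
    (hM : M = q * M₂) (hsq : Squarefree M) (hqp : q ≠ p) {χ : (ZMod M)ˣ →* D} (hMN : M ∣ N)
    (hexact : ∀ r : ℕ, r.Prime → r ∣ M → ¬ r ^ 2 ∣ N)
    {R : Type} [CommRing R] [IsDomain R] [IsDiscreteValuationRing R]
    [IsAdicComplete (IsLocalRing.maximalIdeal R) R] [CharZero R]
    (hpR : (p : R) ∈ IsLocalRing.maximalIdeal R) {S : Finset ℕ}
    (hS : ∀ r : ℕ, r.Prime → r ∣ N → r ∈ S) (a : ℕ → R) (ρ : GaloisRepAdic R)
    (hρ : ∀ ℓ : ℕ, ℓ.Prime → ℓ ∉ S →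
      ∀ A : ValuationSubring Qbar, A.LiesOverPrime ℓ → ∀ σ : Γℚ, A.IsFrobeniusAt σ ℓ →
        LinearMap.charpoly (ρ.ρ σ) = X ^ 2 - C (a ℓ) * X + C ((ℓ : R)))
    {φ : Coh N χ R} (hφ0 : φ ≠ 0) (hkill : KillsEllPar φ)
    (heig : ∀ (ℓ : ℕ) (hℓ : ℓ.Prime) (hℓN : ¬ ℓ ∣ N), ℓ ∉ S →
      opT R R χ hMN hℓ hℓN φ = a ℓ • φ)
    (κ : D →* R) (hdia : ∀ g : Gamma0 N, diamondAt R R χ hMN g φ = κ (χ (dUnit hMN g)) • φ)
    (U : (ZMod M)ˣ) (hU : ZMod.unitsMap (hM ▸ dvd_mul_left M₂ q) U = 1) (hκ : κ (χ U) ≠ 1) :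
    ¬ ρ.IsUnipotentOnInertiaAt q := by
  subst hM
  have : Fact q.Prime := ⟨hq⟩
  have : NeZero q := ⟨hq.ne_zero⟩
  have hM₂ : M₂ ≠ 0 := fun e => hsq.ne_zero (by simp [e])
  have hNZ : NeZero (N * M₂) := ⟨mul_ne_zero (NeZero.ne N) hM₂⟩
  obtain ⟨ι, ψ₁, hqN', J, hJinj, hJpar, hJT, hJd, hJv⟩ := exists_untwistKeep R (A := R) M₂ hsq
    (q * M₂) rfl N (N * M₂) rfl χ hMN fun r hr hd => hexact r hr (hd.trans (dvd_mul_left M₂ q))
  obtain ⟨i, hi⟩ : ∃ i, J φ i ≠ 0 := by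
    by_contra hcon
    push Not at hcon
    exact hφ0 (hJinj (by rw [map_zero]; exact funext hcon))
  -- the values of the character at `q`
  obtain ⟨ψ, χ₁, rfl⟩ := exists_eq_prodChar (Nat.coprime_one_right q) ψ₁
  obtain ⟨L, hL⟩ : ∃ L, N * M₂ = L * q :=
    ⟨N * M₂ / q, (Nat.div_mul_cancel (by simpa using hqN')).symm⟩
  have hqM₂ : q.Coprime M₂ := Nat.coprime_of_squarefree_mul hsq
  have hqL : ¬ q ∣ L := fun hd => hexact q hq (dvd_mul_right q M₂)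
    ((Nat.Coprime.pow_left 2 hqM₂).dvd_of_dvd_mul_right (by
      rw [hL, pow_two]; exact mul_dvd_mul_right hd q))
  have hpr : ∀ r : ℕ, r.Prime → r ∣ N * M₂ → r ∣ N := fun r hr hd =>
    (hr.dvd_mul.mp hd).elim id fun h => (h.trans (dvd_mul_left M₂ q)).trans hMN
  have hNN' : N ∣ N * M₂ := dvd_mul_right N M₂
  generalize N * M₂ = N' at hNZ hL hpr hNN' hqN' J hJinj hJpar hJT hJd hi
  subst hL
  have h : TwistHyp q 1 L := ⟨hq, hqL, one_dvd L⟩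
  set φ₁ := J φ i
  have hdia₁ : ∀ g', diamondAt R R (prodChar ψ χ₁) h.dvd_level g' φ₁ =
      κ (prodChar ψ χ₁ (dUnit h.dvd_level g')) • φ₁ := fun g' => by
    obtain ⟨g, hg, hgJ⟩ := hJd g'
    rw [← hgJ, hdia, map_smul, Pi.smul_apply, hg]
  have : NeZero L := ⟨left_ne_zero_of_mul (NeZero.ne (L * q))⟩
  have : NeZero (L * q ^ 2) := ⟨mul_ne_zero (NeZero.ne L) (pow_ne_zero _ (NeZero.ne q))⟩
  let f : (ZMod q)ˣ →* R :=
    { toFun := fun u => κ (ψ (twRoot ψ u))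
      map_one' := by
        have := twRoot_sq ψ 1
        rw [mul_one] at this
        rw [this, map_one, map_one]
      map_mul' := fun u v => by rw [twRoot_mul, map_mul] }
  have hf : f ≠ 1 := fun h1 => hκ (by
    let V : (ZMod (q * 1))ˣ := ZMod.unitsMap (mul_dvd_mul_left q (one_dvd M₂)) U
    obtain ⟨z, hz⟩ := ZMod.intCast_surjective (U : ZMod (q * M₂))
    have hz₂ : ((z : ℤ) : ZMod M₂) = 1 := by
      rw [← coe_unitsMap_eq (dvd_mul_left M₂ q) hz.symm, hU, Units.val_one]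
    rw [hJv U V z hz.symm (coe_unitsMap_eq _ hz.symm) hz₂, prodChar_apply,
      Subsingleton.elim (ZMod.unitsMap (dvd_mul_left 1 q) V) 1, map_one, mul_one]
    exact (congrArg κ (twRoot_sq ψ _)).symm.trans (DFunLike.congr_fun h1 _))
  have hsum : ∀ c : R,
      ∑ u, diamondAt R R (prodChar ψ χ₁) h.dvd_level (twGamma h ψ u) (c • φ₁) = 0 := fun c => by
    have e : ∀ u, diamondAt R R (prodChar ψ χ₁) h.dvd_level (twGamma h ψ u) (c • φ₁) =
        f u • (c • φ₁) := fun u => by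
      rw [map_smul, hdia₁, prodChar_twGamma, smul_comm]
      rfl
    simp only [e, ← Finset.sum_smul, sum_hom_units_eq_zero f hf, zero_smul]
  -- a nonzero twist
  have hqd : ∀ e : ℤ, twTriv R h e φ₁ = 0 → twMap R h ψ χ₁ e φ₁ = 0 := fun e he => by
    refine AddMonoidHom.ext fun x => ?_
    obtain ⟨γ, rfl⟩ := Additive.ofMul.surjective x
    have hγ : (γ : SL(2, ℤ)) ∈ gammaH (L * q ^ 2) trivChar := ⟨γ.2.1, γ.2.2.toTriv⟩
    have := DFunLike.congr_fun he (Additive.ofMul ⟨(γ : SL(2, ℤ)), hγ⟩)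
    rwa [twTriv_apply] at this
  obtain ⟨e, he, hne⟩ : ∃ e : ℤ, (e = 0 ∨ e = 1) ∧ twTriv R h e φ₁ ≠ 0 := by
    by_contra hcon
    push Not at hcon
    refine hi (eq_zero_of_twMap h φ₁ (hqd 0 (hcon 0 (Or.inl rfl))) fun t => ?_)
    rw [hdia₁, map_smul, hqd 1 (hcon 1 (Or.inr rfl)), smul_zero]
  have hS₁ : ∑ u, diamondAt R R (prodChar ψ χ₁) h.dvd_level (twGamma h ψ u) φ₁ = 0 := by
    simpa using hsum 1
  have hpar : KillsEllPar (twTriv R h e φ₁) :=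
    killsEllPar_famTransfer (isFam_one (gammaH_le_of (dvd_refl _)
      fun _ hX => bal_of_level_one χ₁ hX.2.1))
      (killsEllPar_famTransfer (isFam_tw h e) (hJpar φ hkill i))
  have hprimes : GalRep.levelPrimes (L * q ^ 2) ⊆ (↑S : Set ℕ) := fun r ⟨hr, hd⟩ => by
    refine hS r hr ?_
    rcases hr.dvd_mul.mp hd with hd | hd
    · exact hpr r hr (hd.trans (dvd_mul_right L q))
    · exact (hr.dvd_of_dvd_pow hd).trans ((dvd_mul_right q M₂).trans hMN)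
  refine not_isUnipotentOnInertiaAt_of_killed hspec hgeom hq hqL hqp hpR hprimes a ρ hρ hne hpar
    (fun ℓ hℓ hℓN hℓS => ?_) (famTransfer_lowRep_twTriv h hS₁ he)
    (famTransfer_upRep_twTriv h hS₁ e)
  have hℓN₁ : ¬ ℓ ∣ L * q := fun hd =>
    hℓN (hd.trans (mul_dvd_mul_left L (dvd_pow_self q two_ne_zero)))
  have hℓN₀ : ¬ ℓ ∣ N := fun hd => hℓN₁ (hd.trans hNN')
  have : NeZero ℓ := ⟨hℓ.ne_zero⟩
  have h1 : opT R R (prodChar ψ χ₁) h.dvd_level hℓ hℓN₁ φ₁ = a ℓ • φ₁ := by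
    rw [← hJT ℓ hℓ hℓN₀ hℓN₁ φ i, heig ℓ hℓ hℓN₀ hℓS, map_smul, Pi.smul_apply]
  have h2 : opT R R χ₁ h.dvd_level' hℓ hℓN (twMap R h ψ χ₁ e φ₁) =
      a ℓ • twMap R h ψ χ₁ e φ₁ := by
    rw [twMap_opT h e hℓ hℓN, h1, map_smul]
  have hb : ∀ X, Bal trivChar X → Bal χ₁ X := fun _ hX => bal_of_level_one χ₁ hX.2.1
  show opT R R trivChar _ hℓ hℓN (resC R (dvd_refl _) hb (twMap R h ψ χ₁ e φ₁)) =
    a ℓ • resC R (dvd_refl _) hb (twMap R h ψ χ₁ e φ₁)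
  rw [← map_smul, ← h2]
  exact (opFam_T h.dvd_level' hℓ hℓN).comm_resC (opFam_T (one_dvd _) hℓ hℓN) hℓ (dvd_refl _) hb
    rfl _

end FLTAgent.RT.Lower
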