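import Fermat.Agent.RT.Gen.Inertia
import Fermat.Agent.RT.Main.Stage
import Mathlib.RingTheory.RootsOfUnity.PrimitiveRoots
import Mathlib.FieldTheory.IsAlgClosed.AlgebraicClosure

/-!
# Eigenvalues of a non-unipotent tame inertia

If Frobenius conjugates `s` to `s ^ q`, `det s = 1`, `s` is residually `1` and its trace is not `2`,
then the eigenvalues of `s` are roots of unity of `p`-power order dividing `q - 1`.
-/

set_option autoImplicit false
set_option linter.unusedSectionVars false

noncomputable section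

open IsLocalRing Matrix FLTAgent.Deformation

open scoped Pointwise

namespace FLTAgent.RT.Lower

/-- Powers of a matrix with two eigenvalues. -/
theorem smul_pow_eq_of_sq {K : Type*} [CommRing K] {s : Matrix (Fin 2) (Fin 2) K} {x y : K}
    (h : s * s = (x + y) • s - (x * y) • 1) (n : ℕ) :
    (x - y) • s ^ n = x ^ n • (s - y • 1) - y ^ n • (s - x • 1) := by
  induction n with
  | zero =>
    simp only [pow_zero, one_smul]
    module
  | succ n ih =>
    have hx : (s - y • 1) * s = x • (s - y • 1) := by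
      rw [sub_mul, h, Matrix.smul_mul, one_mul]
      module
    have hy : (s - x • 1) * s = y • (s - x • 1) := by
      rw [sub_mul, h, Matrix.smul_mul, one_mul]
      module
    rw [pow_succ s, ← Matrix.smul_mul, ih, sub_mul, Matrix.smul_mul, Matrix.smul_mul, hx, hy]
    module

theorem one_smul_sub_sub {K : Type*} [CommRing K] (S : Matrix (Fin 2) (Fin 2) K) (x y : K) :
    (1 : K) • (S - y • 1) - (1 : K) • (S - x • 1) = (x - y) • 1 := by
  module

theorem sub_one_smul_eq {K : Type*} [CommRing K] {S : Matrix (Fin 2) (Fin 2) K} {x y a b : K}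
    (h : (x - y) • 1 = a • (S - y • 1) - b • (S - x • 1)) :
    (a - 1) • (S - y • 1) = (b - 1) • (S - x • 1) := by
  simp only [sub_smul, one_smul] at h ⊢
  linear_combination (norm := module) -h

theorem sub_mul_sub_eq {K : Type*} [CommRing K] {S : Matrix (Fin 2) (Fin 2) K} {x y : K}
    (h : S * S = (x + y) • S - (x * y) • 1) :
    (S - x • 1) * (S - y • 1) = 0 ∧ (S - y • 1) * (S - y • 1) = (x - y) • (S - y • 1) := by
  constructor <;>
  · simp only [sub_mul, mul_sub, Matrix.smul_mul, Matrix.mul_smul, one_mul, mul_one]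
    rw [h]
    module

theorem mul_self_eq {K : Type*} [CommRing K] (s : Matrix (Fin 2) (Fin 2) K) :
    s * s = s.trace • s - s.det • 1 := by
  ext i j
  fin_cases i <;> fin_cases j <;>
    simp [Matrix.mul_apply, Fin.sum_univ_two, Matrix.trace_fin_two, Matrix.det_fin_two] <;> ring

section Local

variable {B : Type} [CommRing B] [IsLocalRing B]

/-- A matrix congruent to one with a power prime to the residue characteristic equal to one is
one. -/
theorem eq_one_of_pow_eq_one {X : Matrix (Fin 2) (Fin 2) B}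
    (hX : ∀ i j, (X - 1) i j ∈ maximalIdeal B) {m : ℕ} (hm : IsUnit (m : B)) (h : X ^ m = 1) :
    X = 1 := by
  have h1 : (residue B).mapMatrix X = 1 := by
    rw [← sub_eq_zero, ← map_one (residue B).mapMatrix, ← map_sub]
    ext i j
    exact (residue_eq_zero_iff _).mpr (hX i j)
  set S := ∑ i ∈ Finset.range m, X ^ i
  have hS : IsUnit S := by
    rw [Matrix.isUnit_iff_isUnit_det, ← residue_ne_zero_iff_isUnit, RingHom.map_det,
      map_sum]
    simp only [map_pow, h1, one_pow, Finset.sum_const, Finset.card_range]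
    rw [← Nat.cast_smul_eq_nsmul (ResidueField B), Matrix.det_smul, Matrix.det_one, mul_one]
    refine pow_ne_zero _ ?_
    rw [← map_natCast (residue B), residue_ne_zero_iff_isUnit]
    exact hm
  have h2 : S * (X - 1) = 0 := by rw [geom_sum_mul, h, sub_self]
  exact sub_eq_zero.mp (hS.mul_right_eq_zero.mp h2)

theorem isUnit_natCast_of_not_dvd {p : ℕ} (hp : p.Prime) (hpB : (p : B) ∈ maximalIdeal B) {m : ℕ}
    (hm : ¬ p ∣ m) : IsUnit (m : B) := by
  by_contra h
  obtain ⟨a, b, hab⟩ := ((hp.coprime_iff_not_dvd).mpr hm).isCoprime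
  refine (maximalIdeal.isMaximal B).ne_top ((Ideal.eq_top_iff_one _).mpr ?_)
  have e : ((a : B) * (p : B) + (b : B) * (m : B)) = 1 := by exact_mod_cast (congrArg (Int.cast : ℤ → B) hab).trans Int.cast_one
  rw [← e]
  exact add_mem (Ideal.mul_mem_left _ _ hpB)
    (Ideal.mul_mem_left _ _ ((IsLocalRing.mem_maximalIdeal _).mpr h))

variable [IsDomain B] [CharZero B]

/-- **The trace of a non-unipotent tame inertia.** -/
theorem exists_root_trace {p q k : ℕ} [Fact p.Prime] (hp2 : p ≠ 2) (hpB : (p : B) ∈ maximalIdeal B)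
    (hq : 1 < q) (hq1 : p ∣ q - 1) (hk : padicValNat p (q - 1) ≤ k) {ζ : B}
    (hζ : IsPrimitiveRoot ζ (p ^ k)) {Φ s : Matrix (Fin 2) (Fin 2) B} (hΦ : Φ.det ≠ 0)
    (hcomm : Φ * s = s ^ q * Φ) (hdet : s.det = 1) (hs : ∀ i j, (s - 1) i j ∈ maximalIdeal B)
    (hne : s.trace ≠ 2) :
    ∃ z : B, z ^ p ^ k = 1 ∧ z ≠ 1 ∧ z * (s.trace - z) = 1 := by
  classical
  have hp : p.Prime := Fact.out
  let K := AlgebraicClosure (FractionRing B)
  let g : B →+* K := (algebraMap (FractionRing B) K).comp (algebraMap B (FractionRing B))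
  have hg : Function.Injective g :=
    (algebraMap (FractionRing B) K).injective.comp (IsFractionRing.injective B _)
  have : CharZero K := charZero_of_injective_ringHom hg
  set t := g s.trace with ht
  obtain ⟨x, hx⟩ := IsAlgClosed.exists_root (Polynomial.X ^ 2 - Polynomial.C t * Polynomial.X + 1 : Polynomial K)
    (by
      have : (Polynomial.X ^ 2 - Polynomial.C t * Polynomial.X + 1 : Polynomial K).degree = 2 := by
        compute_degree!
      rw [this]; decide)
  simp only [Polynomial.IsRoot, Polynomial.eval_add, Polynomial.eval_sub, Polynomial.eval_mul,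
    Polynomial.eval_pow, Polynomial.eval_X, Polynomial.eval_C, Polynomial.eval_one] at hx
  set y := t - x with hy
  have hxy : x * y = 1 := by rw [hy]; linear_combination -hx
  set S := g.mapMatrix s with hS
  have hStr : S.trace = t := by
    rw [ht, hS, Matrix.trace_fin_two, Matrix.trace_fin_two, map_add]; rfl
  have hSdet : S.det = 1 := by rw [hS, ← RingHom.map_det, hdet, map_one]
  have hquad : S * S = (x + y) • S - (x * y) • 1 := by
    rw [mul_self_eq, hStr, hSdet, hxy, hy, add_sub_cancel]
  -- residually `t = 2`, and `p` is odd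
  have htne : s.trace ≠ -2 := fun h => by
    have h2 : s.trace - 2 ∈ maximalIdeal B := by
      have := add_mem (hs 0 0) (hs 1 1)
      rw [Matrix.sub_apply, Matrix.sub_apply, Matrix.one_apply_eq, Matrix.one_apply_eq] at this
      rw [Matrix.trace_fin_two]
      convert this using 1
      ring
    rw [h, show (-2 : B) - 2 = -((4 : ℕ) : B) by norm_num] at h2
    exact (IsLocalRing.mem_maximalIdeal _).mp (neg_mem_iff.mp h2)
      (isUnit_natCast_of_not_dvd hp hpB fun h4 => hp2
        ((Nat.prime_dvd_prime_iff_eq hp Nat.prime_two).mp (hp.dvd_of_dvd_pow (n := 2) h4)))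
  have hxne : x ≠ y := fun h => by
    rw [← h] at hxy
    have h4 : (t - 2) * (t + 2) = 0 := by
      rw [show t = x + x by rw [hy] at h; linear_combination -h]; linear_combination 4 * hxy
    rcases mul_eq_zero.mp h4 with h5 | h5
    · exact hne (hg (by rw [← ht, map_ofNat]; exact sub_eq_zero.mp h5))
    · exact htne (hg (by rw [← ht, map_neg, map_ofNat]; linear_combination h5))
  have hpow : ∀ n, (x - y) • S ^ n = x ^ n • (S - y • 1) - y ^ n • (S - x • 1) :=
    smul_pow_eq_of_sq hquad
  -- `s ^ q` is conjugate to `s`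
  have hq' : x ^ q + y ^ q = t := by
    have hΦK : IsUnit (g.mapMatrix Φ).det := by
      rw [← RingHom.map_det]
      exact isUnit_iff_ne_zero.mpr (by rwa [Ne, map_eq_zero_iff g hg])
    obtain ⟨u, hu⟩ := (Matrix.isUnit_iff_isUnit_det _).mpr hΦK
    have hc : (u : Matrix (Fin 2) (Fin 2) K) * S = S ^ q * u := by
      rw [hu, hS, ← map_pow, ← map_mul, ← map_mul, hcomm]
    have h1 : (S ^ q).trace = t := by
      rw [show S ^ q = (u : Matrix (Fin 2) (Fin 2) K) * S * (↑u⁻¹ : Matrix (Fin 2) (Fin 2) K) by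
        rw [hc, mul_assoc, Units.mul_inv, mul_one], Matrix.trace_units_conj, hStr]
    have h2 := congrArg Matrix.trace (hpow q)
    simp only [Matrix.trace_smul, Matrix.trace_sub, Matrix.trace_one, Fintype.card_fin, hStr, h1,
      smul_eq_mul] at h2
    refine mul_left_cancel₀ (sub_ne_zero.mpr hxne) ?_
    rw [hy] at h2 ⊢
    push_cast at h2
    linear_combination -h2
  have hroot : (x ^ q - x) * (x ^ q - y) = 0 := by
    have hq2 : x ^ q * y ^ q = 1 := by rw [← mul_pow, hxy, one_pow]
    have e : x + y = t := by rw [hy]; ring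
    linear_combination (x ^ q) * hq' - hq2 + hxy - (x ^ q) * e
  set n := (q - 1) * (q + 1) with hn
  have hxn : x ^ n = 1 := by
    have hx0 : x ≠ 0 := left_ne_zero_of_mul_eq_one hxy
    rcases mul_eq_zero.mp hroot with h | h
    · have h1 : x ^ (q - 1) = 1 := mul_right_cancel₀ hx0 (by
        rw [← pow_succ, Nat.sub_add_cancel hq.le, one_mul]; exact sub_eq_zero.mp h)
      rw [hn, pow_mul, h1, one_pow]
    · have h1 : x ^ (q + 1) = 1 := by rw [pow_succ, sub_eq_zero.mp h, mul_comm]; exact hxy
      rw [hn, mul_comm, pow_mul, h1, one_pow]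
  have hyn : y ^ n = 1 := by
    have h := congrArg (· ^ n) hxy
    simp only [mul_pow, hxn, one_mul, one_pow] at h
    exact h
  have hsn : s ^ n = 1 := by
    refine Matrix.map_injective hg ?_
    show g.mapMatrix (s ^ n) = g.mapMatrix 1
    rw [map_pow, ← hS, map_one]
    refine smul_right_injective _ (sub_ne_zero.mpr hxne) ?_
    show (x - y) • S ^ n = (x - y) • (1 : Matrix (Fin 2) (Fin 2) K)
    rw [hpow, hxn, hyn]
    exact one_smul_sub_sub S x y
  -- only the `p`-part of `n` matters
  have hspk : s ^ p ^ k = 1 := by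
    have hp1 : ¬ p ∣ q + 1 := fun h => hp2 ((Nat.prime_dvd_prime_iff_eq hp Nat.prime_two).mp (by
      have h3 := Nat.dvd_sub h hq1
      rwa [show q + 1 - (q - 1) = 2 by omega] at h3))
    have hq0 : q - 1 ≠ 0 := by omega
    set a := padicValNat p (q - 1) with ha
    obtain ⟨m, hm⟩ : p ^ a ∣ q - 1 := pow_padicValNat_dvd
    have hpm : ¬ p ∣ m := fun h => pow_succ_padicValNat_not_dvd (p := p) hq0 (by
      rw [← ha, hm, pow_succ]; exact mul_dvd_mul_left _ h)
    have h1 : s ^ p ^ a = 1 := by
      refine eq_one_of_pow_eq_one (fun i j => ?_) (m := m * (q + 1))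
        (isUnit_natCast_of_not_dvd hp hpB fun h => (hp.dvd_mul.mp h).elim hpm hp1) ?_
      · have hres : (residue B).mapMatrix s = 1 := by
          rw [← sub_eq_zero, ← map_one (residue B).mapMatrix, ← map_sub]
          ext a b
          exact (residue_eq_zero_iff _).mpr (hs a b)
        rw [← residue_eq_zero_iff]
        have h' : (residue B).mapMatrix (s ^ p ^ a - 1) = 0 := by
          rw [map_sub, map_pow, hres, one_pow, map_one, sub_self]
        exact congrFun (congrFun h' i) j
      · rw [← pow_mul, ← mul_assoc, ← hm]; exact hsn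
    obtain ⟨c, hc⟩ := Nat.exists_eq_add_of_le hk
    rw [hc, pow_add, pow_mul, h1, one_pow]
  have hxk : x ^ p ^ k = 1 := by
    have h := hpow (p ^ k)
    rw [hS, ← map_pow, hspk, map_one, ← hS] at h
    have h3 := congrArg (fun M : Matrix (Fin 2) (Fin 2) K => M * (S - y • 1)) (sub_one_smul_eq h)
    simp only [Matrix.smul_mul] at h3
    obtain ⟨e0, e1⟩ := sub_mul_sub_eq hquad
    rw [e0, smul_zero, e1, smul_smul] at h3
    have h4 := congrArg Matrix.trace h3
    rw [Matrix.trace_smul, Matrix.trace_sub, Matrix.trace_smul, hStr, Matrix.trace_one,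
      Fintype.card_fin, Matrix.trace_zero, smul_eq_mul, smul_eq_mul,
      show t - y * ((2 : ℕ) : K) = x - y by rw [hy]; push_cast; ring] at h4
    rcases mul_eq_zero.mp h4 with h5 | h5
    · rcases mul_eq_zero.mp h5 with h6 | h6
      · exact sub_eq_zero.mp h6
      · exact absurd (sub_eq_zero.mp h6) hxne
    · exact absurd (sub_eq_zero.mp h5) hxne
  have : NeZero (p ^ k) := ⟨pow_ne_zero _ hp.ne_zero⟩
  obtain ⟨i, -, hi⟩ := (hζ.map_of_injective hg).eq_pow_of_pow_eq_one hxk
  refine ⟨ζ ^ i, by rw [← pow_mul, mul_comm, pow_mul, hζ.pow_eq_one, one_pow], fun h1 => ?_, hg ?_⟩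
  · rw [← map_pow, h1, map_one] at hi
    exact hxne (hi.symm.trans (by rw [← hxy, ← hi, one_mul]))
  · rw [map_mul, map_sub, map_pow, hi, ← ht, map_one]
    exact hxy

/-- Representations with generator of inertia of trace `2` are unipotent on inertia. -/
theorem isUnipotentOnInertiaAt_of_trace_eq_two [IsNoetherianRing B] {q : ℕ} (hq : q.Prime)
    {ρ : GaloisRepAdic B} {M : Gal →* Mat B} {hM : MatCont M} (he : ρ.IsEquiv (matRep M hM))
    {A : ValuationSubring (AlgebraicClosure ℚ)} (hA : A.LiesOverPrime q) {τ : Gal}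
    (hgen : ∀ n, ∀ σ ∈ A.inertiaSubgroupIn ℚ, ∃ j : ℕ,
      Gen.modPow M n σ = Gen.modPow M n τ ^ j)
    (hdet : (M τ).det = 1) (htr : (M τ).trace = 2) : ρ.IsUnipotentOnInertiaAt q := by
  have hsq : (M τ - 1) * (M τ - 1) = 0 := by
    rw [sub_mul, mul_sub, mul_one, one_mul, mul_self_eq, htr, hdet]
    module
  have key : ∀ σ ∈ A.inertiaSubgroupIn ℚ, (M σ).trace = 2 ∧ (M σ).det = 1 := fun σ hσ => by
    have h : ∀ n, (M σ).trace - 2 ∈ maximalIdeal B ^ n ∧ (M σ).det - 1 ∈ maximalIdeal B ^ n := by
      intro n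
      obtain ⟨j, hj⟩ := hgen n σ hσ
      set π := Ideal.Quotient.mk (maximalIdeal B ^ n)
      have e : π.mapMatrix (M σ) = π.mapMatrix (M τ ^ j) := by rw [map_pow]; exact hj
      constructor
      · rw [← Ideal.Quotient.eq]
        have htrj : (M τ ^ j).trace = 2 := by
          rw [show M τ ^ j = (1 + (M τ - 1)) ^ j by rw [add_sub_cancel],
            one_add_pow_of_mul_self_eq_zero hsq, Matrix.trace_add, Matrix.trace_smul,
            Matrix.trace_sub, htr, Matrix.trace_one, Fintype.card_fin, Nat.cast_ofNat, sub_self,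
            smul_zero, add_zero]
        have e2 := congrArg Matrix.trace e
        simp only [Matrix.trace_fin_two, RingHom.mapMatrix_apply, Matrix.map_apply, ← map_add] at e2
        rw [← Matrix.trace_fin_two, ← Matrix.trace_fin_two, htrj] at e2
        exact e2
      · rw [← Ideal.Quotient.eq]
        have e2 := congrArg Matrix.det e
        rw [← RingHom.map_det, ← RingHom.map_det, Matrix.det_pow, hdet, one_pow] at e2
        exact e2
    exact ⟨sub_eq_zero.mp (FLTAgent.Deformation.eq_zero_of_forall_mem_pow (I := maximalIdeal B) fun n => (h n).1),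
      sub_eq_zero.mp (FLTAgent.Deformation.eq_zero_of_forall_mem_pow (I := maximalIdeal B) fun n => (h n).2)⟩
  intro P hP σ hσ
  obtain ⟨g, rfl⟩ := Frobenius.exists_smul_eq hq hA hP
  have hmem : g⁻¹ * σ * g ∈ A.inertiaSubgroupIn ℚ := by
    have := Frobenius.inertiaSubgroupIn_conj hσ g⁻¹
    rwa [inv_smul_smul, inv_inv] at this
  obtain ⟨h1, h2⟩ := key _ hmem
  obtain ⟨E⟩ := he
  have hconj : (matRep M hM).ρ σ = E.toLinearEquiv.conj (ρ.ρ σ) := LinearMap.ext fun x => by
    rw [LinearEquiv.conj_apply_apply, E.map_apply, LinearEquiv.apply_symm_apply]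
  rw [← LinearEquiv.charpoly_conj E.toLinearEquiv, ← hconj]
  show LinearMap.charpoly (Matrix.toLin' (M σ)) = _
  rw [Matrix.charpoly_toLin', Matrix.charpoly_fin_two]
  have e : M σ = M g * M (g⁻¹ * σ * g) * M g⁻¹ := by
    rw [← map_mul, ← map_mul]; group
  have ht : (M σ).trace = 2 := by
    rw [e, Matrix.trace_mul_comm, ← mul_assoc, ← map_mul, inv_mul_cancel, map_one, one_mul, h1]
  have hd : (M σ).det = 1 := by
    rw [e, Matrix.det_mul, Matrix.det_mul, h2, mul_one, ← Matrix.det_mul, ← map_mul,
      mul_inv_cancel, map_one, Matrix.det_one]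
  rw [ht, hd, map_ofNat, map_one]
  ring

end Local

end FLTAgent.RT.Lower
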