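import Fermat.Agent.RT.Lower.ExtendCoh
import Fermat.Agent.RT.Lower.Pipeline
import Fermat.Agent.RT.Lower.Tame
import Fermat.Agent.RT.Sys.Act
import Fermat.Agent.RT.HeckeRep.CohRep
import Fermat.Agent.RT.HeckeRep.GenericPoints
import Fermat.Agent.RT.NewPart.DvrExtension
import Fermat.Agent.RT.Coh.Free
import Fermat.Agent.GalRep.Specializations

/-!
# The diamond at `q` and the trace of inertia

Where the diamond of a unit at `q` is nontrivial, the trace of inertia at `q` is the trace of a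
nontrivial root of unity of order dividing `p ^ k`. On the part this says that the product over
those roots, times the diamond minus one, acts nilpotently.
-/

set_option autoImplicit false
set_option linter.unusedSectionVars false

noncomputable section

open IsLocalRing Matrix FLTAgent.Deformation

namespace FLTAgent.RT.Lower

open LevelRaise

local notation "Qbar" => AlgebraicClosure ℚ
local notation "Γℚ" => AlgebraicClosure ℚ ≃ₐ[ℚ] AlgebraicClosure ℚ

/-- The characteristic polynomial of a representation in matrices. -/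
theorem charpoly_of_isEquiv {A : Type} [CommRing A] [IsLocalRing A] {ρ : GaloisRepAdic A}
    {M : Gal →* Mat A} {hM : MatCont M} (h : ρ.IsEquiv (matRep M hM)) (σ : Gal) :
    LinearMap.charpoly (ρ.ρ σ) =
      Polynomial.X ^ 2 - Polynomial.C (M σ).trace * Polynomial.X + Polynomial.C (M σ).det := by
  obtain ⟨E⟩ := h
  have hconj : (matRep M hM).ρ σ = E.toLinearEquiv.conj (ρ.ρ σ) := LinearMap.ext fun x => by
    rw [LinearEquiv.conj_apply_apply, E.map_apply, LinearEquiv.apply_symm_apply]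
  rw [← LinearEquiv.charpoly_conj E.toLinearEquiv, ← hconj]
  show LinearMap.charpoly (Matrix.toLin' (M σ)) = _
  rw [Matrix.charpoly_toLin', Matrix.charpoly_fin_two]

/-- Two commuting families of operators on a finite free module: an element vanishing at every
common eigenvector over an extension acts nilpotently. -/
theorem isNilpotent_mul_of_forall_eigen {O : Type} [CommRing O] [IsDomain O]
    [IsDiscreteValuationRing O] [IsAdicComplete (maximalIdeal O) O] [Finite (ResidueField O)]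
    [CharZero O] {R : Type} [CommRing R] [Algebra O R] {D : Type} [CommGroup D] {r : ℕ}
    {P₀ : Type} [AddCommGroup P₀] [Module O P₀] (w : Module.Basis (Fin r) O P₀)
    (φ : R →ₐ[O] Module.End O P₀) (δ : D →* Module.End O P₀)
    (hcd : ∀ s ε, Commute (φ s) (δ ε)) (g : D) (z : R)
    (h : ∀ (B : Type) [CommRing B] [IsDomain B] [IsDiscreteValuationRing B]
      [IsAdicComplete (maximalIdeal B) B] [Finite (ResidueField B)] [CharZero B] [Algebra O B]
      [Module.Finite O B] [IsLocalHom (algebraMap O B)] (f : R →ₐ[O] B) (κ : D →* B)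
      (e : Fin r → B), Function.Injective (algebraMap O B) → e ≠ 0 →
      (∀ s, (LinearMap.toMatrixAlgEquiv w (φ s)).map (algebraMap O B) *ᵥ e = f s • e) →
      (∀ ε, (LinearMap.toMatrixAlgEquiv w (δ ε)).map (algebraMap O B) *ᵥ e = κ ε • e) →
        (κ g - 1) * f z = 0) :
    IsNilpotent ((δ g - 1) * φ z) := by
  classical
  have : Module.Finite O P₀ := Module.Finite.of_basis w
  have : Module.Free O P₀ := Module.Free.of_basis w
  let A₀ : Subalgebra O (Module.End O P₀) := Algebra.adjoin O (Set.range φ ∪ Set.range δ)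
  have : IsMulCommutative A₀ := Algebra.isMulCommutative_adjoin O (by
    rintro x (⟨s, rfl⟩ | ⟨ε, rfl⟩) y (⟨t, rfl⟩ | ⟨ε', rfl⟩)
    · exact (Commute.all s t).map φ
    · exact hcd s ε'
    · exact (hcd t ε).symm
    · exact (Commute.all ε ε').map δ)
  let _ : CommRing A₀ := { A₀.toRing with mul_comm := mul_comm' }
  have : Module.Finite O A₀ := Module.Finite.of_injective A₀.val.toLinearMap Subtype.val_injective
  have : Module.IsTorsionFree O A₀ :=
    Function.Injective.moduleIsTorsionFree A₀.val Subtype.val_injective (fun c x => rfl)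
  let φ₁ : R →ₐ[O] A₀ :=
    φ.codRestrict A₀ fun s => Algebra.subset_adjoin (Set.mem_union_left _ ⟨s, rfl⟩)
  let δ₁ : D →* A₀ :=
    δ.codRestrict A₀ fun ε => Algebra.subset_adjoin (Set.mem_union_right _ ⟨ε, rfl⟩)
  suffices h' : IsNilpotent ((δ₁ g - 1) * φ₁ z) by
    obtain ⟨n, hn⟩ := h'
    exact ⟨n, congrArg Subtype.val hn⟩
  refine isNilpotent_of_forall_point (O := O) _ fun ψ => ?_
  have : Module.Finite O ψ.range :=
    Module.Finite.of_surjective ψ.rangeRestrict.toLinearMap ψ.rangeRestrict_surjective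
  have hKinj : Function.Injective (algebraMap O (AlgebraicClosure (FractionRing O))) := by
    rw [IsScalarTower.algebraMap_eq O (FractionRing O) (AlgebraicClosure (FractionRing O))]
    exact (algebraMap (FractionRing O) _).injective.comp (IsFractionRing.injective O _)
  obtain ⟨B, _, _, _, _, _, _, _, _, _, iota, hiota⟩ :=
    NewPart.exists_dvr_extension O ψ.range fun c d h => hKinj (congrArg Subtype.val h)
  let x : A₀ →ₐ[O] B := iota.comp ψ.rangeRestrict
  have hBinj : Function.Injective (algebraMap O B) := fun c c' hc => by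
    rw [← iota.commutes, ← iota.commutes] at hc
    exact hKinj (congrArg Subtype.val (hiota hc))
  let L : A₀ →ₐ[O] Matrix (Fin r) (Fin r) O :=
    (LinearMap.toMatrixAlgEquiv w).toAlgHom.comp A₀.val
  obtain ⟨e, he0, he⟩ := exists_eigen_of_point hBinj L
    ((LinearMap.toMatrixAlgEquiv w).injective.comp Subtype.val_injective) x
  refine congrArg Subtype.val (hiota (?_ : iota (ψ.rangeRestrict _) = iota 0))
  rw [map_zero]
  show x _ = 0
  rw [map_mul, map_sub, map_one]
  exact h B (x.comp φ₁) ((x : A₀ →* B).comp δ₁) e hBinj he0 (fun s => he (φ₁ s))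
    (fun ε => he (δ₁ ε))

/-- Elements acting equally have equal values at a common eigenvector. -/
theorem eq_of_map_eq {O B R : Type} [CommRing O] [CommRing B] [IsDomain B] [Algebra O B]
    [CommRing R] [Algebra O R] {r : ℕ} {P₀ : Type} [AddCommGroup P₀] [Module O P₀]
    {w : Module.Basis (Fin r) O P₀} {φ : R →ₐ[O] Module.End O P₀} (f : R →ₐ[O] B) (e : Fin r → B)
    (he0 : e ≠ 0)
    (hef : ∀ s, (LinearMap.toMatrixAlgEquiv w (φ s)).map (algebraMap O B) *ᵥ e = f s • e)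
    {s t : R} (h : φ s = φ t) : f s = f t :=
  smul_left_injective B he0 (((hef s).symm.trans (by rw [h])).trans (hef t))

variable {𝒪 : Type} [CommRing 𝒪] [IsDomain 𝒪] [IsDiscreteValuationRing 𝒪]
  [IsAdicComplete (maximalIdeal 𝒪) 𝒪] [Finite (ResidueField 𝒪)] [CharZero 𝒪]
  {ρbar : ResidualGaloisRep (ResidueField 𝒪)}
  {𝒟 : ∀ ⦃A : Type⦄ [CommRing A] [IsLocalRing A] [Algebra 𝒪 A], GaloisRepAdic A → Prop}
  {M N d : ℕ} {D : Type} [CommGroup D] [Fintype D] {χ : (ZMod M)ˣ →* D}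
  [Fact (Odd (Nat.card D))] [NeZero N] {hMN : M ∣ N} {hχ : Function.Surjective χ} {ι : Type}
  {l : ι → ℕ} {hl : ∀ i, (l i).Prime} {a : ι → 𝒪}
  {p q M₂ k : ℕ} [Fact p.Prime]

/-- **The diamond at `q` times the trace product is nilpotent.** -/
theorem isNilpotent_dia_mul_traceProd (hgeom : LevelSq.GeometrySq) (hp2 : p ≠ 2)
    (hp : (p : 𝒪) ∈ maximalIdeal 𝒪) (hq : q.Prime) (hqp : q ≠ p) (hq1 : p ∣ q - 1)
    (hk : padicValNat p (q - 1) ≤ k) {ζ : 𝒪} (hζ : IsPrimitiveRoot ζ (p ^ k))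
    {Λ : Finset (𝒪 × 𝒪)}
    (hΛ : ∀ z, z ^ p ^ k = 1 → z ≠ 1 → ∃ x ∈ Λ, x.1 = z ∧ x.1 * x.2 = 1)
    (hM : M = q * M₂) (hsq : Squarefree M)
    (hexact : ∀ r : ℕ, r.Prime → r ∣ M → ¬ r ^ 2 ∣ N) (hne : NonEis l a)
    (h𝒟 : GaloisRep.IsDeformationCondition 𝒪 𝒟)
    (Dat : GaloisRep.DeformationRingData 𝒪 ρbar 𝒟) {S₁ : Finset ℕ}
    (hS1 : ∀ r : ℕ, r.Prime → r ∣ N → r ∈ S₁) (hpS : p ∈ S₁)
    {φ : Dat.R →ₐ[𝒪] Module.End 𝒪 (cohPart χ hMN hl a)} (compat : Sys.IsFrobCompat Dat S₁ φ)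
    {Mr : Gal →* Mat Dat.R} {hMr : MatCont Mr} (hequiv : Dat.ρ.IsEquiv (matRep Mr hMr))
    {A : ValuationSubring Qbar} (hA : A.LiesOverPrime q) {φ₀ : Gal}
    {Dq : LocalDatum 𝒪} (C : Gen.LocalCoord Dq Mr A φ₀) (hDq : Dq.q = q)
    (hdet : (Mr C.τ).det = 1) (hcyc : Dat.ρ.DetIsCyclotomic p)
    (B : Sys.DBasis hMN hχ (cohPart χ hMN hl a) d) (U : (ZMod M)ˣ)
    (hU : ZMod.unitsMap (hM ▸ dvd_mul_left M₂ q) U = 1) :
    IsNilpotent ((B.dia (χ U) - 1) *
      φ (∏ x ∈ Λ, ((Mr C.τ).trace - algebraMap 𝒪 Dat.R (x.1 + x.2)))) := by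
  classical
  have := isAddTorsionFree_of_charZero (O := 𝒪)
  have := moduleFinite_coh (χ := χ) 𝒪 𝒪 hMN
  have := moduleFree_coh (χ := χ) (O := 𝒪) hMN
  have : IsNoetherian 𝒪 (Coh N χ 𝒪) := isNoetherian_of_isNoetherianRing_of_finite 𝒪 _
  have : Module.Finite 𝒪 (cohPart χ hMN hl a) := Module.IsNoetherian.finite 𝒪 _
  obtain ⟨r, w⟩ :=
    Submodule.basisOfPid (Module.Free.chooseBasis 𝒪 (Coh N χ 𝒪)) (cohPart χ hMN hl a)
  have : Module.Free 𝒪 (cohPart χ hMN hl a) := Module.Free.of_basis w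
  -- a common eigenvector
  have hcd : ∀ s δ, Commute (φ s) (B.dia δ) := fun s δ =>
    (Subalgebra.mem_centralizer_iff 𝒪 |>.mp (compat.mem_equivEnd h𝒟 B s) _ ⟨δ, rfl⟩).symm
  refine isNilpotent_mul_of_forall_eigen w φ B.dia hcd (χ U) _
    fun B' _ _ _ _ _ _ _ _ _ f κ e hBinj he0 hef heκ => ?_
  by_cases hκ : κ (χ U) = 1
  · rw [hκ, sub_self, zero_mul]
  have hf : IsLocalHom (f : Dat.R →+* B') := by
    refine ⟨fun s hs => ?_⟩
    by_contra hsu
    obtain ⟨n, hn⟩ := Patch.exists_map_pow_eq_zero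
      ((residue B').comp (f : Dat.R →+* B')) ((IsLocalRing.mem_maximalIdeal s).mpr hsu)
    exact (hs.map (residue B')).ne_zero (eq_zero_of_pow_eq_zero hn)
  have hpB : (p : B') ∈ maximalIdeal B' := by
    rw [← map_natCast (algebraMap 𝒪 B')]
    exact map_nonunit (algebraMap 𝒪 B') _ hp
  -- the eigen class
  let b : Fin r → Coh N χ 𝒪 := fun i => w i
  have hb : LinearIndependent 𝒪 b :=
    w.linearIndependent.map' (cohPart χ hMN hl a).subtype (Submodule.ker_subtype _)
  let η : Coh N χ B' := combC B' b e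
  have hη0 : η ≠ 0 := fun h => he0 (combC_injective hBinj hb (h.trans (map_zero _).symm))
  have hkill : KillsEllPar η := killsEllPar_combC (fun i γ hγ =>
    apply_eq_zero_of_mem_cohPart hMN hl hne (w i).2 hγ) e
  have hcol : ∀ (y : Module.End 𝒪 (cohPart χ hMN hl a)) (i : Fin r),
      (y (w i) : Coh N χ 𝒪) = ∑ j, LinearMap.toMatrixAlgEquiv w y j i • b j := fun y i => by
    conv_lhs => rw [← w.sum_repr (y (w i))]
    rw [Submodule.coe_sum]
    refine Finset.sum_congr rfl fun j _ => ?_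
    rw [LinearMap.toMatrixAlgEquiv_apply]
    rfl
  have heigen : ∀ {ι' : Type} [Fintype ι'] {η' : ι' → Matrix (Fin 2) (Fin 2) ℤ}
      (hη' : IsFam (gammaH N χ) (gammaH N χ) η') (y : Module.End 𝒪 (cohPart χ hMN hl a)) (c : B'),
      (LinearMap.toMatrixAlgEquiv w y).map (algebraMap 𝒪 B') *ᵥ e = c • e →
      (∀ i, famTransfer hη' (b i) = (y (w i) : Coh N χ 𝒪)) →
        famTransfer hη' η = c • η := fun hη' y c hc hy => by
    rw [famTransfer_combC hη' b _ (fun i => (hy i).trans (hcol y i)) e, hc, map_smul]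
  -- the Galois representation
  let aF : ℕ → B' := fun ℓ => if h : ℓ.Prime then
    f (Dat.ρ.trace (CommAlg.exists_liesOverPrime_isFrobeniusAt h).choose_spec.2.choose) else 0
  have haF : ∀ (ℓ : ℕ) (hℓ : ℓ.Prime), ℓ ∉ S₁ → ∀ P : ValuationSubring Qbar, P.LiesOverPrime ℓ →
      ∀ σ : Γℚ, P.IsFrobeniusAt σ ℓ → f (Dat.ρ.trace σ) = aF ℓ := fun ℓ hℓ hℓS P hP σ hσ => by
    simp only [aF, dif_pos hℓ]
    refine eq_of_map_eq f e he0 hef (LinearMap.ext fun v => Subtype.ext ?_)
    rw [compat ℓ hℓ hℓS P hP σ hσ, compat ℓ hℓ hℓS _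
      (CommAlg.exists_liesOverPrime_isFrobeniusAt hℓ).choose_spec.1 _
      (CommAlg.exists_liesOverPrime_isFrobeniusAt hℓ).choose_spec.2.choose_spec]
  have heq := baseChangeAlong_isEquiv_matRep (f : Dat.R →+* B') hf hequiv
  have htrace : ∀ σ, (mapRep (f : Dat.R →+* B') Mr σ).trace = f (Mr σ).trace := fun σ => by
    rw [Matrix.trace_fin_two, Matrix.trace_fin_two, map_add]
    rfl
  have hdetB : ∀ (n : ℕ) (σ : Γℚ) (c : ℕ), (∀ μ : Qbar, μ ^ p ^ n = 1 → σ μ = μ ^ c) →
      (mapRep (f : Dat.R →+* B') Mr σ).det - (c : B') ∈ Ideal.span {((p ^ n : ℕ) : B')} := by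
    intro n σ c hc
    have h := hcyc.2 n σ c hc
    rw [← Main.det_of_isEquiv hequiv] at h
    have h' := Ideal.mem_map_of_mem (f : Dat.R →+* B') h
    rw [map_sub, map_natCast, Ideal.map_span, Set.image_singleton, map_natCast] at h'
    rwa [show (mapRep (f : Dat.R →+* B') Mr σ).det = (f : Dat.R →+* B') (Mr σ).det from
      (RingHom.map_det (f : Dat.R →+* B') (Mr σ)).symm]
  have hnu := not_isUnipotentOnInertiaAt_of_diamond GalRep.specializationsExist hgeom (N := N)
    hq hM hsq hqp hMN hexact hpB hS1 aF (Dat.ρ.baseChangeAlong (f : Dat.R →+* B') hf)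
    (fun ℓ hℓ hℓS P hP σ hσ => by
      have hℓp : ℓ ≠ p := fun h => hℓS (h ▸ hpS)
      rw [charpoly_of_isEquiv heq, (Gen.det_frobenius_inertia hpB hℓ hℓp hP hdetB hσ).1, htrace,
        Main.trace_of_isEquiv hequiv, haF ℓ hℓ hℓS P hP σ hσ])
    hη0 hkill
    (fun ℓ hℓ hℓN hℓS => by
      have : NeZero ℓ := ⟨hℓ.ne_zero⟩
      obtain ⟨P, hP, σ, hσ⟩ := CommAlg.exists_liesOverPrime_isFrobeniusAt hℓ
      rw [← haF ℓ hℓ hℓS P hP σ hσ, opT_apply hMN hℓ hℓN]
      refine heigen ((opFam_T hMN hℓ hℓN).isFam hℓ) _ _ (hef (Dat.ρ.trace σ)) fun i => ?_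
      show _ = (φ (Dat.ρ.trace σ) (w i) : Coh N χ 𝒪)
      rw [compat ℓ hℓ hℓS P hP σ hσ, opP_of_not_dvd (χ := χ) 𝒪 𝒪 hMN hℓ hℓN, opT_apply hMN hℓ hℓN])
    κ
    (fun g => heigen (isFam_gamma0 hMN g) _ _ (heκ (χ (dUnit hMN g))) fun i => by
      show _ = (B.dia (χ (dUnit hMN g)) (w i) : Coh N χ 𝒪)
      rw [B.coe_dia, diamond_apply hMN hχ (g := g) rfl]
      rfl)
    U hU hκ
  -- the trace of inertia
  let F : Matrix (Fin 2) (Fin 2) Dat.R →+* Matrix (Fin 2) (Fin 2) B' :=
    (f : Dat.R →+* B').mapMatrix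
  have hne2 : (F (sMat C.v)).trace ≠ 2 := fun h => hnu
    (isUnipotentOnInertiaAt_of_trace_eq_two hq heq hA (τ := C.τ)
      (fun n σ hσ => by
        obtain ⟨j, hj⟩ := C.gen n σ hσ
        refine ⟨j, ?_⟩
        rw [← map_pow] at hj ⊢
        ext i' j'
        refine Ideal.Quotient.eq.mpr ?_
        show (mapRep (f : Dat.R →+* B') Mr σ) i' j' - (mapRep (f : Dat.R →+* B') Mr (C.τ ^ j)) i' j' ∈ _
        rw [mapRep_apply, mapRep_apply, Matrix.map_apply, Matrix.map_apply, ← map_sub]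
        exact Ideal.pow_right_mono ((((IsLocalRing.local_hom_TFAE _).out 0 2).mp hf)) n
          (Ideal.map_pow (f : Dat.R →+* B') (maximalIdeal Dat.R) n ▸
            Ideal.mem_map_of_mem _ (Ideal.Quotient.eq.mp (congrFun (congrFun hj i') j'))))
      (by
        show (((f : Dat.R →+* B').mapMatrix) (Mr C.τ)).det = 1
        rw [← RingHom.map_det, hdet, map_one])
      (by
        rw [htrace, ← C.trace_sMat, ← h, Matrix.trace_fin_two (F _), Matrix.trace_fin_two, map_add]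
        rfl))
  obtain ⟨z, hz, hz1, hzt⟩ := exists_root_trace (B := B') hp2 hpB hq.one_lt hq1 hk
    (hζ.map_of_injective hBinj) (Φ := F (Dq.phiMat C.v)) (s := F (sMat C.v))
    (by
      rw [← RingHom.map_det, C.det_phi, hDq, map_natCast]
      exact_mod_cast hq.ne_zero)
    (by rw [← map_mul, C.comm, hDq, map_mul, map_pow])
    (by rw [← RingHom.map_det, C.det_s, map_one])
    (fun i j => by
      rw [show F (sMat C.v) - 1 = F (sMat C.v - 1) by rw [map_sub, map_one], sMat,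
        add_sub_cancel_left]
      refine map_nonunit (f : Dat.R →+* B') _ ?_
      fin_cases i <;> fin_cases j <;> exact C.mem_maximalIdeal _)
    hne2
  have : NeZero (p ^ k) := ⟨pow_ne_zero _ (Fact.out : p.Prime).ne_zero⟩
  obtain ⟨n, -, rfl⟩ := (hζ.map_of_injective hBinj).eq_pow_of_pow_eq_one hz
  obtain ⟨y, hy, hy1, hy2⟩ := hΛ (ζ ^ n)
    (by rw [← pow_mul, mul_comm, pow_mul, hζ.pow_eq_one, one_pow])
    (fun h => hz1 (by rw [← map_pow, h, map_one]))
  refine mul_eq_zero_of_right _ ?_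
  rw [map_prod]
  refine Finset.prod_eq_zero hy ?_
  rw [map_sub, AlgHom.commutes, ← C.trace_sMat, map_add, hy1, sub_eq_zero]
  have hzu : algebraMap 𝒪 B' y.2 * algebraMap 𝒪 B' (ζ ^ n) = 1 := by
    rw [← map_mul, mul_comm, ← hy1, hy2, map_one]
  rw [← map_pow] at hzt
  have htF : f (sMat C.v).trace = (F (sMat C.v)).trace := by
    rw [Matrix.trace_fin_two, Matrix.trace_fin_two, map_add]
    rfl
  rw [htF]
  linear_combination (algebraMap 𝒪 B' y.2) * hzt -
    ((F (sMat C.v)).trace - algebraMap 𝒪 B' (ζ ^ n)) * hzu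

end FLTAgent.RT.Lower
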