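import Fermat.Agent.RT.Lower.Levels
import Fermat.Agent.RT.Lower.Inertia
import Fermat.Agent.LevelSq.GeometryInst

/-!
# Inertia at `q` at the levels of lowering
-/

set_option autoImplicit false
set_option linter.unusedSectionVars false

noncomputable section

open IsLocalRing Matrix Polynomial WeierstrassCurve FLTAgent.Deformation FLTAgent.GalRep
  FLTAgent.RT.Main

namespace FLTAgent.RT.Lower

attribute [local instance] dualAlg

variable {𝒪 : Type} [CommRing 𝒪] [IsDomain 𝒪] [IsDiscreteValuationRing 𝒪]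
  [IsAdicComplete (maximalIdeal 𝒪) 𝒪] [Finite (ResidueField 𝒪)] [CharZero 𝒪]
  {W : WeierstrassCurve ℤ} {p : ℕ} [Fact p.Prime] {aux : Finset ℕ}
  {F : Main.Frame 𝒪 W p freeAt aux} {loc : PCond} {N₀ q : ℕ} {g r n : ℕ}
  {Pl : LocPlaces F (fun i : LocIdx F (N₀ * q) => i.1)}
  (St : LowStage F loc (N₀ * q) q Pl g r n) (hS : Setup F N₀ q)

namespace LowStage

include St hS

/-- **Inertia at `q` at a level of lowering.** -/
theorem inertiaRel (ht : IsLocalType 𝒪 p loc) {k : ℕ} (hk : padicValNat p (q - 1) ≤ k) {ζ : 𝒪}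
    (hζ : IsPrimitiveRoot ζ (p ^ k)) {Λ : Finset (𝒪 × 𝒪)}
    (hΛ : ∀ z, z ^ p ^ k = 1 → z ≠ 1 → ∃ x ∈ Λ, x.1 = z ∧ x.1 * x.2 = 1) :
    St.InertiaRel hS Λ := by
  have := St.neZero_lvl hS
  intro _ d B φ hφ
  obtain ⟨U, hU, hχU⟩ := St.exists_unit_h₀ hS
  have hdet : (St.M (St.C hS.idx).τ).det = 1 := by
    rw [← (St.C hS.idx).det_s, ← (St.C hS.idx).tau_eq, conjRep_apply, Matrix.det_units_conj]
  rw [← hχU]
  exact isNilpotent_dia_mul_traceProd LevelSq.geometrySq F.ne_two F.mem_p hS.prime hS.ne_p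
    hS.p_dvd_sub_one hk hζ hΛ rfl (St.squarefree_qProdQ hS)
    (fun l hl _ h => hl.not_isUnit (St.squarefree_lvl hS l (by rwa [← pow_two])))
    (St.nonEis_a' hS) (ht.isCond _ _) St.D (fun l hl hd => St.mem_of_dvd hS hl hd)
    (Finset.mem_union_left _ (Finset.mem_union_left _
      (Finset.mem_union_left _ (mem_minSet_self p F.disc_ne F.mem_p))))
    hφ St.equiv (Pl.liesOver hS.idx) (St.C hS.idx) (Pl.q_eq hS.idx) hdet St.D.isOfType.1.1 B U hU

end LowStage

end FLTAgent.RT.Lower
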