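import Fermat.Agent.RT.Lower.Stage
import Fermat.Agent.RT.Lower.Untwist
import Fermat.Agent.RT.Sys.InstBase
import Fermat.Agent.RT.Compat.Main
import Fermat.Agent.RT.Main.Levels

/-!
# The levels of lowering

At the level `N₀ q ∏ qv` with diamonds in `ℤ/p × (ℤ/pⁿ) ^ r`, the first factor at `q`, the stage
acts with the norms over the first factor killed by a power of the raising element at `q`.
-/

set_option autoImplicit false
set_option linter.unusedSectionVars false

noncomputable section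

open IsLocalRing Matrix Polynomial WeierstrassCurve FLTAgent.Deformation FLTAgent.GalRep
  FLTAgent.RT.Main

namespace FLTAgent.RT.Lower

attribute [local instance] dualAlg

variable {𝒪 : Type} [CommRing 𝒪] [IsDomain 𝒪] [IsDiscreteValuationRing 𝒪]
  [IsAdicComplete (maximalIdeal 𝒪) 𝒪] [Finite (ResidueField 𝒪)] [CharZero 𝒪]
  {W : WeierstrassCurve ℤ} {p : ℕ} [Fact p.Prime] {aux : Finset ℕ}
  {F : Main.Frame 𝒪 W p freeAt aux} {loc : PCond} {N₀ q : ℕ} {g r n : ℕ}
  {Pl : LocPlaces F (fun i : LocIdx F (N₀ * q) => i.1)}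
  (St : LowStage F loc (N₀ * q) q Pl g r n) (hS : Setup F N₀ q)

namespace LowStage

include St

/-- The product of the Taylor–Wiles primes. -/
abbrev prodQ : ℕ := ∏ j, St.qv j

/-- The level. -/
abbrev lvl : ℕ := N₀ * St.prodQ * q

theorem qv_prime (j : Fin r) : (St.qv j).Prime := (St.spec j).1

theorem qv_ne_of_mem {l : ℕ} (hl : l ∈ excSet W p (lowAux aux (N₀ * q))) (j : Fin r) :
    St.qv j ≠ l := fun h => (St.spec j).2.1 (h ▸ hl)

include hS

theorem mem_exc_of_dvd {l : ℕ} (hl : l.Prime) (hd : l ∣ N₀ * q) :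
    l ∈ excSet W p (lowAux aux (N₀ * q)) :=
  Finset.mem_union_right _ (Finset.mem_union_right _
    (Nat.mem_primeFactors.mpr ⟨hl, hd, hS.sq.ne_zero⟩))

theorem qv_not_dvd (j : Fin r) : ¬ St.qv j ∣ N₀ * q := fun h =>
  St.qv_ne_of_mem (St.mem_exc_of_dvd hS (St.qv_prime j) h) j rfl

theorem coprime_prodQ : (N₀ * q).Coprime St.prodQ :=
  Nat.Coprime.prod_right fun j _ =>
    ((St.qv_prime j).coprime_iff_not_dvd.mpr (St.qv_not_dvd hS j)).symm

theorem squarefree_lvl : Squarefree St.lvl := by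
  have h : St.lvl = N₀ * q * St.prodQ := by rw [LowStage.lvl, mul_right_comm]
  rw [h]
  exact (Nat.squarefree_mul_iff).mpr
    ⟨St.coprime_prodQ hS, hS.sq, Sys.squarefree_prod_primes St.qv_prime St.inj⟩

theorem squarefree_qProdQ : Squarefree (q * St.prodQ) :=
  (St.squarefree_lvl hS).squarefree_of_dvd ⟨N₀, by rw [LowStage.lvl]; ring⟩

theorem q_coprime_prodQ : q.Coprime St.prodQ :=
  (St.coprime_prodQ hS).coprime_dvd_left (dvd_mul_left q N₀)

theorem q_not_dvd : ¬ q ∣ N₀ * St.prodQ := fun h =>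
  (hS.prime.dvd_mul.mp h).elim hS.not_dvd fun h' =>
    hS.prime.ne_one ((Nat.coprime_self q).mp ((St.q_coprime_prodQ hS).coprime_dvd_right h'))

omit hS

theorem exists_charQ (hp : p.Prime) :
    ∃ χ : (ZMod St.prodQ)ˣ →* Main.TWGrp p r n, Function.Surjective χ ∧
      ∀ j, ∃ w : (ZMod (St.qv j))ˣ, ∀ v,
        ZMod.unitsMap (Finset.dvd_prod_of_mem St.qv (Finset.mem_univ j)) v = w →
        (∀ i, i ≠ j → ZMod.unitsMap (Finset.dvd_prod_of_mem St.qv (Finset.mem_univ i)) v = 1) →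
          χ v = Sys.twGen j := by
  have := Fact.mk hp
  obtain ⟨χ, gg, hχ, hgg, hval⟩ := Sys.exists_twChar (m := p ^ n) St.qv_prime St.inj
    fun j => (pow_dvd_pow p n.le_succ).trans (St.spec j).2.2
  refine ⟨χ, hχ, fun j => ?_⟩
  obtain ⟨w, hw⟩ := hgg j (Multiplicative.ofAdd 1)
  refine ⟨w, fun v hv hv1 => Multiplicative.toAdd.injective (funext fun i => ?_)⟩
  rw [hval]
  rcases eq_or_ne i j with rfl | hij
  · rw [hv, hw]; simp [Sys.twGen]
  · rw [hv1 i hij, map_one]; simp [Sys.twGen, hij]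

/-- The diamonds at the Taylor–Wiles primes. -/
def χQ : (ZMod St.prodQ)ˣ →* Main.TWGrp p r n := (St.exists_charQ Fact.out).choose

theorem χQ_surjective : Function.Surjective St.χQ := (St.exists_charQ Fact.out).choose_spec.1

theorem exists_χQ_eq (j : Fin r) : ∃ w : (ZMod (St.qv j))ˣ, ∀ v,
    ZMod.unitsMap (Finset.dvd_prod_of_mem St.qv (Finset.mem_univ j)) v = w →
    (∀ i, i ≠ j → ZMod.unitsMap (Finset.dvd_prod_of_mem St.qv (Finset.mem_univ i)) v = 1) →
      St.χQ v = Sys.twGen j :=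
  (St.exists_charQ Fact.out).choose_spec.2 j

include hS

/-- The diamonds at `q`. -/
def ψq : (ZMod q)ˣ →* Multiplicative (ZMod p) :=
  (Sys.exists_units_hom_surjective hS.prime hS.p_dvd_sub_one).choose

theorem ψq_surjective : Function.Surjective (ψq hS) :=
  (Sys.exists_units_hom_surjective hS.prime hS.p_dvd_sub_one).choose_spec

/-- The character of all diamonds. -/
def χ : (ZMod (q * St.prodQ))ˣ →* Sys.LowerGroup p n r :=
  prodChar ((MonoidHom.inl _ _).comp (ψq hS)) ((MonoidHom.inr _ _).comp St.χQ)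

theorem χ_apply (v : (ZMod (q * St.prodQ))ˣ) :
    St.χ hS v = (ψq hS (ZMod.unitsMap (dvd_mul_right q St.prodQ) v),
      St.χQ (ZMod.unitsMap (dvd_mul_left St.prodQ q) v)) := by
  rw [LowStage.χ, prodChar_apply]
  exact Prod.ext (mul_one _) (one_mul _)

theorem χ_surjective : Function.Surjective (St.χ hS) := fun y => by
  obtain ⟨v, hv⟩ := St.ψq_surjective hS y.1
  obtain ⟨w, hw⟩ := St.χQ_surjective y.2
  obtain ⟨U, hU1, hU2⟩ := exists_unit_split (St.q_coprime_prodQ hS) v w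
  exact ⟨U, by rw [St.χ_apply hS, hU1, hU2, hv, hw]⟩

theorem exists_unit_h₀ : ∃ U : (ZMod (q * St.prodQ))ˣ,
    ZMod.unitsMap (dvd_mul_left St.prodQ q) U = 1 ∧
      St.χ hS U = (Multiplicative.ofAdd 1, 1) := by
  obtain ⟨v, hv⟩ := St.ψq_surjective hS (Multiplicative.ofAdd 1)
  obtain ⟨U, hU1, hU2⟩ := exists_unit_split (St.q_coprime_prodQ hS) v 1
  exact ⟨U, hU2, by rw [St.χ_apply hS, hU1, hU2, hv]; exact Prod.ext rfl (map_one _)⟩

theorem dvd_lvl : q * St.prodQ ∣ St.lvl := ⟨N₀, by rw [LowStage.lvl]; ring⟩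

theorem neZero_lvl : NeZero St.lvl := ⟨(St.squarefree_lvl hS).ne_zero⟩

theorem mem_of_dvd {l : ℕ} (hl : l.Prime) (hd : l ∣ St.lvl) :
    l ∈ ramSet F (N₀ * q) ∪ Finset.univ.image St.qv ∪ aux := by
  have h : l ∣ N₀ * q * St.prodQ := by rwa [LowStage.lvl, mul_right_comm] at hd
  rcases hl.dvd_mul.mp h with h | h
  · rcases Finset.mem_union.mp (mem_ramSet_union_aux F hS.sq.ne_zero hl h) with h' | h'
    · exact Finset.mem_union_left _ (Finset.mem_union_left _ h')
    · exact Finset.mem_union_right _ h'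
  · obtain ⟨j, -, hj⟩ := hl.prime.exists_mem_finset_dvd h
    rw [(Nat.prime_dvd_prime_iff_eq hl (St.qv_prime j)).mp hj]
    exact Finset.mem_union_left _
      (Finset.mem_union_right _ (Finset.mem_image_of_mem _ (Finset.mem_univ j)))

theorem not_dvd_qv {l : ℕ} (hl : l.Prime) (he : l ∈ excSet W p (lowAux aux (N₀ * q))) :
    ¬ l ∣ St.prodQ := fun h => by
  obtain ⟨j, -, hj⟩ := hl.prime.exists_mem_finset_dvd h
  exact St.qv_ne_of_mem he j ((Nat.prime_dvd_prime_iff_eq hl (St.qv_prime j)).mp hj).symm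

theorem p_dvd_lvl_iff {m : ℕ} (hm : m ∣ q * St.prodQ) :
    p ∣ St.lvl * m ↔ p ∣ N₀ * q := by
  have hpq : ¬ p ∣ q * St.prodQ := fun h => ((Fact.out : p.Prime).dvd_mul.mp h).elim
    (fun h' => hS.ne_p ((Nat.prime_dvd_prime_iff_eq Fact.out hS.prime).mp h').symm)
    (St.not_dvd_qv hS Fact.out (Finset.mem_union_left _ (Finset.mem_insert_self _ _)))
  refine ⟨fun h => ?_, fun h => dvd_mul_of_dvd_left
    (h.trans ⟨St.prodQ, by rw [LowStage.lvl]; ring⟩) _⟩
  rcases (Fact.out : p.Prime).dvd_mul.mp h with h | h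
  · rw [LowStage.lvl, mul_right_comm] at h
    exact ((Fact.out : p.Prime).dvd_mul.mp h).resolve_right fun h' =>
      hpq (h'.trans (dvd_mul_left _ _))
  · exact absurd (h.trans hm) hpq

theorem not_sq_dvd {m l : ℕ} (hl : l.Prime) (hlm : ¬ l ∣ m) : ¬ l ^ 2 ∣ St.lvl * m := fun h =>
  hl.not_isUnit ((St.squarefree_lvl hS) l (by
    rw [← pow_two]
    exact (Nat.Coprime.pow_left 2 ((hl.coprime_iff_not_dvd).mpr hlm)).dvd_of_dvd_mul_right h))

theorem not_p_dvd {m : ℕ} (hm : m ∣ q * St.prodQ) : ¬ p ∣ m := fun h =>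
  ((Fact.out : p.Prime).dvd_mul.mp (h.trans hm)).elim
    (fun h' => hS.ne_p ((Nat.prime_dvd_prime_iff_eq Fact.out hS.prime).mp h').symm)
    (St.not_dvd_qv hS Fact.out (Finset.mem_union_left _ (Finset.mem_insert_self _ _)))

theorem twPrimes₀ : Sys.TWPrimes N₀ famPrime (famCoeff 𝒪) St.a' (Finset.univ.image St.qv) where
  prime := St.tw.prime
  not_dvd l hl hd := St.tw.not_dvd l hl (dvd_mul_of_dvd_left hd q)
  of_notMem := St.tw.of_notMem
  index := St.tw.index

theorem nonEis_a' : NonEis famPrime St.a' := St.tw.nonEis (nonEisLow F (N₀ * q))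

theorem ellCond₀ {D : Type} [CommGroup D] (hD : IsPGroup p D) [Finite D] {M : ℕ}
    (χ' : (ZMod M)ˣ →* D) {m : ℕ} [NeZero m] : EllCond χ' (N₀ * m) := by
  rcases hS.nuThree with h3 | h3
  · obtain ⟨a, ha⟩ := hD.exists_card_eq
    refine Or.inl ?_
    rw [ha]
    exact Nat.Coprime.pow_right _ ((Nat.coprime_primes Nat.prime_three Fact.out).mpr (Ne.symm h3))
  · have : NeZero N₀ := ⟨left_ne_zero_of_mul hS.sq.ne_zero⟩
    exact Or.inr (Sys.nuThree_mul_eq_zero _ h3)

theorem ellCond_lvl {D : Type} [CommGroup D] (hD : IsPGroup p D) [Finite D] {M : ℕ}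
    (χ' : (ZMod M)ˣ →* D) : EllCond χ' St.lvl := by
  have : NeZero (St.prodQ * q) := ⟨mul_ne_zero
    (Finset.prod_ne_zero_iff.mpr fun j _ => (St.qv_prime j).ne_zero) hS.prime.ne_zero⟩
  have h := St.ellCond₀ hS hD χ' (m := St.prodQ * q)
  rwa [← mul_assoc] at h

theorem image_prod : ∏ l ∈ Finset.univ.image St.qv, l = St.prodQ :=
  Finset.prod_image fun _ _ _ _ e => St.inj e

theorem lvl_eq : St.lvl = N₀ * q * ∏ l ∈ Finset.univ.image St.qv, l := by
  rw [St.image_prod hS, LowStage.lvl, mul_right_comm]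

/-- The action of the stage on a part of the level. -/
theorem exists_action (ht : IsLocalType 𝒪 p loc) (hmax : LowMax F loc (N₀ * q)) {D : Type}
    [CommGroup D] [Fintype D] [Fact (Odd (Nat.card D))] {M : ℕ} (hM : M ∣ q * St.prodQ)
    (χ' : (ZMod M)ˣ →* D) (hχ' : Function.Surjective χ') (hD : IsPGroup p D) :
    haveI := St.neZero_lvl hS
    ∃ φ : St.D.R →ₐ[𝒪] Module.End 𝒪 (cohPart χ' (hM.trans (St.dvd_lvl hS))
        (prime_famPrime (W := W) (p := p) (aux := lowAux aux (N₀ * q))) St.a'),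
      Sys.IsFrobCompat St.D (ramSet F (N₀ * q) ∪ Finset.univ.image St.qv ∪ aux) φ := by
  have := St.neZero_lvl hS
  have := hS.neZero
  have := isAddTorsionFree_of_charZero (O := 𝒪)
  have := moduleFree_coh (χ := trivChar) (O := 𝒪) (one_dvd (N₀ * q))
  have := moduleFinite_coh (χ := trivChar) 𝒪 𝒪 (one_dvd (N₀ * q))
  obtain ⟨d, e₀⟩ := Submodule.basisOfPid (Module.finBasis 𝒪 (Coh (N₀ * q) trivChar 𝒪))
    (cohPart trivChar (one_dvd (N₀ * q))
      (prime_famPrime (W := W) (p := p) (aux := lowAux aux (N₀ * q))) (famCoeff 𝒪))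
  obtain ⟨-, c, -, -, -, hc, -⟩ := St.tw.exists_dBasis prime_famPrime (hM.trans (St.dvd_lvl hS)) hχ'
    (St.lvl_eq hS) p hD F.mem_p (St.ellCond_lvl hS hD χ') (nonEisLow F _) e₀
  have : Nontrivial (cohPart trivChar (one_dvd (N₀ * q))
      (prime_famPrime (W := W) (p := p) (aux := lowAux aux (N₀ * q))) (famCoeff 𝒪)) :=
    Submodule.nontrivial_iff_ne_bot.mpr hS.part
  have := hc.nontrivial
  have hM0 : M ≠ 0 := fun h => (St.squarefree_qProdQ hS).ne_zero (by
    rw [h] at hM; exact zero_dvd_iff.mp hM)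
  have : NeZero (St.lvl * M) := ⟨mul_ne_zero (NeZero.ne _) hM0⟩
  refine exists_lowAct F ht hmax (hM.trans (St.dvd_lvl hS)) (St.nonEis_a' hS)
    ((St.squarefree_qProdQ hS).squarefree_of_dvd hM)
    (fun l hl _ h => hl.not_isUnit ((St.squarefree_lvl hS) l (by rwa [← pow_two]))) rfl
    (Finset.subset_union_left.trans Finset.subset_union_left) St.D (fun l hl hd => ?_)
    (St.p_dvd_lvl_iff hS hM) (St.not_sq_dvd hS Fact.out (St.not_p_dvd hS hM))
    (fun l hlT hlp => ?_) fun i hi => St.tw.of_notMem i fun h =>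
      hi (Finset.mem_union_left _ (Finset.mem_union_right _ h))
  · exact (hl.dvd_mul.mp hd).elim (St.mem_of_dvd hS hl) fun h =>
      St.mem_of_dvd hS hl ((h.trans hM).trans (St.dvd_lvl hS))
  · obtain ⟨hlq, hlr⟩ := Finset.mem_erase.mp hlT
    have hl := prime_of_mem_ramSet F hlr
    refine St.not_sq_dvd hS hl fun h => ?_
    rcases hl.dvd_mul.mp (h.trans hM) with h | h
    · exact hlq ((Nat.prime_dvd_prime_iff_eq hl hS.prime).mp h)
    · exact St.not_dvd_qv hS hl (ramSet_subset F _ hlr) h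

omit hS in
/-- The trace of inertia away from `q` is two. -/
theorem trace_tau (i : LocIdx F (N₀ * q)) (hi : i.1 ≠ q) :
    (St.M (St.C i).τ).trace = algebraMap 𝒪 St.D.R 2 := by
  obtain ⟨hq, -, -, -, hqp, hmem⟩ := locIdx_spec F i
  have h := (RTCond.charpoly_eq_sq_iff St.D.ρ (St.C i).τ).mp
    (St.D.isOfType.2 _ (Finset.mem_erase.mpr ⟨hi, hmem⟩) hq hqp (Pl.P i) (Pl.liesOver i)
      (St.C i).τ (St.C i).tau_mem)
  rw [map_ofNat, trace_of_isEquiv St.equiv, ← sub_eq_zero, GaloisRepAdic.trace,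
    LinearMap.trace_eq_matrix_trace _ (stdBasis St.D.ρ)]
  exact h.1

omit hS in
theorem γ_traceFactor (i : LocIdx F (N₀ * q)) :
    (sMat fun k => St.γ (locCoord i k)).trace = (St.M (St.C i).τ).trace := by
  rw [show (fun k => St.γ (locCoord i k)) = (St.C i).v from funext (St.γ_coord i),
    (St.C i).trace_sMat]

/-- What is needed from inertia at `q`. -/
def InertiaRel (Λ : Finset (𝒪 × 𝒪)) : Prop :=
  haveI := St.neZero_lvl hS
  ∀ [Fact (Odd (Nat.card (Sys.LowerGroup p n r)))] {d : ℕ}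
    (B : Sys.DBasis (St.dvd_lvl hS) (St.χ_surjective hS) (cohPart (St.χ hS) (St.dvd_lvl hS)
      (prime_famPrime (W := W) (p := p) (aux := lowAux aux (N₀ * q))) St.a') d)
    (φ : St.D.R →ₐ[𝒪] Module.End 𝒪 (cohPart (St.χ hS) (St.dvd_lvl hS)
      (prime_famPrime (W := W) (p := p) (aux := lowAux aux (N₀ * q))) St.a')),
    Sys.IsFrobCompat St.D (ramSet F (N₀ * q) ∪ Finset.univ.image St.qv ∪ aux) φ →
    IsNilpotent ((B.dia (Multiplicative.ofAdd 1, 1) - 1) *
      φ (∏ x ∈ Λ, ((St.M (St.C (hS.idx)).τ).trace - algebraMap 𝒪 _ (x.1 + x.2))))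

/-- Lifts of a basis of the part at the base level, acted on by the stage with the relation at
each Taylor–Wiles prime. -/
theorem exists_dia_rel [Fact (Odd (Nat.card (Sys.LowerGroup p n r)))] {d : ℕ}
    (B : haveI := St.neZero_lvl hS
      Sys.DBasis (St.dvd_lvl hS) (St.χ_surjective hS) (cohPart (St.χ hS) (St.dvd_lvl hS)
        (prime_famPrime (W := W) (p := p) (aux := lowAux aux (N₀ * q))) St.a') d)
    (ht : IsLocalType 𝒪 p loc)
    (φ : haveI := St.neZero_lvl hS
      St.D.R →ₐ[𝒪] Module.End 𝒪 (cohPart (St.χ hS) (St.dvd_lvl hS)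
        (prime_famPrime (W := W) (p := p) (aux := lowAux aux (N₀ * q))) St.a'))
    (hφ : haveI := St.neZero_lvl hS
      Sys.IsFrobCompat St.D (ramSet F (N₀ * q) ∪ Finset.univ.image St.qv ∪ aux) φ) (j : Fin r) :
    haveI := St.neZero_lvl hS
    ∃ t : MvPowerSeries (LocVar (LocIdx F (N₀ * q)) (Empty ⊕ Fin g)) 𝒪,
      IsNilpotent (B.dia (1, Sys.twGen j) ^ 2 -
        (φ (St.γ t) ^ 2 - 2) * B.dia (1, Sys.twGen j) + 1) := by
  have := St.neZero_lvl hS
  obtain ⟨w, hw⟩ := St.exists_χQ_eq j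
  have hq := St.qv_prime j
  have : Fact (St.qv j).Prime := ⟨hq⟩
  have : NeZero (St.qv j) := ⟨hq.ne_zero⟩
  have : ∀ i, NeZero (St.qv i) := fun i => ⟨(St.qv_prime i).ne_zero⟩
  have : NeZero q := ⟨hS.prime.ne_zero⟩
  have : NeZero St.prodQ := ⟨Finset.prod_ne_zero_iff.mpr fun i _ => (St.qv_prime i).ne_zero⟩
  have : NeZero (q * St.prodQ) := ⟨(St.squarefree_qProdQ hS).ne_zero⟩
  obtain ⟨P, hP⟩ := Frobenius.exists_liesOverPrime hq
  obtain ⟨τ, hτ, hτw, hτ1⟩ := Compat.exists_inertia_cycloN hP w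
  obtain ⟨ψp⟩ := exists_padicHom p 𝒪 F.mem_p
  obtain ⟨i₀, β, hi₀, huniq, -, hadd, hmul, hsep⟩ :=
    St.tw.index (St.qv j) (Finset.mem_image_of_mem _ (Finset.mem_univ j))
  obtain ⟨hg₀, hp₀⟩ := F.good_of_notMem hq fun h => (St.spec j).2.1 (Finset.mem_union_left _ h)
  have hnil := Compat.diamond_quadratic_eq_zero
    (L := N₀ * q * ∏ i ∈ Finset.univ.erase j, St.qv i) (q := St.qv j) F.ne_two F.mem_p ψp
    (ht.isCond _ _) St.D (ramSet F (N₀ * q) ∪ Finset.univ.image St.qv ∪ aux)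
    (fun l hl hlS B hB φ hφ => ?hdet) (Sys.isPGroup_lowerGroup p n r) (St.nonEis_a' hS) B φ hφ hq
    ?hN ?hL ?hmod hi₀ huniq hmul hsep hP (fun φ hφ => ?hfrob) hτ
  case hdet =>
    have hlp : l ≠ p := fun h => hlS (by
      rw [h]
      exact Finset.mem_union_left _ (Finset.mem_union_left _
        (Finset.mem_union_left _ (mem_minSet_self p F.disc_ne F.mem_p))))
    rw [← LinearMap.det_toMatrix (residualBasis F.rb)]
    exact F.det_barMatrix hl hlp hB hφ
  case hN =>
    show N₀ * (∏ i, St.qv i) * q = _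
    rw [← Finset.prod_erase_mul _ _ (Finset.mem_univ j)]
    ring
  case hL =>
    intro hd
    rcases hq.dvd_mul.mp hd with hd | hd
    · exact St.qv_not_dvd hS j hd
    · obtain ⟨i, hi, hqi⟩ := hq.prime.exists_mem_finset_dvd hd
      exact Finset.ne_of_mem_erase hi
        (St.inj ((Nat.prime_dvd_prime_iff_eq hq (St.qv_prime i)).mp hqi).symm)
  case hmod =>
    obtain ⟨c, hc⟩ := (dvd_pow_self p n.succ_ne_zero).trans (St.spec j).2.2
    have h1 := hq.one_lt
    rw [show St.qv j = p * c + 1 by omega, Nat.mul_add_mod,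
      Nat.mod_eq_of_lt (Fact.out : p.Prime).one_lt]
  case hfrob =>
    rw [trace_rbar_frobenius p F.disc_ne F.mem_p hq hg₀ hp₀ hP hφ, ← sub_eq_zero, ← map_sub,
      residue_eq_zero_iff]
    have e : famPrime i₀ = St.qv j := hi₀
    rw [← e]
    exact hadd
  have hqj : q ≠ St.qv j := fun h =>
    St.qv_not_dvd hS j (by rw [← h]; exact dvd_mul_left q N₀)
  rw [St.χ_apply hS, Compat.unitsMap_cycloN, hτ1 _ ((Nat.coprime_primes hS.prime hq).mpr hqj),
    map_one, hw _ (by rw [Compat.unitsMap_cycloN, Compat.unitsMap_cycloN]; exact hτw)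
      fun i hij => by
        rw [Compat.unitsMap_cycloN, Compat.unitsMap_cycloN, hτ1 _ ((Nat.coprime_primes
          (St.qv_prime i) hq).mpr (St.inj.ne hij))]] at hnil
  obtain ⟨x, hx⟩ := St.surj (St.M τ).trace
  refine ⟨x, ?_⟩
  rw [hx, trace_of_isEquiv St.equiv]
  exact ⟨1, (pow_one _).trans hnil⟩

open Classical in
/-- **One level for lowering.** -/
theorem nonempty_lowerLevel (ht : IsLocalType 𝒪 p loc) (hmax : LowMax F loc (N₀ * q))
    [Fact (Odd (Nat.card (Sys.LowerGroup p n r)))] [Fact (Odd (Nat.card (Main.TWGrp p r n)))]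
    [Fintype (MonoidHom.snd (Multiplicative (ZMod p)) (Main.TWGrp p r n)).ker]
    {Λ : Finset (𝒪 × 𝒪)} (hin : St.InertiaRel hS Λ) {d : ℕ}
    (e₀ : haveI := hS.neZero
      Module.Basis (Fin d) 𝒪 (cohPart trivChar (one_dvd (N₀ * q))
        (prime_famPrime (W := W) (p := p) (aux := lowAux aux (N₀ * q))) (famCoeff 𝒪))) :
    Nonempty (Sys.LowerLevel Pl.Ds (Empty ⊕ Fin g) hS.idx F.rb d famPrime
      (prime_famPrime (W := W) (p := p) (aux := lowAux aux (N₀ * q))) r
      (MonoidHom.snd (Multiplicative (ZMod p)) (Main.TWGrp p r n))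
      (Multiplicative.ofAdd 1, 1) (fun j => (1, Sys.twGen j)) Λ) := by
  have := St.neZero_lvl hS
  have := hS.neZero
  have : NeZero q := ⟨hS.prime.ne_zero⟩
  have : NeZero N₀ := ⟨left_ne_zero_of_mul hS.sq.ne_zero⟩
  have : NeZero (N₀ * St.prodQ) := ⟨left_ne_zero_of_mul (St.squarefree_lvl hS).ne_zero⟩
  have : NeZero St.prodQ := ⟨right_ne_zero_of_mul (NeZero.ne (N₀ * St.prodQ))⟩
  have hPQ := Sys.isPGroup_twGroup p n r
  have hPL := Sys.isPGroup_lowerGroup p n r
  set S₁ := ramSet F (N₀ * q) ∪ Finset.univ.image St.qv ∪ aux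
  obtain ⟨B, -⟩ := St.tw.exists_dBasis prime_famPrime (St.dvd_lvl hS) (St.χ_surjective hS)
    (St.lvl_eq hS) p hPL F.mem_p (St.ellCond_lvl hS hPL (St.χ hS)) (nonEisLow F _) e₀
  obtain ⟨φ, hφ⟩ := St.exists_action hS ht hmax dvd_rfl (St.χ hS) (St.χ_surjective hS) hPL
  obtain ⟨φ', hφ'⟩ := St.exists_action hS ht hmax (dvd_mul_left St.prodQ q) St.χQ St.χQ_surjective
    hPQ
  have h0 : cohPart St.χQ (dvd_mul_left St.prodQ N₀)
      (prime_famPrime (W := W) (p := p) (aux := lowAux aux (N₀ * q))) St.a' = ⊥ := by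
    have : IsEmpty (Fin 0) := inferInstance
    have : Subsingleton (cohPart trivChar (one_dvd N₀)
        (prime_famPrime (W := W) (p := p) (aux := lowAux aux (N₀ * q))) (famCoeff 𝒪)) := by
      rw [hS.bot]; infer_instance
    obtain ⟨B₀, -⟩ := (St.twPrimes₀ hS).exists_dBasis prime_famPrime (dvd_mul_left St.prodQ N₀)
      St.χQ_surjective (by rw [St.image_prod hS]) p hPQ F.mem_p (St.ellCond₀ hS hPQ St.χQ)
      (nonEisLow F _) (Module.Basis.empty (cohPart trivChar (one_dvd N₀)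
        (prime_famPrime (W := W) (p := p) (aux := lowAux aux (N₀ * q))) (famCoeff 𝒪))
        (ι := Fin 0))
    rw [← B₀.range_eq, eq_bot_iff]
    rintro x ⟨c, rfl⟩
    rw [show c = 0 from funext fun δ => funext fun i => i.elim0, map_zero]
    exact zero_mem _
  obtain ⟨Wd⟩ := LevelRaise.exists_wData hS.prime (St.q_not_dvd hS)
  obtain ⟨m, hm⟩ := Sys.exists_pow_raise_kills (ht.isCond _ _) (Dat := St.D)
    Semistable.newformSpecialCharpoly_holds Wd (hχ := St.χ_surjective hS)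
    (hM'N := dvd_mul_left St.prodQ N₀) (χ' := St.χQ)
    (MonoidHom.snd (Multiplicative (ZMod p)) (Main.TWGrp p r n)) (dvd_mul_left St.prodQ q)
    (MonoidHom.ext fun v => by
      rw [MonoidHom.comp_apply, St.χ_apply hS]; rfl)
    (fun i h => i.2.2 (by rw [show i.1 = q from h]; exact St.mem_exc_of_dvd hS hS.prime (dvd_mul_left q N₀)))
    (St.nonEis_a' hS) (Sys.squarefree_prod_primes St.qv_prime St.inj)
    (fun l hl _ h => hl.not_isUnit (St.squarefree_lvl hS l
      (by rw [← pow_two]; exact h.trans (dvd_mul_right _ q))))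
    F.mem_p hS.ne_p h0 B
    (S₁ := S₁) (S₁' := S₁)
    (fun i hd => ((i.2.1).dvd_mul.mp hd).resolve_left fun h =>
      i.2.2 (by rw [(Nat.prime_dvd_prime_iff_eq i.2.1 hS.prime).mp h]; exact St.mem_exc_of_dvd hS hS.prime (dvd_mul_left q N₀)))
    (fun l hl hd => Finset.mem_union_left _ (St.mem_of_dvd hS hl (hd.trans (St.dvd_lvl hS))))
    hφ hφ' (Pl.P hS.idx) (Pl.liesOver hS.idx) (Pl.φ hS.idx) (Pl.frob hS.idx)
  choose t ht' using St.exists_dia_rel hS B ht φ hφ
  refine ⟨{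
    𝒟 := _
    isCond := ht.isCond _ _
    Dat := St.D
    γ := St.γ
    a := St.a'
    M := q * St.prodQ
    χ := St.χ hS
    surj := St.χ_surjective hS
    N := St.lvl
    dvd := St.dvd_lvl hS
    basis := B
    φ := φ
    equiv := fun x => hφ.mem_equivEnd (ht.isCond _ _) B x
    det_phi := fun i => by
      rw [show (fun k => St.γ (locCoord i k)) = (St.C i).v from funext (St.γ_coord i)]
      exact (St.C i).det_phi
    comm := fun i => by
      rw [show (fun k => St.γ (locCoord i k)) = (St.C i).v from funext (St.γ_coord i)]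
      exact (St.C i).comm
    det_s := fun i => by
      rw [show (fun k => St.γ (locCoord i k)) = (St.C i).v from funext (St.γ_coord i)]
      exact (St.C i).det_s
    norm := fun i => by
      rw [show (fun k => St.γ (locCoord i k)) = (St.C i).v from funext (St.γ_coord i)]
      exact (St.C i).isNorm
    trace := fun i hi => by
      rw [St.γ_traceFactor, St.trace_tau i fun e => hi (Subtype.ext e), map_ofNat]
    inertia := ?_
    kills := ⟨m, ?_⟩
    t := t
    dia_rel := ht' }⟩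
  · rw [map_prod]
    convert hin B φ hφ using 4 with x _
    rw [map_sub, AlgHom.commutes, trace_fin_two, map_add, ← Matrix.map_apply (f := St.γ),
      ← Matrix.map_apply (f := St.γ), sMat_map, ← trace_fin_two, St.γ_traceFactor]
  · intro v
    rw [Sys.gamma_raisingElt St.equiv (Pl.q_eq hS.idx) (St.C hS.idx) St.γ (St.γ_coord hS.idx)]
    exact hm v

end LowStage

end FLTAgent.RT.Lower
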