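import Fermat.Agent.RT.Lower.Frame
import Fermat.Agent.RT.Main.InputsStrict
import Fermat.Agent.RT.AtP.NotFlat
import Fermat.Agent.RT.ShellEnd

/-!
# The condition at `p` for lowering

At levels prime to `p` it is flatness, at levels divisible by `p`, where `E[p]` is not peu
ramifiée, strict ordinarity.
-/

set_option autoImplicit false
set_option linter.unusedSectionVars false

noncomputable section

open IsLocalRing Matrix Polynomial WeierstrassCurve FLTAgent.Deformation FLTAgent.TW
  FLTAgent.RTIrr FLTAgent.RT.Main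

namespace FLTAgent.RT.Lower

attribute [local instance] dualAlg

local notation "Γℚ" => AlgebraicClosure ℚ ≃ₐ[ℚ] AlgebraicClosure ℚ

variable {𝒪 : Type} [CommRing 𝒪] [IsDomain 𝒪] [IsDiscreteValuationRing 𝒪]
  [IsAdicComplete (maximalIdeal 𝒪) 𝒪] [Finite (ResidueField 𝒪)] [CharZero 𝒪]
  {W : WeierstrassCurve ℤ} {p : ℕ} [Fact p.Prime] {aux : Finset ℕ}

/-- **A condition at `p` for lowering at level `N`.** -/
theorem exists_lowerLoc (F : Main.Frame 𝒪 W p freeAt aux) {N : ℕ}
    (hpN : p ∣ N → (p : ℤ) ∣ W.Δ ∧ ¬ (W.map (Int.castRingHom ℚ)).IsPeuRamifieeAt p p) :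
    ∃ loc : PCond, IsLocalType 𝒪 p loc ∧ LowMax F loc N ∧
      ∀ P : ValuationSubring (AlgebraicClosure ℚ), P.LiesOverPrime p →
        ∃ S : Submodule (ResidueField 𝒪) (P.decompositionSubgroup ℚ → Mat (ResidueField 𝒪)),
          adB1 (barMatrix F.rb) (P.decompositionSubgroup ℚ) ≤ S ∧
          S ≤ adZ1 (barMatrix F.rb) (P.decompositionSubgroup ℚ) ∧
          Module.Finite (ResidueField 𝒪) S ∧ Module.finrank (ResidueField 𝒪) S ≤ 4 ∧
          ∀ (N : Gal →* Mat (DualNumber (ResidueField 𝒪))) (hN : MatCont N),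
            (∀ σ, (N σ).map TrivSqZeroExt.fst = barMatrix F.rb σ) →
            (∀ σ, Matrix.trace (liftCocycle (barMatrix F.rb) N σ) = 0) →
            loc (matRep N hN) →
            (fun g : P.decompositionSubgroup ℚ => liftCocycle (barMatrix F.rb) N g) ∈ S := by
  have hcp : CharP (ResidueField 𝒪) p := charP_of_injective_ringHom (resHom F.mem_p).injective p
  by_cases hp : p ∣ N
  · obtain ⟨hbad, hpeu⟩ := hpN hp
    obtain ⟨ψ⟩ := GalRep.exists_padicHom p 𝒪 F.mem_p
    have hres : (GaloisRepAdic.ofResidualGaloisRep (rbar p F.disc_ne F.mem_p)).IsStrictOrdinaryAt p :=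
      (cond_rbar (𝒟 := problem 𝒪 p (strictAt p) (badSet W p) (badSet W p)) F.disc_ne F.mem_p ψ
        ((isLocalType_strict 𝒪 F.ne_two F.mem_p).isCond (badSet W p) (badSet W p)) fun g hN =>
          Tate.strictProblem_matRep F.disc_ne p ψ F.mem_p F.semistable F.ne_two hbad _ _
            fun q hq hqS => good_of_notMem_badSet F.disc_ne hq hqS).1.2.1
    let F' : Main.Frame 𝒪 W p (strictAt p) aux :=
      ⟨F.disc_ne, F.ne_two, F.mem_p, F.semistable, F.irr, F.quad,
        isLocalType_strict 𝒪 F.ne_two F.mem_p, hres, F.aux_ok⟩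
    refine ⟨strictAt p, isLocalType_strict 𝒪 F.ne_two F.mem_p, ?_, fun P hP =>
      TW.strictOrdinary_cocycle_bound F.ne_two (barMatrix F.rb) F.residualHyp.level
        F.residualHyp.det P hP⟩
    intro N' _ S b hS hpS hiff hp2 H
    exact locMax_strict F' hp
      (not_isFlatAt_rbar_of_not_peu F.disc_ne F.mem_p F.ne_two F.semistable hpeu)
      b hS hpS hiff hp2 H
  · refine ⟨flatAt p, isLocalType_flat 𝒪 F.mem_p, ?_, fun P hP =>
      TW.flat_cocycle_bound F.ne_two (barMatrix F.rb) F.residualHyp.level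
        (fun σ => by
          rw [TW.charpoly_barMatrix]; exact rbar_hsplit p F.disc_ne F.mem_p F.quad σ)
        F.residualHyp.det P hP⟩
    intro N' _ S b hS _ hiff _ H
    exact FlatModel.isFlatAt_of_specializations GalRep.specializationsExist
      (fun h => hp (hiff.mp h)) hS F.mem_p H.H

end FLTAgent.RT.Lower
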