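import Fermat.Agent.RT.Lower.Setup
import Fermat.Agent.RT.Lower.Family
import Fermat.Agent.RT.Lower.Coeff
import Fermat.Agent.RT.Lower.InertiaUse
import Fermat.Agent.RT.Lower.LocMax

/-!
# Lowering at scalar primes

A smallest residual level of a semistable curve with irreducible `E[p]`, `p` odd, has no scalar
prime other than `p`.
-/

set_option autoImplicit false

noncomputable section

open IsLocalRing WeierstrassCurve FLTAgent.GalRep

namespace FLTAgent.RT.Lower

/-- **Lowering at scalar primes.** -/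
theorem scalarLoweringAt (W : WeierstrassCurve ℤ) (p : ℕ) : ScalarLoweringAt W p := by
  intro _ hΔ hss hp2 hirr N q hN hsq hpN hq hqp hqN hsc _ hmin hraise hmod
  have hp : p.Prime := Fact.out
  have hpq : p ∣ q - 1 := by
    have h := hsc.1
    rw [← Nat.cast_one, ZMod.natCast_eq_natCast_iff] at h
    exact (Nat.modEq_iff_dvd' hq.one_lt.le).mp h.symm
  have hq0 : q - 1 ≠ 0 := by have := hq.one_lt; omega
  obtain ⟨k, hk⟩ := Nat.exists_eq_add_one_of_ne_zero
    (n := padicValNat p (q - 1)) (Nat.one_le_iff_ne_zero.mp (one_le_padicValNat_of_dvd hq0 hpq))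
  obtain ⟨O, _, _, _, _, _, _, hpO, ⟨z, hz⟩, hquad⟩ :=
    exists_coeff_roots p (k + 1) k.succ_ne_zero
  obtain ⟨aux, F, haux⟩ := exists_lowFrame O hΔ hp2 hpO hss hirr hquad hN
  obtain ⟨M, hM⟩ := hqN
  rw [mul_comm] at hM
  have hS := setup_of_minimal F hM rfl haux hsq hq hqp hsc hmin hraise hmod
  obtain ⟨loc, ht, hmax, hCp⟩ := exists_lowerLoc F (N := M * (∏ l ∈ aux, l) * q) fun h =>
    hpN ((p_dvd_iff_of_aux F hM rfl).mp h)
  exact hS.false_of_inertiaRel ht hmax hCp (hk ▸ pow_padicValNat_dvd) hz fun St =>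
    St.inertiaRel hS ht hk.le hz (exists_mem_lowRoots hz)

end FLTAgent.RT.Lower
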