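import Fermat.Agent.RT.Lower.Unramified
import Fermat.Agent.RT.Lower.Main
import Fermat.Agent.Wiring.LevelLowering
import Fermat.Agent.MazurP.LowerGeneral

/-!
# Ribet's level lowering for semistable curves

A prime other than `p` at which `E[p]` is unramified leaves a squarefree residual level.
-/

set_option autoImplicit false
set_option linter.style.haveILetI false

noncomputable section

open WeierstrassCurve IsLocalRing
open scoped WeierstrassCurve.Affine

namespace FLTAgent.RT.Lower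

variable {W : WeierstrassCurve ℤ} {p : ℕ} [Fact p.Prime]

/-- **Ribet's level lowering.** -/
theorem isResiduallyModularOfLevel_div_of_unramified (hp2 : p ≠ 2) (hΔ : W.Δ ≠ 0)
    (hss : W.IsSemistableModel) (hirr : W.ModRepIsIrreducible p) {M q : ℕ} (hq : q.Prime)
    (hqp : q ≠ p) (hqM : q ∣ M) (hsq : Squarefree M)
    (hunr : Affine.Point.GaloisRepUnramifiedAt (K := AlgebraicClosure ℚ) ℚ
      (W.map (Int.castRingHom ℚ)) p q)
    (hmod : W.IsResiduallyModularOfLevel p M) : W.IsResiduallyModularOfLevel p (M / q) := by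
  classical
  have hp : p.Prime := Fact.out
  have h39 := MazurP.lowerAtPAt hp2 hΔ hss hirr
  have hM0 : 0 < M := Nat.pos_of_ne_zero hsq.ne_zero
  have : NeZero M := ⟨hM0.ne'⟩
  have hL0 : 0 < Nat.lcm 2 M := Nat.pos_of_ne_zero (Nat.lcm_ne_zero two_ne_zero hsq.ne_zero)
  have hsq2 : Squarefree (Nat.lcm 2 M) := by
    refine (Nat.squarefree_iff_factorization_le_one hL0.ne').2 fun l => ?_
    rw [Nat.factorization_lcm two_ne_zero hsq.ne_zero, Finsupp.sup_apply]
    exact sup_le (Nat.prime_two.squarefree.natFactorization_le_one l)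
      (hsq.natFactorization_le_one l)
  have : NeZero (Nat.lcm 2 M) := ⟨hL0.ne'⟩
  have hex : ∃ N : ℕ, N ∣ Nat.lcm 2 M ∧ W.IsResiduallyModularOfLevel p N :=
    ⟨Nat.lcm 2 M, dvd_rfl,
      LevelLower.Endgame.isResiduallyModularOfLevel_mono (Nat.dvd_lcm_right 2 M) hmod⟩
  obtain ⟨hNM, hN⟩ := Nat.find_spec hex
  have hsqN := hsq2.squarefree_of_dvd hNM
  have hNpos : 0 < Nat.find hex := Nat.pos_of_dvd_of_pos hNM hL0
  have hmin : ∀ N', N' ∣ Nat.find hex → N' ≠ Nat.find hex →
      ¬ W.IsResiduallyModularOfLevel p N' := fun N' h hne h' =>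
    hne (le_antisymm (Nat.le_of_dvd hNpos h) (Nat.find_min' hex ⟨h.trans hNM, h'⟩))
  have hpN : p ∣ Nat.find hex → ¬ (W.map (Int.castRingHom ℚ)).IsPeuRamifieeAt p p := by
    intro hd hpeu
    have h := h39 _ hsqN hd hpeu hN
    have hdiv : Nat.lcm 2 (Nat.find hex / p) ∣ Nat.lcm 2 M :=
      Nat.lcm_dvd (Nat.dvd_lcm_left 2 M) ((Nat.div_dvd_of_dvd hd).trans hNM)
    have h1 : Nat.find hex ≤ Nat.lcm 2 (Nat.find hex / p) := Nat.find_min' hex ⟨hdiv, h⟩
    have hq0 : 0 < Nat.find hex / p := Nat.div_pos (Nat.le_of_dvd hNpos hd) hp.pos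
    have h2 : Nat.lcm 2 (Nat.find hex / p) ≤ 2 * (Nat.find hex / p) :=
      Nat.le_of_dvd (Nat.mul_pos two_pos hq0) (Nat.lcm_dvd_mul _ _)
    have h3 : p * (Nat.find hex / p) = Nat.find hex := Nat.mul_div_cancel' hd
    have : 2 < p := lt_of_le_of_ne hp.two_le (Ne.symm hp2)
    nlinarith
  have key : ∀ l : ℕ, l.Prime → l ≠ p → Affine.Point.GaloisRepUnramifiedAt
      (K := AlgebraicClosure ℚ) ℚ (W.map (Int.castRingHom ℚ)) p l → ¬ l ∣ Nat.find hex :=
    fun l hl hlp hu => not_dvd_of_minimalLevel Semistable.newformSpecialCharpoly_holds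
      Wiring.mazurPrincipleExt_holds (scalarLoweringAt W p) hΔ hss hp2 hirr hsqN hpN hmin hN hl
      hlp hu
  -- the prime `2` outside the level is unramified
  obtain ⟨O, _, _, _, _, _, _, hpO, -, hquad⟩ := exists_coeff p
  let F : Main.Frame O W p Main.freeAt ∅ :=
    ⟨hΔ, hp2, hpO, hss, hirr, hquad, Main.isLocalType_free hpO, trivial,
      fun l hl => absurd hl (Finset.notMem_empty l)⟩
  have hNdvd : Nat.find hex ∣ M := by
    refine (Nat.prod_primeFactors_of_squarefree hsqN).symm.dvd.trans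
      (Dvd.dvd.trans (Finset.prod_dvd_prod_of_subset _ _ _ fun l hl => ?_)
        (Nat.prod_primeFactors_of_squarefree hsq).dvd)
    obtain ⟨hlP, hlN, -⟩ := Nat.mem_primeFactors.1 hl
    refine Nat.mem_primeFactors.2 ⟨hlP, ?_, hM0.ne'⟩
    rcases hlP.dvd_mul.1 ((hlN.trans hNM).trans (Nat.lcm_dvd_mul 2 M)) with h | h
    · by_contra hlM
      have h2 : l = 2 := (Nat.prime_dvd_prime_iff_eq hlP Nat.prime_two).1 h
      exact key l hlP (h2 ▸ Ne.symm hp2)
        (isUnramifiedAt_of_modular F hmod hlP (h2 ▸ Ne.symm hp2) hlM) hlN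
    · exact h
  have : NeZero (M / q) := ⟨(Nat.div_pos (Nat.le_of_dvd hM0 hqM) hq.pos).ne'⟩
  refine LevelLower.Endgame.isResiduallyModularOfLevel_mono (Nat.Coprime.dvd_of_dvd_mul_left
    ((hq.coprime_iff_not_dvd.2 (key q hq hqp hunr)).symm) ?_) hN
  rw [Nat.mul_div_cancel' hqM]
  exact hNdvd

end FLTAgent.RT.Lower
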