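import Fermat.Agent.RT.Lower.Frame
import Fermat.Agent.RT.Setting.Dict
import Fermat.Agent.RT.Setting.Coeff
import Fermat.Agent.RT.Irr.Residual

/-!
# The base level of lowering

A smallest residual level with a scalar prime `q`, times an auxiliary prime when `p = 3`, has a
non-zero part at the system of the curve, and none without `q`.
-/

set_option autoImplicit false
set_option linter.unusedSectionVars false

noncomputable section

open IsLocalRing Matrix Polynomial WeierstrassCurve FLTAgent.Deformation FLTAgent.GalRep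
  FLTAgent.RT.Main

namespace FLTAgent.RT.Lower

variable (𝒪 : Type) [CommRing 𝒪] [IsDomain 𝒪] [IsDiscreteValuationRing 𝒪]
  [IsAdicComplete (maximalIdeal 𝒪) 𝒪] [Finite (ResidueField 𝒪)] [CharZero 𝒪]
  {W : WeierstrassCurve ℤ} {p : ℕ} [Fact p.Prime]

/-- The auxiliary primes of lowering at `N`. -/
theorem exists_lowFrame (hΔ : W.Δ ≠ 0) (hp2 : p ≠ 2) (hp : (p : 𝒪) ∈ maximalIdeal 𝒪)
    (hss : W.IsSemistableModel) (hirr : W.ModRepIsIrreducible p)
    (hquad : ∀ (φ : ZMod p →+* ResidueField 𝒪) (b c : ZMod p), ∃ α β : ResidueField 𝒪,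
      X ^ 2 + C (φ b) * X + C (φ c) = (X - C α) * (X - C β)) {N : ℕ} (hN : 0 < N) :
    ∃ aux : Finset ℕ, Main.Frame 𝒪 W p freeAt aux ∧
      ((p ≠ 3 ∧ aux = ∅) ∨ (p = 3 ∧ ∃ r, aux = {r} ∧ ¬ r ∣ N ∧ r % 3 = 2)) := by
  rcases eq_or_ne p 3 with rfl | hp3
  · obtain ⟨r, hr, hrS, hgood, hmod, hat⟩ :=
      RTIrr.exists_auxiliary_prime_three hΔ hss hirr (insert 3 N.primeFactors)
    simp only [Finset.mem_insert, Nat.mem_primeFactors, not_or] at hrS
    refine ⟨{r}, ⟨hΔ, hp2, hp, hss, hirr, hquad, isLocalType_free hp, trivial, fun l hl => ?_⟩,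
      Or.inr ⟨rfl, r, rfl, fun h => hrS.2 ⟨hr, h, hN.ne'⟩, hmod⟩⟩
    rw [Finset.mem_singleton] at hl
    subst hl
    refine ⟨hr, hgood, hrS.1, ?_, by exact_mod_cast hat⟩
    obtain ⟨c, hc⟩ : 3 ∣ l + 1 := by omega
    rw [← Nat.cast_one (R := 𝒪), ← Nat.cast_add, hc, Nat.cast_mul]
    exact Ideal.mul_mem_right _ _ hp
  · exact ⟨∅, ⟨hΔ, hp2, hp, hss, hirr, hquad, isLocalType_free hp, trivial,
      fun l hl => absurd hl (Finset.notMem_empty l)⟩, Or.inl ⟨hp3, rfl⟩⟩

variable {𝒪} {aux : Finset ℕ} (F : Main.Frame 𝒪 W p freeAt aux)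

include F in
/-- The part at a level over a residual level is non-zero. -/
theorem part_ne_bot_of_modular {N L : ℕ} [NeZero L] (hd : N ∣ L)
    (hmod : W.IsResiduallyModularOfLevel p N) :
    cohPart trivChar (one_dvd L)
      (prime_famPrime (W := W) (p := p) (aux := lowAux aux L)) (famCoeff 𝒪) ≠ ⊥ := by
  have : NeZero N := ⟨ne_zero_of_dvd_ne_zero (NeZero.ne L) hd⟩
  have hfam : ∀ i : Fam W p (lowAux aux L), ¬ famPrime i ∣ L := fun i h =>
    i.2.2 (Finset.mem_union_right _ (Finset.mem_union_right _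
      (Nat.mem_primeFactors.mpr ⟨i.2.1, h, NeZero.ne L⟩)))
  refine cohPart_ne_bot_of_dvd (one_dvd _) hd prime_famPrime _ (fun i h => absurd h (hfam i)) ?_
  refine cohPart_ne_bot_of_isResiduallyModularOfLevel F.mem_p F.ne_two hmod prime_famPrime _
    fun i => ⟨fun h => hfam i (h.trans hd), ?_, ?_, rfl⟩
  · exact (F.good_of_notMem i.2.1 fun h => i.2.2 (Finset.mem_union_left _ h)).1
  · exact (F.good_of_notMem i.2.1 fun h => i.2.2 (Finset.mem_union_left _ h)).2

include F in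
/-- A level which is not residual has no part. -/
theorem part_eq_bot_of_not_modular {M L : ℕ} [NeZero M]
    (hmod : ¬ W.IsResiduallyModularOfLevel p M) :
    cohPart trivChar (one_dvd M)
      (prime_famPrime (W := W) (p := p) (aux := lowAux aux L)) (famCoeff 𝒪) = ⊥ := by
  by_contra h
  exact hmod (isResiduallyModularOfLevel_of_cohPart_ne_bot F.mem_p F.disc_ne F.ne_two F.irr
    (one_dvd M) squarefree_one (fun r hr h1 => absurd (Nat.dvd_one.mp h1) hr.ne_one)
    (mul_one M).symm _ (sysLow F L) prime_famPrime h)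

/-- **The base level of lowering.** -/
theorem setup_of_minimal {N M q A : ℕ} (hN : N = M * q) (hA : A = ∏ l ∈ aux, l)
    (haux : (p ≠ 3 ∧ aux = ∅) ∨ (p = 3 ∧ ∃ r, aux = {r} ∧ ¬ r ∣ N ∧ r % 3 = 2))
    (hsq : Squarefree N) (hq : q.Prime) (hqp : q ≠ p)
    (hsc : LevelLower.Endgame.IsScalarPrime F.disc_ne p q)
    (hmin : ∀ M : ℕ, M ∣ N → M ≠ N → ¬ W.IsResiduallyModularOfLevel p M)
    (hraise : ∀ r : ℕ, r.Prime → W.IsGoodPrimeFor r → r ≠ p → ¬ r ∣ N → (r : ZMod p) = -1 →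
      (W.apOfModel r : ZMod p) ≠ 0 →
      ∀ M : ℕ, M ∣ N → M ≠ N → ¬ W.IsResiduallyModularOfLevel p (M * r))
    (hmod : W.IsResiduallyModularOfLevel p N) : Setup F (M * A) q := by
  have hMq : ¬ q ∣ M := fun h => hq.not_isUnit (hsq q (hN ▸ mul_dvd_mul_right h q))
  have hMN : M ∣ N := hN ▸ dvd_mul_right M q
  have hne : M ≠ N := fun h => hMq (h ▸ hN ▸ dvd_mul_left q M)
  have hM0 : M ≠ 0 := ne_zero_of_dvd_ne_zero hsq.ne_zero hMN
  -- what the auxiliary primes give
  have key : Squarefree A ∧ A.Coprime N ∧ q ∉ aux ∧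
      ¬ W.IsResiduallyModularOfLevel p (M * A) ∧ (p ≠ 3 ∨ ModularCurve.nuThree (M * A) = 0) := by
    rcases haux with ⟨hp3, rfl⟩ | ⟨hp3, r, rfl, hrN, hr3⟩
    · rw [Finset.prod_empty] at hA
      subst hA
      exact ⟨squarefree_one, Nat.coprime_one_left N, Finset.notMem_empty q,
        by rw [mul_one]; exact hmin M hMN hne, Or.inl hp3⟩
    · rw [Finset.prod_singleton] at hA
      subst hA
      obtain ⟨hr, hgood, hrp, -, hat⟩ := F.aux_ok A (Finset.mem_singleton_self A)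
      refine ⟨hr.squarefree, hr.coprime_iff_not_dvd.mpr hrN, fun h => hrN ?_, ?_, Or.inr ?_⟩
      · rw [← Finset.mem_singleton.mp h, hN]; exact dvd_mul_left q M
      · refine hraise A hr hgood hrp hrN ?_ ?_ M hMN hne
        · rw [eq_neg_iff_add_eq_zero, ← Nat.cast_one (R := ZMod p), ← Nat.cast_add,
            ZMod.natCast_eq_zero_iff, hp3]
          omega
        · rw [ne_eq, ZMod.intCast_zmod_eq_zero_iff_dvd]
          exact hat
      · exact nuThree_eq_zero_of_dvd hr hr3 (dvd_mul_left A M)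
  obtain ⟨hA1, hA2, hqa, hnot, h3⟩ := key
  have hA0 : A ≠ 0 := hA1.ne_zero
  have hlev : M * A * q = N * A := by rw [hN]; ring
  refine ⟨hlev ▸ (Nat.squarefree_mul hA2.symm).mpr ⟨hsq, hA1⟩, hq, hqp, hqa, hsc, h3, ?_, ?_⟩
  · intro _
    exact part_ne_bot_of_modular F (hlev ▸ dvd_mul_right N A) hmod
  · intro _
    exact part_eq_bot_of_not_modular F hnot

include F in
theorem p_dvd_iff_of_aux {N M q A : ℕ} (hN : N = M * q) (hA : A = ∏ l ∈ aux, l) :
    p ∣ M * A * q ↔ p ∣ N := by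
  have hpA : ¬ p ∣ A := fun h => by
    rw [hA] at h
    obtain ⟨l, hl, hpl⟩ := (Fact.out : p.Prime).prime.exists_mem_finset_dvd h
    exact (F.aux_ok l hl).2.2.1
      ((Nat.prime_dvd_prime_iff_eq Fact.out (F.aux_ok l hl).1).mp hpl).symm
  rw [hN, show M * A * q = M * q * A by ring, (Fact.out : p.Prime).dvd_mul (n := A)]
  exact or_iff_left hpA

end FLTAgent.RT.Lower
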