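import Fermat.Agent.RT.Lower.Frame
import Fermat.Agent.RT.Selmer.Bound

/-!
# The stages of lowering

For every `n` Taylor–Wiles primes, the deformation ring of that level with inertia unipotent at all
primes of the level but `q`, and a surjection onto it from the power series in its coordinates.
-/

set_option autoImplicit false
set_option linter.unusedSectionVars false

noncomputable section

open IsLocalRing Matrix Polynomial WeierstrassCurve FLTAgent.Deformation FLTAgent.TW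
  FLTAgent.RTIrr FLTAgent.RT.Main

namespace FLTAgent.RT.Lower

attribute [local instance] dualAlg

variable {𝒪 : Type} [CommRing 𝒪] [IsDomain 𝒪] [IsDiscreteValuationRing 𝒪]
  [IsAdicComplete (maximalIdeal 𝒪) 𝒪] [Finite (ResidueField 𝒪)] [CharZero 𝒪]
  {W : WeierstrassCurve ℤ} {p : ℕ} [Fact p.Prime] {aux : Finset ℕ}
  (F : Main.Frame 𝒪 W p freeAt aux)

/-- The primes at which inertia is asked to be unipotent. -/
abbrev lowT (N q : ℕ) : Finset ℕ := (ramSet F N).erase q

/-- **One stage of lowering at `q`.** -/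
structure LowStage (loc : PCond) (N q : ℕ) (Pl : LocPlaces F (fun i : LocIdx F N => i.1))
    (g r n : ℕ) : Type 1 where
  qv : Fin r → ℕ
  inj : Function.Injective qv
  spec : ∀ j, (qv j).Prime ∧ qv j ∉ excSet W p (lowAux aux N) ∧ p ^ (n + 1) ∣ qv j - 1
  a' : Fam W p (lowAux aux N) → 𝒪
  tw : Sys.TWPrimes N famPrime (famCoeff 𝒪) a' (Finset.univ.image qv)
  D : LowData F loc (ramSet F N ∪ Finset.univ.image qv) (lowT F N q)
  M : Gal →* Mat D.R
  hM : MatCont M
  equiv : D.ρ.IsEquiv (matRep M hM)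
  C : ∀ i, Gen.LocalCoord (Pl.Ds i) M (Pl.P i) (Pl.φ i)
  γ : MvPowerSeries (LocVar (LocIdx F N) (Empty ⊕ Fin g)) 𝒪 →ₐ[𝒪] D.R
  surj : Function.Surjective γ
  γ_coord : ∀ i k, γ (locCoord i k) = (C i).v k

/-- **The stages of lowering exist.** -/
theorem exists_lowStages {loc : PCond} (ht : IsLocalType 𝒪 p loc)
    (hres : loc (GaloisRepAdic.ofResidualGaloisRep F.rb))
    (hCp : ∀ P : ValuationSubring (AlgebraicClosure ℚ), P.LiesOverPrime p →
      ∃ S : Submodule (ResidueField 𝒪) (P.decompositionSubgroup ℚ → Mat (ResidueField 𝒪)),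
        adB1 (barMatrix F.rb) (P.decompositionSubgroup ℚ) ≤ S ∧
        S ≤ adZ1 (barMatrix F.rb) (P.decompositionSubgroup ℚ) ∧
        Module.Finite (ResidueField 𝒪) S ∧ Module.finrank (ResidueField 𝒪) S ≤ 4 ∧
        ∀ (N : Gal →* Mat (DualNumber (ResidueField 𝒪))) (hN : MatCont N),
          (∀ σ, (N σ).map TrivSqZeroExt.fst = barMatrix F.rb σ) →
          (∀ σ, Matrix.trace (liftCocycle (barMatrix F.rb) N σ) = 0) →
          loc (matRep N hN) →
          (fun g : P.decompositionSubgroup ℚ => liftCocycle (barMatrix F.rb) N g) ∈ S)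
    {N₀ q : ℕ} (hS : Setup F N₀ q) (Pl : LocPlaces F (fun i : LocIdx F (N₀ * q) => i.1)) :
    ∃ r g : ℕ, g + ∑ i, (Pl.Ds i).h0 ≤ r ∧
      ∀ n : ℕ, Nonempty (LowStage F loc (N₀ * q) q Pl g r n) := by
  classical
  have : CharP (ResidueField 𝒪) p := charP_of_injective_ringHom (resHom F.mem_p).injective p
  have hN0 : N₀ * q ≠ 0 := hS.sq.ne_zero
  obtain ⟨r, g, hle, hn⟩ := exists_twPrimes_locVar F.ne_two F.residualHyp
    (RT.selmerAddBound F.ne_two _)
    (not_hasStableLine_algebraicClosure F.rb F.absIrr)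
    (fun l hl hlp => (mem_minSet_iff p F.disc_ne F.mem_p
      (prime_of_mem_minSet p F.disc_ne F.mem_p l hl) hlp).mp hl)
    (fun ρ => loc ρ) 0 (by simpa using hCp) (qs := fun i : LocIdx F (N₀ * q) => i.1)
    Subtype.val_injective (fun i => ⟨(locIdx_spec F i).1, (locIdx_spec F i).2.2.1⟩) Pl.P Pl.liesOver
    Pl.φ Pl.frob Pl.Ds Pl.base (excSet W p (lowAux aux (N₀ * q)))
  refine ⟨r, g, by simpa using hle, fun n => ?_⟩
  obtain ⟨qv, hinj, hqv, hsplit, hgen⟩ := hn n
  obtain ⟨a', htw⟩ := exists_twSystem F.disc_ne p F.mem_p (S₁ := excSet W p (lowAux aux (N₀ * q)))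
    (fun ℓ hℓ h => (F.good_of_notMem hℓ fun h' => h (Finset.mem_union_left _ h')).1)
    (N := (N₀ * q))
    (fun l hl hd => Finset.mem_union_right _
      (Finset.mem_union_right _ (Nat.mem_primeFactors.mpr ⟨hl, hd, hN0⟩)))
    (Finset.univ.image qv) fun l hl => by
      obtain ⟨j, -, rfl⟩ := Finset.mem_image.mp hl
      exact ⟨(hqv j).1, (hqv j).2.1,
        (dvd_pow_self p n.succ_ne_zero).trans (hqv j).2.2.2.2, fun P hP φ hφ => hsplit j P hP φ hφ⟩
  set S := ramSet F (N₀ * q) ∪ Finset.univ.image qv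
  obtain ⟨D⟩ := nonempty_lowData F ht hres (S := S)
    (Finset.subset_union_left.trans Finset.subset_union_left) (lowT F (N₀ * q) q)
  obtain ⟨M, hM, hl, he⟩ := exists_isLift_of_residual_isEquiv (isCoeff_deformationRing D) D.ρ
    (fun _ => rfl) D.residual_isEquiv
  have hC : ∀ i, Nonempty (Gen.LocalCoord (Pl.Ds i) M (Pl.P i) (Pl.φ i)) := fun i => by
    obtain ⟨hq, -, hqS, -, hqp, -⟩ := locIdx_spec F i
    refine Gen.exists_localCoord (p := p) (isCoeff_deformationRing D)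
      (RTCond.natCast_mem_maximalIdeal F.mem_p (isCoeff_deformationRing D)) hq hqp (Pl.liesOver i)
      (Pl.frob i) (Pl.Ds i) (Pl.q_eq i) (rb := barMatrix F.rb) (Pl.base i)
      (fun σ hσ => F.residualHyp.unramified _ hq hqS _ (Pl.liesOver i) σ hσ) hM hl
      fun k σ a ha => ?_
    rw [det_of_isEquiv he]
    exact D.isOfType.1.1.2 k σ a ha
  let C := fun i => (hC i).some
  obtain ⟨γ, hγ, hγC, -⟩ := hgen (ht.isCond S (lowT F (N₀ * q) q))
    (fun ρ hρ => ⟨hρ.1.1, fun l hl hlm hls hlQ => hρ.1.2.2 l hl fun h =>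
        (Finset.mem_union.mp h).elim
          (fun hb => (Finset.mem_union.mp hb).elim hlm fun hb' =>
            hls ⟨l, Finset.mem_sdiff.mpr ⟨(Finset.mem_sdiff.mp hb').1,
              Finset.notMem_union.mpr ⟨hlm, (Finset.mem_sdiff.mp hb').2⟩⟩⟩ rfl) hlQ,
      fun l hl hlP hlp => hρ.2 l (Finset.mem_erase.mpr
        ⟨fun e => hS.notMem_minS (e ▸ hl), Finset.mem_union_left _ hl⟩) hlP hlp⟩)
    D he C (κ := Empty) (fun j => j.elim) (fun j => j.elim)
    (fun f hf Nm hNm _ _ hD => hD.1.2.1)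
  exact ⟨⟨qv, hinj, fun j => ⟨(hqv j).1, (hqv j).2.1, (hqv j).2.2.2.2⟩, a', htw, D, M, hM, he, C,
    γ, hγ, hγC⟩⟩

end FLTAgent.RT.Lower
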