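import Fermat.Agent.RT.Coh.Twist

/-!
# Sums of the twist over the two transfers of the prime of the twist

For a class killed by the sum of the diamonds at `q`, the sums of the twist over the lower unipotent
and over the upper triangular representatives of determinant `q` vanish on deep elements.
-/

set_option autoImplicit false
set_option linter.unusedSectionVars false

noncomputable section

namespace FLTAgent.RT

open LevelRaise CongruenceSubgroup
open scoped MatrixGroups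

variable {q M₂ L : ℕ} {D : Type*} [CommGroup D] [Fact (Odd (Nat.card D))]
  {ψ : (ZMod q)ˣ →* D} {χ' : (ZMod M₂)ˣ →* D} {R : Type*} [CommRing R]
  {A : Type*} [AddCommGroup A] [Module R A] [NeZero (L * q)] [NeZero (L * q ^ 2)]

/-- The lower unipotent representatives. -/
def lowRep (q L : ℕ) (j : ZMod q) : Matrix (Fin 2) (Fin 2) ℤ :=
  !![1, 0; ((L * q : ℕ) : ℤ) * (j.val : ℤ), 1]

/-- The upper triangular representatives of determinant `q`. -/
def upRep (q : ℕ) (j : ZMod q) : Matrix (Fin 2) (Fin 2) ℤ :=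
  !![1, (j.val : ℤ); 0, (q : ℤ)]

theorem det_lowRep (q L : ℕ) (j : ZMod q) : (lowRep q L j).det = (q : ℤ) ^ 0 := by
  simp [lowRep, Matrix.det_fin_two_of]

theorem det_upRep (q : ℕ) (j : ZMod q) : (upRep q j).det = (q : ℤ) ^ 1 := by
  simp [upRep, Matrix.det_fin_two_of]

theorem exists_deepConj (hq : q ≠ 0) {k m : ℕ} {X : Matrix (Fin 2) (Fin 2) ℤ}
    (hX : X.det = (q : ℤ) ^ m) {γ : SL(2, ℤ)} (hγ : IsDeep q L (k + m) γ) :
    ∃ δ : SL(2, ℤ), IsDeep q L k δ ∧ X * matSL γ = matSL δ * X := by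
  obtain ⟨E, hE⟩ := hγ
  have hd : X.det ≠ 0 := by rw [hX]; exact pow_ne_zero _ (Nat.cast_ne_zero.mpr hq)
  set Z : Matrix (Fin 2) (Fin 2) ℤ := 1 + ((L * q ^ k : ℕ) : ℤ) • (X * E * X.adjugate)
  have hZ : X * matSL γ = Z * X := by
    simp only [Z, hE, Matrix.mul_add, Matrix.add_mul, Matrix.mul_one, Matrix.one_mul,
      Matrix.smul_mul, Matrix.mul_smul, Matrix.mul_assoc, Matrix.adjugate_mul, hX, smul_smul]
    congr 2
    push_cast
    ring
  have hdet : Z.det = 1 := by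
    have := congrArg Matrix.det hZ
    rw [Matrix.det_mul, Matrix.det_mul, γ.det_coe, mul_one] at this
    exact (mul_eq_right₀ hd).mp this.symm
  exact ⟨⟨Z, hdet⟩, ⟨_, rfl⟩, hZ⟩

theorem eq_of_mul_right {X : Matrix (Fin 2) (Fin 2) ℤ} (hX : X.det ≠ 0) {γ a b : SL(2, ℤ)}
    (ha : X * matSL γ = matSL a * X) (hb : X * matSL γ = matSL b * X) : a = b :=
  eq_of_matSL_mul hX (ha.symm.trans hb)

/-- Deep elements are in the level of the twisted class. -/
theorem IsDeep.mem' (h : TwistHyp q M₂ L) {γ : SL(2, ℤ)} (hγ : IsDeep q L 2 γ) :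
    γ ∈ gammaH (L * q ^ 2) χ' := by
  obtain ⟨E, hE⟩ := hγ
  have hr : ∀ r s, matSL γ r s =
      (1 : Matrix (Fin 2) (Fin 2) ℤ) r s + ((L * q ^ 2 : ℕ) : ℤ) * E r s := fun r s => by
    rw [hE]; rfl
  rw [mem_gammaH_iff h.dvd_level' (mem_gamma0_iff.mpr ⟨E 1 0, by rw [hr]; simp⟩)]
  intro v hv
  rw [show v = 1 from Units.ext (by
    rw [hv, hr, Units.val_one]
    have h0 : (((L * q ^ 2 : ℕ) : ℤ) : ZMod M₂) = 0 :=
      (ZMod.intCast_zmod_eq_zero_iff_dvd _ _).mpr (Int.natCast_dvd_natCast.mpr h.dvd_level')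
    rw [Int.cast_add, Int.cast_mul, h0]
    simp), map_one]

/-- The twist at a deep element. -/
theorem twMap_apply_deep (h : TwistHyp q M₂ L) (e : ℤ) (φ : Coh (L * q) (prodChar ψ χ') A)
    (γ : gammaH (L * q ^ 2) χ')
    (δ : haveI := neZero_q (q := q) (L := L); (ZMod q)ˣ → gammaH (L * q) (prodChar ψ χ'))
    (hδ : haveI := neZero_q (q := q) (L := L); ∀ u, twShift q (twArg e u) * matSL (γ : SL(2, ℤ)) =
      matSL (δ u : SL(2, ℤ)) * twShift q (twArg e u)) :
    haveI := neZero_q (q := q) (L := L)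
    twMap R h ψ χ' e φ (Additive.ofMul γ) =
      ∑ u, diamondAt R A (prodChar ψ χ') h.dvd_level (twGamma h ψ u) φ (Additive.ofMul (δ u)) := by
  have := neZero_q (q := q) (L := L)
  rw [twMap, famTransferL_apply, famTransfer_apply (isFam_tw h e) φ γ (σ := 1)
    (δ := fun u => ⟨_, conj_mem_gammaH h.dvd_level (twGamma h ψ u) (δ u).2⟩) (fun u => by
      show twFam h ψ e u * matSL (γ : SL(2, ℤ)) = matSL _ * twFam h ψ e u
      rw [twFam, Matrix.mul_assoc, hδ, matSL_mul, matSL_mul, Matrix.mul_assoc,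
        Matrix.mul_assoc, matSL_inv_mul_cancel, ← Matrix.mul_assoc])]
  exact Finset.sum_congr rfl fun u _ =>
    (diamondAt_apply_apply h.dvd_level (twGamma h ψ u) φ (δ u) rfl).symm

variable [NeZero q]

/-- Translates by elements with `u v` constant sum to zero. -/
theorem sum_translate_eq_zero (h : TwistHyp q M₂ L) {φ : Coh (L * q) (prodChar ψ χ') A}
    (hS : ∑ u, diamondAt R A (prodChar ψ χ') h.dvd_level (twGamma h ψ u) φ = 0)
    (w : (ZMod q)ˣ) (g : (ZMod q)ˣ → Gamma0 (L * q))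
    (hg : ∀ u, ZMod.unitsMap (dvd_mul_right q M₂) (dUnit h.dvd_level (g u)) = u⁻¹ * w)
    (hg' : ∀ u, ZMod.unitsMap (dvd_mul_left M₂ q) (dUnit h.dvd_level (g u)) = 1)
    (η : gammaH (L * q) (prodChar ψ χ')) (δ : (ZMod q)ˣ → gammaH (L * q) (prodChar ψ χ'))
    (hδ : ∀ u, (δ u : SL(2, ℤ)) = (g u : SL(2, ℤ)) * η * (g u : SL(2, ℤ))⁻¹) :
    ∑ u, diamondAt R A (prodChar ψ χ') h.dvd_level (twGamma h ψ u) φ (Additive.ofMul (δ u)) = 0 := by
  have hterm : ∀ u, diamondAt R A (prodChar ψ χ') h.dvd_level (twGamma h ψ u) φ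
      (Additive.ofMul (δ u)) =
      diamondAt R A (prodChar ψ χ') h.dvd_level (twGamma h ψ (w * w * u⁻¹)) φ
        (Additive.ofMul η) := by
    intro u
    have hc : prodChar ψ χ' (dUnit h.dvd_level (twGamma h ψ u * g u)) =
        prodChar ψ χ' (dUnit h.dvd_level (twGamma h ψ (w * w * u⁻¹))) := by
      rw [map_mul, map_mul, prodChar_twGamma, prodChar_twGamma, prodChar_apply (ψ := ψ), hg, hg',
        map_one, mul_one]
      refine mul_inv_eq_one.mp (eq_one_of_sq_eq_one ?_)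
      rw [mul_mul_mul_comm, ← mul_inv, mul_mul_mul_comm, twRoot_spec, twRoot_spec, ← map_mul,
        ← map_mul, mul_inv_eq_one]
      congr 1
      rw [← mul_assoc, ← mul_assoc, ← mul_assoc, mul_inv_cancel, one_mul, mul_right_comm]
    rw [← diamondAt_eq h.dvd_level hc,
      diamondAt_apply_apply h.dvd_level (twGamma h ψ u * g u) φ η
        (δ := ⟨_, conj_mem_gammaH h.dvd_level _ η.2⟩) rfl,
      diamondAt_apply_apply h.dvd_level (twGamma h ψ u) φ (δ u)
        (δ := ⟨_, conj_mem_gammaH h.dvd_level (twGamma h ψ u * g u) η.2⟩)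
        (by rw [hδ]; simp only [Subgroup.coe_mul, mul_inv_rev, mul_assoc])]
  rw [Finset.sum_congr rfl fun u _ => hterm u]
  have := DFunLike.congr_fun hS (Additive.ofMul η)
  rw [AddMonoidHom.finsetSum_apply, AddMonoidHom.zero_apply] at this
  rw [← this]
  exact Fintype.sum_equiv ((Equiv.inv _).trans (Equiv.mulLeft (w * w))) _ _ fun u => rfl

/-- The case of equal translates. -/
theorem sum_same_eq_zero (h : TwistHyp q M₂ L) {φ : Coh (L * q) (prodChar ψ χ') A}
    (hS : ∑ u, diamondAt R A (prodChar ψ χ') h.dvd_level (twGamma h ψ u) φ = 0)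
    (η : gammaH (L * q) (prodChar ψ χ')) :
    ∑ u, diamondAt R A (prodChar ψ χ') h.dvd_level (twGamma h ψ u) φ (Additive.ofMul η) = 0 := by
  have := DFunLike.congr_fun hS (Additive.ofMul η)
  rwa [AddMonoidHom.finsetSum_apply, AddMonoidHom.zero_apply] at this

variable (h : TwistHyp q M₂ L) (e : ℤ) {φ : Coh (L * q) (prodChar ψ χ') A}

/-- Along the lower unipotents, no shift. -/
theorem sum_lowRep_zero
    (hS : ∑ u, diamondAt R A (prodChar ψ χ') h.dvd_level (twGamma h ψ u) φ = 0)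
    (γ : SL(2, ℤ)) (δ : ZMod q → gammaH (L * q ^ 2) χ')
    (hδd : ∀ j, IsDeep q L 3 (δ j : SL(2, ℤ)))
    (hδ : ∀ j, lowRep q L j * matSL γ = matSL (δ j : SL(2, ℤ)) * lowRep q L j) :
    ∑ j, twMap R h ψ χ' 0 φ (Additive.ofMul (δ j)) = 0 := by
  refine Finset.sum_eq_zero fun j _ => ?_
  have hm : (δ j : SL(2, ℤ)) ∈ gammaH (L * q) (prodChar ψ χ') := (hδd j).mem h (by norm_num)
  rw [twMap_apply_deep h 0 φ (δ j) (fun _ => ⟨_, hm⟩) (fun u => by
    simp only [twArg, zero_mul]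
    ext r s
    fin_cases r <;> fin_cases s <;> simp [twShift, Matrix.mul_apply, Fin.sum_univ_two] <;> ring)]
  exact sum_same_eq_zero h hS _

theorem upRep_decomp (i j : ZMod q) (x : ℤ) (hx : ((j.val : ℤ) + x : ZMod q) = i) :
    ∃ m : ℤ, twShift q x * upRep q j =
      (q : ℤ) • (!![1, m; 0, 1] * upRep q i) := by
  obtain ⟨m, hm⟩ : (q : ℤ) ∣ ((j.val : ℤ) + x) - (i.val : ℤ) := by
    rw [← ZMod.intCast_zmod_eq_zero_iff_dvd]
    push_cast
    rw [← hx]
    simp
  refine ⟨m, ?_⟩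
  ext r s
  fin_cases r <;> fin_cases s <;> simp [twShift, upRep, Matrix.mul_apply, Fin.sum_univ_two, -ZMod.natCast_val]
  linear_combination (q : ℤ) * hm

/-- Along the upper triangular representatives. -/
theorem sum_upRep_zero
    (hS : ∑ u, diamondAt R A (prodChar ψ χ') h.dvd_level (twGamma h ψ u) φ = 0)
    {γ : SL(2, ℤ)} (hγ : IsDeep q L 6 γ) (δ : ZMod q → gammaH (L * q ^ 2) χ')
    (hδd : ∀ j, IsDeep q L 5 (δ j : SL(2, ℤ)))
    (hδ : ∀ j, upRep q j * matSL γ = matSL (δ j : SL(2, ℤ)) * upRep q j) :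
    ∑ j, twMap R h ψ χ' e φ (Additive.ofMul (δ j)) = 0 := by
  have hq := h.prime.ne_zero
  have hF : ∀ j (u : (ZMod q)ˣ), ∃ x : gammaH (L * q) (prodChar ψ χ'),
      twShift q (twArg e u) * matSL (δ j : SL(2, ℤ)) =
        matSL (x : SL(2, ℤ)) * twShift q (twArg e u) := fun j u => by
    obtain ⟨x, hx, he⟩ := exists_twConj hq (k := 3) (hδd j) (twArg e u)
    exact ⟨⟨x, hx.mem h (by norm_num)⟩, he⟩
  choose F hF using hF
  rw [Finset.sum_congr rfl fun j _ => twMap_apply_deep h e φ (δ j) (F j) (hF j)]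
  have hG : ∀ i : ZMod q, ∃ x : gammaH (L * q) (prodChar ψ χ'),
      upRep q i * matSL γ = matSL (x : SL(2, ℤ)) * upRep q i := fun i => by
    obtain ⟨x, hx, he⟩ := exists_deepConj hq (k := 5) (det_upRep q i) hγ
    exact ⟨⟨x, hx.mem h (by norm_num)⟩, he⟩
  choose G hG using hG
  have hterm : ∀ j u, diamondAt R A (prodChar ψ χ') h.dvd_level (twGamma h ψ u) φ
      (Additive.ofMul (F j u)) = diamondAt R A (prodChar ψ χ') h.dvd_level (twGamma h ψ u) φ
      (Additive.ofMul (G ((j.val : ℤ) + twArg e u : ZMod q))) := by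
    intro j u
    obtain ⟨m, hm⟩ := upRep_decomp _ j (twArg e u) rfl
    set i : ZMod q := ((j.val : ℤ) + twArg e u : ZMod q)
    let T : SL(2, ℤ) := ⟨!![1, m; 0, 1], by simp [Matrix.det_fin_two_of]⟩
    have hT : T ∈ gammaH (L * q) (prodChar ψ χ') := by
      rw [mem_gammaH_iff h.dvd_level (mem_gamma0_iff.mpr ⟨0, by simp [T, matSL]⟩)]
      intro v hv
      rw [show v = 1 from Units.ext (by rw [hv, Units.val_one]; simp [T, matSL]), map_one]
    have heq : F j u = ⟨T, hT⟩ * G i * ⟨T, hT⟩⁻¹ := by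
      refine Subtype.ext ?_
      refine eq_of_mul_right (X := twShift q (twArg e u) * upRep q j) (γ := γ) ?_ ?_ ?_
      · rw [Matrix.det_mul, det_twShift, det_upRep]
        exact mul_ne_zero (mul_ne_zero (Nat.cast_ne_zero.mpr hq) (Nat.cast_ne_zero.mpr hq))
          (pow_ne_zero _ (Nat.cast_ne_zero.mpr hq))
      · rw [Matrix.mul_assoc, hδ, ← Matrix.mul_assoc, hF, Matrix.mul_assoc]
      · rw [hm, show (!![1, m; 0, 1] : Matrix (Fin 2) (Fin 2) ℤ) = matSL T from rfl,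
          Matrix.smul_mul, Matrix.mul_assoc, hG, Matrix.mul_smul, Subgroup.coe_mul, Subgroup.coe_mul,
          Subgroup.coe_inv, matSL_mul, matSL_mul]
        simp only [Matrix.mul_assoc, matSL_inv_mul_cancel]
    rw [heq, ofMul_mul, ofMul_mul, ofMul_inv, map_add, map_add, map_neg, add_neg_cancel_comm]
  rw [Finset.sum_congr rfl fun j _ => Finset.sum_congr rfl fun u _ => hterm j u, Finset.sum_comm,
    Finset.sum_congr rfl fun u _ => Fintype.sum_equiv
      (Equiv.addRight ((twArg e u : ℤ) : ZMod q)) _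
      (fun i => diamondAt R A (prodChar ψ χ') h.dvd_level (twGamma h ψ u) φ (Additive.ofMul (G i)))
      (fun j => by simp), Finset.sum_comm]
  exact Finset.sum_eq_zero fun i _ => sum_same_eq_zero h hS _

/-- The translate `h` with `h Y = twShift x * lowRep j`, for `t = 1 / x + L j` a unit with inverse
`x'`. -/
theorem lowRep_decomp_unit (j : ZMod q) (x x' : ℤ)
    (hx : (x' : ZMod q) * (1 + (x : ZMod q) * L * j) = x) :
    ∃ g : Gamma0 (L * q), twShift q x * lowRep q L j = matSL (g : SL(2, ℤ)) * twShift q x' ∧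
      ((matSL (g : SL(2, ℤ)) 1 1 : ℤ) : ZMod q) = 1 - L * j * x' ∧
      matSL (g : SL(2, ℤ)) 1 1 = 1 - (L : ℤ) * (j.val : ℤ) * x' := by
  obtain ⟨b, hb⟩ : (q : ℤ) ∣ x - (1 + x * L * (j.val : ℤ)) * x' := by
    rw [← ZMod.intCast_zmod_eq_zero_iff_dvd]
    push_cast
    simp only [ZMod.natCast_val, ZMod.cast_id', id_eq]
    linear_combination -hx
  let g : SL(2, ℤ) := ⟨!![1 + x * L * (j.val : ℤ), b; ((L * q : ℕ) : ℤ) * (j.val : ℤ),
    1 - (L : ℤ) * (j.val : ℤ) * x'], by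
    rw [Matrix.det_fin_two_of]
    push_cast
    linear_combination ((L : ℤ) * (j.val : ℤ)) * hb⟩
  have hg : g ∈ Gamma0 (L * q) := mem_gamma0_iff.mpr ⟨j.val, by simp [g, matSL]⟩
  refine ⟨⟨g, hg⟩, ?_, ?_, rfl⟩
  · ext r s
    fin_cases r <;> fin_cases s <;>
      simp [twShift, lowRep, g, matSL, Matrix.mul_apply, Fin.sum_univ_two, -ZMod.natCast_val] <;>
      first | ring1 | linear_combination hb
  · simp [g, matSL]

/-- The translate at the remaining representative. -/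
theorem lowRep_decomp_zero (j : ZMod q) (x : ℤ) (hx : 1 + (x : ZMod q) * L * j = 0) :
    ∃ N : SL(2, ℤ), twShift q x * lowRep q L j = matSL N * !![(q : ℤ) * q, 0; 0, 1] ∧
      matSL N 1 0 = (L : ℤ) * (j.val : ℤ) ∧ matSL N 1 1 = q ∧ matSL N 0 1 = x ∧
      (q : ℤ) * matSL N 0 0 = 1 + x * L * (j.val : ℤ) := by
  obtain ⟨a, ha⟩ : (q : ℤ) ∣ 1 + x * L * (j.val : ℤ) := by
    rw [← ZMod.intCast_zmod_eq_zero_iff_dvd]
    push_cast
    simp only [ZMod.natCast_val, ZMod.cast_id', id_eq]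
    exact hx
  refine ⟨⟨!![a, x; (L : ℤ) * (j.val : ℤ), (q : ℤ)], by
    rw [Matrix.det_fin_two_of]; linear_combination -ha⟩, ?_, rfl, rfl, rfl, ha.symm⟩
  ext r s
  fin_cases r <;> fin_cases s <;>
    simp [twShift, lowRep, matSL, Matrix.mul_apply, Fin.sum_univ_two, -ZMod.natCast_val] <;>
    first | ring1 | linear_combination (q : ℤ) * ha

/-- Along the lower unipotents, with shifts. -/
theorem sum_lowRep_one
    (hS : ∑ u, diamondAt R A (prodChar ψ χ') h.dvd_level (twGamma h ψ u) φ = 0)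
    {γ : SL(2, ℤ)} (hγ : IsDeep q L 6 γ) (δ : ZMod q → gammaH (L * q ^ 2) χ')
    (hδd : ∀ j, IsDeep q L 5 (δ j : SL(2, ℤ)))
    (hδ : ∀ j, lowRep q L j * matSL γ = matSL (δ j : SL(2, ℤ)) * lowRep q L j) :
    ∑ j, twMap R h ψ χ' 1 φ (Additive.ofMul (δ j)) = 0 := by
  have hq := h.prime.ne_zero
  have : Fact q.Prime := ⟨h.prime⟩
  have hqq : (q : ℤ) * q ≠ 0 := mul_ne_zero (Nat.cast_ne_zero.mpr hq) (Nat.cast_ne_zero.mpr hq)
  have hF : ∀ j (u : (ZMod q)ˣ), ∃ x : gammaH (L * q) (prodChar ψ χ'),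
      twShift q (twArg 1 u) * matSL (δ j : SL(2, ℤ)) =
        matSL (x : SL(2, ℤ)) * twShift q (twArg 1 u) := fun j u => by
    obtain ⟨x, hx, he⟩ := exists_twConj hq (k := 3) (hδd j) (twArg 1 u)
    exact ⟨⟨x, hx.mem h (by norm_num)⟩, he⟩
  choose F hF using hF
  rw [Finset.sum_congr rfl fun j _ => twMap_apply_deep h 1 φ (δ j) (F j) (hF j), Finset.sum_comm]
  have hL : (L : ZMod q) ≠ 0 := by
    rw [Ne, ZMod.natCast_eq_zero_iff]; exact h.not_dvd
  let J : (ZMod q)ˣ → ZMod q → ZMod q := fun u t => (t - ((u⁻¹ : (ZMod q)ˣ) : ZMod q)) / L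
  have hJ : ∀ u, Function.Bijective (J u) := fun u => Finite.injective_iff_bijective.mp
    fun a b hab => sub_left_injective ((div_left_inj' hL).mp hab)
  rw [Finset.sum_congr rfl fun u _ => ((Equiv.ofBijective _ (hJ u)).sum_comp _).symm, Finset.sum_comm]
  refine Finset.sum_eq_zero fun t _ => ?_
  simp only [Equiv.ofBijective_apply]
  have hxu : ∀ u : (ZMod q)ˣ, ((twArg 1 u : ℤ) : ZMod q) = u := fun u => by simp [twArg]
  have hM : ∀ u : (ZMod q)ˣ, (u : ZMod q) * L * J u t = (u : ZMod q) * t - 1 := fun u => by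
    simp only [J, mul_assoc, mul_div_cancel₀ _ hL]
    rw [mul_sub, Units.mul_inv]
  have hconj : ∀ (Y : Matrix (Fin 2) (Fin 2) ℤ) (η : SL(2, ℤ)), Y.det ≠ 0 →
      Y * matSL γ = matSL η * Y → ∀ u (g : Gamma0 (L * q)),
      twShift q (twArg 1 u) * lowRep q L (J u t) = matSL (g : SL(2, ℤ)) * Y →
      (F (J u t) u : SL(2, ℤ)) = (g : SL(2, ℤ)) * η * (g : SL(2, ℤ))⁻¹ := by
    intro Y η hY hη u g hg
    refine eq_of_mul_right (X := twShift q (twArg 1 u) * lowRep q L (J u t)) (γ := γ) ?_ ?_ ?_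
    · rw [Matrix.det_mul, det_twShift, det_lowRep, pow_zero, mul_one]; exact hqq
    · rw [Matrix.mul_assoc, hδ, ← Matrix.mul_assoc, hF, Matrix.mul_assoc]
    · rw [hg, Matrix.mul_assoc, hη, matSL_mul, matSL_mul]
      simp only [Matrix.mul_assoc, matSL_inv_mul_cancel]
  have hunit : ∀ {n : ℕ} (hn : n ∣ q * M₂) (g : Gamma0 (L * q)) {v : (ZMod n)ˣ},
      ((matSL (g : SL(2, ℤ)) 1 1 : ℤ) : ZMod n) = v →
        ZMod.unitsMap hn (dUnit h.dvd_level g) = v := fun hn g v hv =>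
    Units.ext ((coe_unitsMap_eq _ (coe_dUnit h.dvd_level g)).trans hv)
  have hM₂ : ((L : ℤ) : ZMod M₂) = 0 :=
    (ZMod.intCast_zmod_eq_zero_iff_dvd _ _).mpr (Int.natCast_dvd_natCast.mpr h.dvd)
  rw [Int.cast_natCast] at hM₂
  rcases eq_or_ne t 0 with rfl | ht
  · have hdec : ∀ u : (ZMod q)ˣ, 1 + ((twArg 1 u : ℤ) : ZMod q) * L * J u 0 = 0 := fun u => by
      rw [hxu, hM, mul_zero, zero_sub, add_neg_cancel]
    choose N hN hN10 hN11 hN01 hN00 using fun u : (ZMod q)ˣ => lowRep_decomp_zero (q := q) (L := L) (J u 0) (twArg 1 u) (hdec u)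
    have hdetY : (matSL (N 1) * !![(q : ℤ) * q, 0; 0, 1]).det = (q : ℤ) ^ 2 := by
      rw [Matrix.det_mul, (N 1).det_coe, Matrix.det_fin_two_of]; ring
    obtain ⟨η, hηd, hη⟩ := exists_deepConj hq (k := 4) hdetY hγ
    have hg : ∀ u, N u * (N 1)⁻¹ ∈ Gamma0 (L * q) := fun u => mem_gamma0_iff.mpr
      ⟨(J u 0).val - (J 1 0).val, by
        rw [matSL_mul, Matrix.mul_apply, Fin.sum_univ_two, hN10, hN11,
          show matSL (N 1)⁻¹ = (matSL (N 1)).adjugate from Matrix.SpecialLinearGroup.coe_inv _,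
          Matrix.adjugate_fin_two]
        simp [hN10, hN11]
        ring⟩
    have hg11 : ∀ u, matSL (N u * (N 1)⁻¹) 1 1 =
        -((L : ℤ) * ((J u 0).val : ℤ) * twArg (q := q) 1 1) + (1 + twArg (q := q) 1 1 * L * ((J 1 0).val : ℤ)) := by
      intro u
      rw [matSL_mul, Matrix.mul_apply, Fin.sum_univ_two, hN10, hN11,
        show matSL (N 1)⁻¹ = (matSL (N 1)).adjugate from Matrix.SpecialLinearGroup.coe_inv _,
        Matrix.adjugate_fin_two, ← hN00 1]
      simp [hN01]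
    refine sum_translate_eq_zero h hS 1 (fun u => ⟨_, hg u⟩) (fun u => hunit _ _ ?_)
      (fun u => hunit _ _ ?_) ⟨η, hηd.mem h (by norm_num)⟩ (fun u => F (J u 0) u) fun u =>
        hconj _ η (by rw [hdetY]; exact pow_ne_zero _ (Nat.cast_ne_zero.mpr hq)) hη u ⟨_, hg u⟩ ?_
    · rw [mul_one]
      show ((matSL (N u * (N 1)⁻¹) 1 1 : ℤ) : ZMod q) = _
      rw [hg11]
      push_cast
      simp only [ZMod.natCast_val, ZMod.cast_id', id_eq]
      have e1 : (L : ZMod q) * J u 0 = -((u⁻¹ : (ZMod q)ˣ) : ZMod q) := by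
        simp only [J, mul_div_cancel₀ _ hL, zero_sub]
      rw [hdec 1, add_zero, e1, hxu, Units.val_one, mul_one, neg_neg, Units.val_inv_eq_inv_val]
    · show ((matSL (N u * (N 1)⁻¹) 1 1 : ℤ) : ZMod M₂) = _
      rw [hg11]
      push_cast
      rw [hM₂]
      simp
    · rw [hN, matSL_mul, Matrix.mul_assoc (matSL (N u)), ← Matrix.mul_assoc (matSL (N 1)⁻¹),
        ← matSL_mul, inv_mul_cancel, matSL_one, Matrix.one_mul]
  · set w : (ZMod q)ˣ := (Units.mk0 t ht)⁻¹
    have hx' : ((((w : ZMod q).val : ℤ)) : ZMod q) = w := by simp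
    have hdec : ∀ u : (ZMod q)ˣ, (((w : ZMod q).val : ℤ) : ZMod q) *
        (1 + ((twArg 1 u : ℤ) : ZMod q) * L * J u t) = (twArg 1 u : ℤ) := fun u => by
      rw [hxu, hx', hM, add_sub_cancel, mul_left_comm,
        show (w : ZMod q) * t = 1 from (Units.mk0 t ht).inv_mul, mul_one]
    choose g hg hgq hgi using fun u : (ZMod q)ˣ => lowRep_decomp_unit (q := q) (L := L) (J u t) (twArg 1 u) _ (hdec u)
    have hdetY : (twShift q ((w : ZMod q).val : ℤ)).det = (q : ℤ) ^ 2 := by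
      rw [det_twShift]; ring
    obtain ⟨η, hηd, hη⟩ := exists_deepConj hq (k := 4) hdetY hγ
    refine sum_translate_eq_zero h hS w g (fun u => hunit _ _ ?_) (fun u => hunit _ _ ?_)
      ⟨η, hηd.mem h (by norm_num)⟩ (fun u => F (J u t) u) fun u =>
        hconj _ η (by rw [det_twShift]; exact hqq) hη u (g u) (hg u)
    · rw [hgq, hx', Units.val_mul]
      have e1 : (L : ZMod q) * J u t = t - ((u⁻¹ : (ZMod q)ˣ) : ZMod q) := mul_div_cancel₀ _ hL
      rw [e1, sub_mul, show t * (w : ZMod q) = 1 from (Units.mk0 t ht).mul_inv, sub_sub_cancel]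
    · rw [hgi]
      push_cast
      rw [hM₂]
      simp

end FLTAgent.RT
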