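import Fermat.Agent.RT.Lower.Setup
import Fermat.Agent.RT.Main.InputsStrict

/-!
# A residual level bounds the ramification

If `E[p]` is modular of level `N`, it is unramified at the primes not dividing `N p`.
-/

set_option autoImplicit false
set_option linter.unusedSectionVars false

noncomputable section

open IsLocalRing Matrix Polynomial WeierstrassCurve FLTAgent.Deformation FLTAgent.GalRep
  FLTAgent.RT.Main

namespace FLTAgent.RT.Lower

local notation "Γℚ" => AlgebraicClosure ℚ ≃ₐ[ℚ] AlgebraicClosure ℚ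

variable {𝒪 : Type} [CommRing 𝒪] [IsDomain 𝒪] [IsDiscreteValuationRing 𝒪]
  [IsAdicComplete (maximalIdeal 𝒪) 𝒪] [Finite (ResidueField 𝒪)] [CharZero 𝒪]
  {W : WeierstrassCurve ℤ} {p : ℕ} [Fact p.Prime] {aux : Finset ℕ}
  (F : Main.Frame 𝒪 W p freeAt aux)

include F in
/-- A non-zero part has a maximal datum. -/
theorem exists_maxDatum_part {N : ℕ} [NeZero N]
    (hpart : cohPart trivChar (one_dvd N)
      (prime_famPrime (W := W) (p := p) (aux := lowAux aux N)) (famCoeff 𝒪) ≠ ⊥) :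
    ∃ b : ℕ → 𝒪, (∀ r : ℕ, r.Prime → r ∣ N → r ∈ ramSet F N ∪ aux) ∧
      Nonempty (MaxDatum N (ramSet F N ∪ aux) 𝒪 b F.rb) := by
  classical
  have := isAddTorsionFree_of_charZero (O := 𝒪)
  have := moduleFinite_coh (χ := trivChar) 𝒪 𝒪 (one_dvd N)
  have := moduleFree_coh (χ := trivChar) (O := 𝒪) (one_dvd N)
  set P := cohPart trivChar (one_dvd N) (prime_famPrime (W := W) (p := p) (aux := lowAux aux N))
    (famCoeff 𝒪) with hP
  have : IsNoetherian 𝒪 (Coh N trivChar 𝒪) := isNoetherian_of_isNoetherianRing_of_finite 𝒪 _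
  have : Module.Finite 𝒪 P := Module.IsNoetherian.finite 𝒪 _
  have : Module.Free 𝒪 P := Module.Free.of_basis
    (Submodule.basisOfPid (Module.Free.chooseBasis 𝒪 (Coh N trivChar 𝒪)) P).2
  have : Nontrivial P := Submodule.nontrivial_iff_ne_bot.mpr hpart
  obtain ⟨Θ, hΘ⟩ := exists_theta (χ := trivChar) (one_dvd N) prime_famPrime (famCoeff 𝒪)
    (nonEisLow F N) squarefree_one (fun r hr h => absurd (Nat.dvd_one.mp h) hr.ne_one)
    (mul_one N).symm
  obtain ⟨b, hb, hb'⟩ := exists_resCoeff F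
  set S := ramSet F N ∪ aux
  have hmin : F.minS ⊆ S := Finset.subset_union_left.trans Finset.subset_union_left
  have hS : ∀ r : ℕ, r.Prime → r ∣ N → r ∈ S := fun r hr hd =>
    mem_ramSet_union_aux F (NeZero.ne N) hr hd
  have hpS : p ∈ S := hmin (mem_minSet_self p F.disc_ne F.mem_p)
  obtain ⟨Mm⟩ := matModel_of_specializations specializationsExist N p S hS
  have hres : ∀ ℓ : ℕ, ℓ.Prime → ¬ ℓ ∣ N → ℓ ∉ S → ℓ ≠ p →
      ∀ A : ValuationSubring (AlgebraicClosure ℚ), A.LiesOverPrime ℓ →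
        ∀ σ : Γℚ, A.IsFrobeniusAt σ ℓ →
          LinearMap.trace (ResidueField 𝒪) _ (F.rb.ρ σ) = residue 𝒪 (b ℓ) :=
    fun ℓ hℓ _ hℓS _ A hA σ hσ => hb' ℓ hℓ (fun h => hℓS (hmin h)) A hA σ hσ
  let Θ' := Θ.comp (restrictAway hS)
  have hnil : ∀ (ℓ : ℕ) (hℓ : ℓ.Prime) (hℓN : ¬ ℓ ∣ N) (hℓS : ℓ ∉ (↑S : Set ℕ)),
      IsTopNilpotent (Θ' (CuspForm.heckeAlgebra.T hℓ hℓN hℓS) -
        algebraMap 𝒪 (Module.End 𝒪 P) (b ℓ)) := by
    intro ℓ hℓ hℓN hℓS
    obtain ⟨A, σ, hA, hσ⟩ := Frobenius.exists_liesOverPrime_isFrobeniusAt hℓ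
    refine isTopNilpotent_of_dropped Θ' Mm frobeniusDense F.mem_p b (excSet W p (lowAux aux N))
      (fun m hm hmN hmS hmb => ?_) F.rb
      (fun m hm hmN hmS hmp B hB τ hτ => hres m hm hmN (by simpa using hmS) hmp B hB τ hτ) hℓ hℓN
      hℓS (fun h => hℓS (by rw [h]; exact Finset.mem_coe.mpr hpS)) A hA σ hσ
    rw [hb m fun h => hmb (Finset.mem_union_left _ h)]
    exact isTopNilpotent_part (X := fun i => opP 𝒪 𝒪 trivChar (one_dvd N) (prime_famPrime i))
      (fun i j => opP_comm (χ := trivChar) 𝒪 𝒪 (one_dvd N) _ _) (famCoeff 𝒪)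
      (i := (⟨m, hm, hmb⟩ : Fam W p (lowAux aux N))) (fun v => hΘ _ hm hmN v)
  have := isLocalRing_heckeImage Θ' hS b hnil
  exact ⟨b, hS, exists_maxDatum Mm frobeniusDense hS hpS F.ne_two F.mem_p b F.rb F.absIrr ∅
    (fun ℓ h1 h2 h3 _ h5 => hres ℓ h1 h2 h3 h5) (heckeImage Θ') (toImage Θ')
    fun ℓ hℓ hℓN hℓS => mem_of_isTopNilpotent (heckeImage Θ').val Subtype.val_injective
      (by rw [map_sub, AlgHom.commutes]; exact hnil ℓ hℓ hℓN hℓS) _⟩

include F in
/-- **`E[p]` is unramified away from `p` and a residual level.** -/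
theorem isUnramifiedAt_of_modular {N : ℕ} [NeZero N] (hmod : W.IsResiduallyModularOfLevel p N)
    {l : ℕ} (hl : l.Prime) (hlp : l ≠ p) (hlN : ¬ l ∣ N) :
    Affine.Point.GaloisRepUnramifiedAt (K := AlgebraicClosure ℚ) ℚ
      (W.map (Int.castRingHom ℚ)) p l := by
  classical
  obtain ⟨b, hS, ⟨H⟩⟩ := exists_maxDatum_part F (part_ne_bot_of_modular F dvd_rfl hmod)
  have hpS : p ∈ ramSet F N ∪ aux := Finset.mem_union_left _
    (Finset.mem_union_left _ (mem_minSet_self p F.disc_ne F.mem_p))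
  obtain ⟨Mm⟩ := matModel_of_specializations specializationsExist N p (ramSet F N ∪ aux) hS
  have hD : problem 𝒪 p freeAt (insert p N.primeFactors) ∅ H.H.ρ := by
    refine ⟨⟨detIsCyclotomic_datum Mm frobeniusDense F.mem_p H.H, trivial, fun r hr hrS => ?_⟩,
      fun r hr => absurd hr (Finset.notMem_empty r)⟩
    simp only [Finset.mem_insert, Nat.mem_primeFactors, not_or, not_and] at hrS
    exact isUnramifiedAt_of_matModel Mm frobeniusDense F.mem_p H.H r hr fun h =>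
      (hr.dvd_mul.mp h).elim (fun h' => hrS.2 hr h' (NeZero.ne N))
        fun h' => hrS.1 ((Nat.prime_dvd_prime_iff_eq hr Fact.out).mp h')
  have hA : IsCoeff 𝒪 H.T := ⟨inferInstance, H.H.residue_surjective⟩
  obtain ⟨Nm, hNm, hlift, he⟩ := exists_isLift_of_residual_isEquiv hA H.H.ρ
    (ι := ResidueField.map (algebraMap 𝒪 H.T)) (fun r => rfl) H.residual
  have hc := cond_ofResidual ((isLocalType_free F.mem_p).isCond (insert p N.primeFactors) ∅) hA hNm
    hlift (cond_of_isEquiv ((isLocalType_free F.mem_p).isCond _ ∅) hA he hD)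
  refine (isUnramifiedAt_rbar_iff p F.disc_ne F.mem_p).mp
    (hc.1.2.2 l hl ?_)
  simp only [Finset.mem_insert, Nat.mem_primeFactors, not_or, not_and]
  exact ⟨hlp, fun _ h => absurd h hlN⟩

end FLTAgent.RT.Lower
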